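/-
TEAM TW56 -> S56, blocks LEC (local Euler characteristic) and LOCQ (architect helper61).
File 1: definitions for LEC.

`Γ` a finite group, `a : Γ → ZMod p` stands for the element `e = ∑ a(γ) γ` of `𝔽_p[Γ]`.
For an abelian group `X` with `Γ`-action, `opZ a : X →+ X` is `x ↦ ∑ a(γ) γ x` (coefficients lifted to
`ℕ` by `ZMod.val`); for `Γ`-stable subgroups `C ≤ A` with `p A ≤ C`, `eCard a A C = # e (A / C)`.
-/
import Fermat.Agent.CFT.Pos.Interface
import Fermat.Agent.CFT.Local.Tower2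

set_option autoImplicit false

noncomputable section

namespace Fermat.Agent.TW56.Loc

open Fermat.Agent.CFT Fermat.Agent.CFT.Top Fermat.Agent.CFT.Pos Fermat.Agent.CFT.Local Module
  CategoryTheory

/-- the additive form of a multiplicative action (use it as a local instance). -/
@[reducible] def addAct (Γ Y : Type) [Monoid Γ] [CommGroup Y] [MulDistribMulAction Γ Y] :
    DistribMulAction Γ (Additive Y) where
  smul γ u := Additive.ofMul (γ • Additive.toMul u)
  one_smul u := congrArg Additive.ofMul (one_smul Γ (Additive.toMul u))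
  mul_smul γ δ u := congrArg Additive.ofMul (mul_smul γ δ (Additive.toMul u))
  smul_zero γ := congrArg Additive.ofMul (smul_one γ)
  smul_add γ u v := congrArg Additive.ofMul (smul_mul' γ (Additive.toMul u) (Additive.toMul v))

section Op

variable {p : ℕ} {Γ : Type} [Group Γ] [Finite Γ] {X : Type} [AddCommGroup X]
  [DistribMulAction Γ X]

/-- the operator `x ↦ ∑_γ a(γ) γ x`. -/
def opZ (a : Γ → ZMod p) : X →+ X where
  toFun x := ∑ᶠ γ : Γ, (a γ).val • γ • x
  map_zero' := by simp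
  map_add' x y := by
    simp only [smul_add]
    exact finsum_add_distrib (Set.toFinite _) (Set.toFinite _)

lemma opZ_apply (a : Γ → ZMod p) (x : X) : opZ a x = ∑ᶠ γ : Γ, (a γ).val • γ • x := rfl

/-- `a * a = a` in `𝔽_p[Γ]`. -/
def IsIdem (a : Γ → ZMod p) : Prop := ∀ γ : Γ, ∑ᶠ δ : Γ, a δ * a (δ⁻¹ * γ) = a γ

/-- the augmentation of `a`. -/
def aug (a : Γ → ZMod p) : ZMod p := ∑ᶠ γ : Γ, a γ

variable (Γ) in
/-- `Γ`-stable subgroups. -/
def Stab (A : AddSubgroup X) : Prop := ∀ (γ : Γ), ∀ x ∈ A, γ • x ∈ A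

/-- `p A`. -/
abbrev pS (p : ℕ) (A : AddSubgroup X) : AddSubgroup X := A.map (nsmulAddMonoidHom p)

/-- `{x ∈ A : p x ∈ C}`. -/
abbrev pDiv (p : ℕ) (A C : AddSubgroup X) : AddSubgroup X := A ⊓ C.comap (nsmulAddMonoidHom p)

/-- `# e (A / C) = [C + e A : C]`. -/
def eCard (a : Γ → ZMod p) (A C : AddSubgroup X) : ℕ := C.relIndex (C ⊔ A.map (opZ a))

/-- the operator `F ↦ (c ↦ ∑_γ a(γ) F(c γ))` on `Map(Γ, 𝔽_p)`. -/
def regOp (a : Γ → ZMod p) : (Γ → ZMod p) →ₗ[ZMod p] (Γ → ZMod p) where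
  toFun F c := ∑ᶠ γ : Γ, a γ * F (c * γ)
  map_add' F F' := by
    funext c
    simp only [Pi.add_apply, mul_add]
    exact finsum_add_distrib (Set.toFinite _) (Set.toFinite _)
  map_smul' t F := by
    funext c
    simp only [Pi.smul_apply, smul_eq_mul, RingHom.id_apply]
    rw [mul_finsum' _ _ (Set.toFinite _)]
    exact finsum_congr fun γ => by ring

/-- `dim e 𝔽_p[Γ]`. -/
def rk (a : Γ → ZMod p) : ℕ := finrank (ZMod p) (LinearMap.range (regOp a))

end Op

section RT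

variable {k : Type} [CommRing k] {G : Type} [Group G] (W : Subgroup G) [W.Normal] [W.FiniteIndex]
  (A : Rep.{0} k G) (b : G ⧸ W → k)

omit [W.FiniteIndex] in
lemma smul_mul_quot (g : G) (c γ : G ⧸ W) : g • (c * γ) = (g • c) * γ := by
  induction c using QuotientGroup.induction_on
  induction γ using QuotientGroup.induction_on
  exact congrArg _ (mul_assoc _ _ _).symm

/-- right translations: `F ↦ (c ↦ ∑_γ b(γ) F(c γ))` on `Map(G/W, A)`. -/
def rtLin : (G ⧸ W → A) →ₗ[k] (G ⧸ W → A) where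
  toFun F c := ∑ᶠ γ : G ⧸ W, b γ • F (c * γ)
  map_add' F F' := by
    funext c
    simp only [Pi.add_apply, smul_add]
    exact finsum_add_distrib (Set.toFinite _) (Set.toFinite _)
  map_smul' t F := by
    funext c
    simp only [Pi.smul_apply, RingHom.id_apply]
    rw [smul_finsum' _ (Set.toFinite _)]
    exact finsum_congr fun γ => smul_comm _ _ _

lemma rtLin_apply (F : G ⧸ W → A) (c : G ⧸ W) :
    rtLin W A b F c = ∑ᶠ γ : G ⧸ W, b γ • F (c * γ) := rfl

lemma rtLin_comm (g : G) (F : G ⧸ W → A) :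
    rtLin W A b ((mapRep (G ⧸ W) A).ρ g F) = (mapRep (G ⧸ W) A).ρ g (rtLin W A b F) := by
  funext c
  rw [rtLin_apply, mapRep_ρ_apply, rtLin_apply, map_finsum _ (Set.toFinite _)]
  refine finsum_congr fun γ => ?_
  rw [mapRep_ρ_apply, map_smul, smul_mul_quot]

/-- right translations as an endomorphism of `Map(G/W, A) = tw W A`. -/
def rtOp : mapRep (G ⧸ W) A ⟶ mapRep (G ⧸ W) A :=
  Rep.ofHom ⟨rtLin W A b, fun g => LinearMap.ext fun F => rtLin_comm W A b g F⟩

lemma rtOp_apply (F : G ⧸ W → A) (c : G ⧸ W) :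
    (rtOp W A b).hom F c = ∑ᶠ γ : G ⧸ W, b γ • F (c * γ) := rfl

end RT

section Balls

variable {L : Type} [NormedField L]

/-- the closed ball of radius `r` as an additive subgroup. -/
def ballA (h : IsUltrametricDist L) (r : NNReal) : AddSubgroup L where
  carrier := {x | ‖x‖ ≤ r}
  zero_mem' := by simp
  add_mem' {x y} hx hy := (IsUltrametricDist.norm_add_le_max x y).trans (max_le hx hy)
  neg_mem' {x} hx := by simpa using hx

lemma mem_ballA (h : IsUltrametricDist L) (r : NNReal) (x : L) : x ∈ ballA h r ↔ ‖x‖ ≤ r := Iff.rfl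

/-- the units `u` with `‖u‖ = 1`, `‖u - 1‖ ≤ r`. -/
def UM (h : IsUltrametricDist L) (r : NNReal) : Subgroup Lˣ where
  carrier := {x | ‖(x : L)‖ = 1 ∧ ‖(x : L) - 1‖ ≤ r}
  one_mem' := by simp
  mul_mem' := by
    rintro x y ⟨hx, hx'⟩ ⟨hy, hy'⟩
    refine ⟨by simp [hx, hy], ?_⟩
    have e : ((x * y : Lˣ) : L) - 1 = x * (y - 1) + (x - 1) := by push_cast; ring
    rw [e]
    refine (IsUltrametricDist.norm_add_le_max _ _).trans (max_le ?_ hx')
    rw [norm_mul, hx, one_mul]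
    exact hy'
  inv_mem' := by
    rintro x ⟨hx, hx'⟩
    have hx1 : ‖((x⁻¹ : Lˣ) : L)‖ = 1 := by simp [hx]
    refine ⟨hx1, ?_⟩
    have e : ((x⁻¹ : Lˣ) : L) - 1 = -(((x⁻¹ : Lˣ) : L) * (x - 1)) := by
      have h1 : ((x⁻¹ : Lˣ) : L) * x = 1 := by simp
      linear_combination h1
    rw [e, norm_neg, norm_mul, hx1, one_mul]
    exact hx'

/-- the same as a subgroup of `Additive Lˣ`. -/
def UA (h : IsUltrametricDist L) (r : NNReal) : AddSubgroup (Additive Lˣ) :=
  Subgroup.toAddSubgroup (UM h r)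

lemma mem_UA (h : IsUltrametricDist L) (r : NNReal) (u : Additive Lˣ) :
    u ∈ UA h r ↔ ‖((Additive.toMul u : Lˣ) : L)‖ = 1 ∧ ‖((Additive.toMul u : Lˣ) : L) - 1‖ ≤ r :=
  Iff.rfl

/-- the lattice `∑_g O_K g θ`, `K = L^Γ`. -/
def nbLat (Γ : Type) [Group Γ] [MulSemiringAction Γ L] (θ : L) : AddSubgroup L :=
  AddSubgroup.closure {x | ∃ (c : L) (g : Γ), (∀ h : Γ, h • c = c) ∧ ‖c‖ ≤ 1 ∧ x = c * g • θ}

end Balls

end Fermat.Agent.TW56.Loc

end
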