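/-
TEAM TW56 -> S56, block LEC : THE LOCAL EULER CHARACTERISTIC (architect helper61).  INTERFACE.

TARGET `Stmt_LEC` : for all primes `q, p` and every good `Y : Rep (ZMod p) (Gq q)`:
      `χ(G_{ℚ_q}, Y) = h⁰ - h¹ + h² = - [q = p] dim Y`.

ROUTE.  `G = G_{ℚ_q}`, `W` a normal level fixing `μ_p`, `Γ = G/W`, `L = Ω^W`, `N = μ_p`.  An idempotent
`e = ∑ a(γ) γ ∈ 𝔽_p[Γ]` acts on `tw W N = Map(Γ, μ_p)` by right translations (`rtOp W N a`).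
(a) the explicit Kummer map `Lˣ = H⁰(G, Map(Γ, Ωˣ)) → H¹(G, Map(Γ, μ_p))` is injective mod `p`-th powers and
    commutes with `e`                                  ⟹ `# e H¹(tw W N) ≥ # e (Lˣ/p)`        [block K]
(b) `# e (Lˣ/p) = # e μ_p(L) · # e 𝔽_p · (# O_K/p)^(dim e 𝔽_p[Γ])`                              [blocks A, R, C]
(c) `# e H⁰(tw W N) ≤ # e μ_p(L)`, `# e H²(tw W N) ≤ # e 𝔽_p`                                   [block K]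
So `f = χ + ε dim` is `≤ 0` on `e (tw W N)` and on `(1 - e) (tw W N)`, and `f (tw W N) = f (perm W) = 0`:
`f = 0` on all retracts of `perm W`.  Then `Stmt_INDproj` (block IND) gives `f = 0`.

Every `Stmt_xxx` is one work package: prove `theorem stmt_xxx : (deps →) Stmt_xxx` in the file named in
the task.  Put `attribute [local instance] Units.mulDistribMulActionRight`,
`attribute [local instance] quotAct` and `attribute [local instance] addAct` at the top of your file when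
units / fixed fields occur.
-/
import Fermat.Agent.TW56.Loc.Defs

set_option autoImplicit false

noncomputable section

namespace Fermat.Agent.TW56.Loc

open Fermat.Agent.CFT Fermat.Agent.CFT.Top Fermat.Agent.CFT.Pos Fermat.Agent.CFT.Local Module
  CategoryTheory ExtCitation

attribute [local instance] Units.mulDistribMulActionRight
attribute [local instance] quotAct
attribute [local instance] addAct

/-! ## Block A : abelian groups with operators -/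

/-- A0. `opZ a` preserves stable subgroups, and is idempotent modulo `p`. -/
def Stmt_opZ : Prop :=
  ∀ (p : ℕ) [Fact p.Prime] (Γ : Type) [Group Γ] [Finite Γ] (X : Type) [AddCommGroup X]
    [DistribMulAction Γ X] (a : Γ → ZMod p) (A : AddSubgroup X), Stab Γ A →
    (∀ x ∈ A, opZ a x ∈ A) ∧ (IsIdem a → ∀ x ∈ A, opZ a (opZ a x) - opZ a x ∈ pS p A)

/-- A1. MULTIPLICATIVITY `# e(A/C) = # e(A/B) # e(B/C)`.  [`C ≤ C + eB ≤ C + eA`;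
`(C + eA) ∩ B = C + eB` because `e(ea) ≡ ea mod pA ≤ C`; `(C + eA) + B = B + eA`; second isomorphism
theorem.  No finiteness is needed.] -/
def Stmt_eMul : Prop :=
  ∀ (p : ℕ) [Fact p.Prime] (Γ : Type) [Group Γ] [Finite Γ] (X : Type) [AddCommGroup X]
    [DistribMulAction Γ X] (a : Γ → ZMod p), IsIdem a → ∀ A B C : AddSubgroup X,
    Stab Γ A → Stab Γ B → Stab Γ C → C ≤ B → B ≤ A → pS p A ≤ C →
    eCard a A C = eCard a A B * eCard a B C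

/-- A2. TRANSPORT along a map `φ` which induces an equivariant isomorphism `A/C ≅ A'/C'`
(`φ` need not be additive: `u ↦ u - 1`). -/
def Stmt_eTransport : Prop :=
  ∀ (p : ℕ) [Fact p.Prime] (Γ : Type) [Group Γ] [Finite Γ] (X X' : Type) [AddCommGroup X]
    [DistribMulAction Γ X] [AddCommGroup X'] [DistribMulAction Γ X'] (a : Γ → ZMod p)
    (A C : AddSubgroup X) (A' C' : AddSubgroup X') (φ : X → X'),
    Stab Γ A → Stab Γ C → Stab Γ A' → Stab Γ C' → C ≤ A → C' ≤ A' →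
    (∀ x ∈ A, φ x ∈ A') → (∀ x ∈ A, ∀ y ∈ A, φ (x + y) - φ x - φ y ∈ C') →
    (∀ (γ : Γ), ∀ x ∈ A, φ (γ • x) - γ • φ x ∈ C') →
    (∀ x ∈ A, (φ x ∈ C' ↔ x ∈ C)) → (∀ y ∈ A', ∃ x ∈ A, y - φ x ∈ C') →
    eCard a A C = eCard a A' C'

/-- A3. THE FINITE MODULE LEMMA `# e(Q[p]) = # e(Q/p)` for the finite module `Q = A/C`.
[Strong induction on `[A : C]`.  `S = pDiv p A C`, `A₁ = pA + C`.  If `A₁ = A` then `S = C` and both sides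
are `1`.  Otherwise apply the induction hypothesis to `(A₁, C)`: `pDiv p A₁ C = S ∩ A₁`,
`pA₁ + C = p²A + C`.  A1: `#e(S/C) = #e(S/S∩A₁) #e(S∩A₁/C)`, `#e(A/A₁) = #e(A/S+A₁) #e(S+A₁/A₁)`.
A2 with `φ = id`: `#e(S+A₁/A₁) = #e(S/S∩A₁)`.  A2 with `φ = p •`: `#e(A/S+A₁) = #e(A₁/p²A+C)`.] -/
def Stmt_eFinite : Prop :=
  ∀ (p : ℕ) [Fact p.Prime] (Γ : Type) [Group Γ] [Finite Γ] (X : Type) [AddCommGroup X]
    [DistribMulAction Γ X] (a : Γ → ZMod p), IsIdem a → ∀ A C : AddSubgroup X,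
    Stab Γ A → Stab Γ C → C ≤ A → C.relIndex A ≠ 0 →
    eCard a (pDiv p A C) C = eCard a A (pS p A ⊔ C)

/-- A4. THE INDEX LEMMA `# e(X/p) = # e(B/p) # e(X[p])`.  [A3 for `(⊤, pB)`: `pDiv = B + X[p]`; A1 with
the middle term `pB + X[p]`; A2 with `φ = id` twice.] -/
def Stmt_eIndex : Prop :=
  ∀ (p : ℕ) [Fact p.Prime] (Γ : Type) [Group Γ] [Finite Γ] (X : Type) [AddCommGroup X]
    [DistribMulAction Γ X] (a : Γ → ZMod p), IsIdem a → ∀ B : AddSubgroup X,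
    Stab Γ B → (pS p B).index ≠ 0 → (∀ x ∈ B, p • x = 0 → x = 0) →
    eCard a (⊤ : AddSubgroup X) (pS p ⊤) =
      eCard a B (pS p B) * Nat.card ((nsmulAddMonoidHom (α := X) p).ker.map (opZ a))

/-- A5. INDEPENDENCE OF THE LATTICE.  [A3 for `(Λ, pΛ')`: `pDiv = Λ'`, `pΛ + pΛ' = pΛ`.] -/
def Stmt_eLattice : Prop :=
  ∀ (p : ℕ) [Fact p.Prime] (Γ : Type) [Group Γ] [Finite Γ] (X : Type) [AddCommGroup X]
    [DistribMulAction Γ X] (a : Γ → ZMod p), IsIdem a → (∀ x : X, p • x = 0 → x = 0) →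
    ∀ Λ Λ' : AddSubgroup X, Stab Γ Λ → Stab Γ Λ' → Λ' ≤ Λ → (pS p Λ').relIndex Λ ≠ 0 →
    eCard a Λ' (pS p Λ') = eCard a Λ (pS p Λ)

/-! ## Block R : the regular representation -/

/-- R1. `# e Map(Γ, V) = (# V)^(rk a)` for a finite group `V` killed by `p` (left regular action).
[`V ≅ 𝔽_p^d`; the operator acts coordinatewise; `F ↦ F ∘ inv` exchanges it with `regOp a`.] -/
def Stmt_eReg : Prop :=
  ∀ (p : ℕ) [Fact p.Prime] (Γ : Type) [Group Γ] [Finite Γ] (a : Γ → ZMod p) (V : Type)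
    [AddCommGroup V] [Finite V], (∀ v : V, p • v = 0) →
    Nat.card (Set.range fun (F : Γ → V) (g : Γ) => ∑ᶠ γ : Γ, (a γ).val • F (γ⁻¹ * g)) =
      Nat.card V ^ rk a

/-- R2. the normal basis lattice: `# e(Λ/pΛ) = (# O_K/p)^(rk a)`, `Λ = ∑_g O_K g θ`.
[`Λ ≅ Map(Γ, O_K)`, `γ (∑ c_g gθ) = ∑ c_g (γg)θ`; `pΛ ≅ Map(Γ, pO_K)`; `# O_K/ϖ^k O_K = q_K^k`
(`Local.reps` for `K`, `Local.fixedLoc`); R1 with `V = O_K/pO_K`.] -/
def Stmt_eNB : Prop :=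
  ∀ (Γ L : Type) [Group Γ] [Finite Γ] [NormedField L] [MulSemiringAction Γ L], LocAct Γ L →
    ∀ (p : ℕ) [Fact p.Prime] (a : Γ → ZMod p) (ϖ : L) (k : ℕ), IsUnifFix (⊤ : Subgroup Γ) ϖ →
    ‖(p : L)‖ = ‖ϖ‖ ^ k → ∀ θ : L,
    (∀ c : Γ → L, (∀ g h : Γ, h • c g = c g) → ∑ᶠ g : Γ, c g * g • θ = 0 → ∀ g, c g = 0) →
    eCard a (nbLat Γ θ) (pS p (nbLat Γ θ)) = (resCard (FixedPoints.subfield Γ L) ^ k) ^ rk a

/-! ## Block C : local fields -/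

/-- C1. balls: `# e(B_r / p B_r) = (# O_K/p)^(rk a)`.  [`p B_r = B_{|p| r}`.  `θ, c` from
`Local.all_lattice`; `t ∈ K` small: `tΛ ≤ B_r`, of finite index (`B_r` is compact, `Local.proper`, and
`p t Λ ⊇ B_{c |pt|}` is open); A5; A2 with `φ = t *`; R2.] -/
def Stmt_eBall : Prop :=
  ∀ (Γ L : Type) [Group Γ] [Finite Γ] [NormedField L] [MulSemiringAction Γ L] (hL : LocAct Γ L)
    (p : ℕ) [Fact p.Prime] (a : Γ → ZMod p), IsIdem a → ∀ (ϖ : L) (k : ℕ),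
    IsUnifFix (⊤ : Subgroup Γ) ϖ → ‖(p : L)‖ = ‖ϖ‖ ^ k → ∀ r : NNReal, 0 < r →
    eCard a (ballA hL.loc.ultra r) (ballA hL.loc.ultra (‖(p : L)‖₊ * r)) =
      (resCard (FixedPoints.subfield Γ L) ^ k) ^ rk a

/-- C2. `U_r / U_{|p| r} ≅ B_r / B_{|p| r}` for `r ≤ |p|`, `r < 1`.  [A2 with `φ u = u - 1`.] -/
def Stmt_eUnitsAdd : Prop :=
  ∀ (Γ L : Type) [Group Γ] [Finite Γ] [NormedField L] [MulSemiringAction Γ L] (hL : LocAct Γ L)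
    (p : ℕ) [Fact p.Prime] (a : Γ → ZMod p) (r : NNReal), 0 < r → r < 1 → r ≤ ‖(p : L)‖₊ →
    eCard a (UA hL.loc.ultra r) (UA hL.loc.ultra (‖(p : L)‖₊ * r)) =
      eCard a (ballA hL.loc.ultra r) (ballA hL.loc.ultra (‖(p : L)‖₊ * r))

/-- C3. `# e(Lˣ/p) = # e μ_p(L) · # e 𝔽_p · # e(U_r/U_{|p| r})` for `0 < r < |p|`.
[A4 with `B = ϖ^ℤ U_r` (`ϖ ∈ K`!): `pB = ϖ^{pℤ} U_{|p| r}` (`PowIndex.exists_pow_eq`,
`PowIndex.norm_pow_sub_one`), `B ∩ μ_p = 1`, finite index.  A1 with the middle term `ϖ^{pℤ} U_r`;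
`e ϖ = ϖ^s`, `s = ∑ (a γ).val ≡ aug a`; A2 with `φ = id`.] -/
def Stmt_eUnits : Prop :=
  ∀ (Γ L : Type) [Group Γ] [Finite Γ] [NormedField L] [MulSemiringAction Γ L] (hL : LocAct Γ L)
    (p : ℕ) [Fact p.Prime] (a : Γ → ZMod p), IsIdem a → ∀ r : NNReal, 0 < r → r < ‖(p : L)‖₊ →
    eCard a (⊤ : AddSubgroup (Additive Lˣ)) (pS p ⊤) =
      Nat.card ((nsmulAddMonoidHom (α := Additive Lˣ) p).ker.map (opZ a)) *
        (if aug a = 0 then 1 else p) *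
        eCard a (UA hL.loc.ultra r) (UA hL.loc.ultra (‖(p : L)‖₊ * r))

/-- C4. **the equivariant index of the `p`-th powers.**  [C1, C2, C3.] -/
def Stmt_eMain : Prop :=
  ∀ (Γ L : Type) [Group Γ] [Finite Γ] [NormedField L] [MulSemiringAction Γ L], LocAct Γ L →
    ∀ (p : ℕ) [Fact p.Prime] (a : Γ → ZMod p), IsIdem a → ∀ (ϖ : L) (k : ℕ),
    IsUnifFix (⊤ : Subgroup Γ) ϖ → ‖(p : L)‖ = ‖ϖ‖ ^ k →
    eCard a (⊤ : AddSubgroup (Additive Lˣ)) (pS p ⊤) =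
      Nat.card ((nsmulAddMonoidHom (α := Additive Lˣ) p).ker.map (opZ a)) *
        (if aug a = 0 then 1 else p) * (resCard (FixedPoints.subfield Γ L) ^ k) ^ rk a

/-! ## Block K : cohomology -/

/-- K1. THE NATURAL KUMMER MAP.  [`κ m = cls1 (g ↦ j⁻¹ (g m' - m'))`, `p m' = m` (`Top/SCb.lean`: `Z1`,
`cls1`, `cls1_eq_zero_iff`, `mapH_cls1`); independent of `m'`; `E' m'` is a `p`-th root of `E' m`.] -/
def Stmt_kumNat : Prop :=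
  ∀ (p : ℕ) [Fact p.Prime] (G : Type) [Group G] (𝒰 : LevelSys G) (M : Rep.{0} ℤ G)
    (T : Rep.{0} (ZMod p) G) (j : T →+ M),
    IsDisc 𝒰 M → (∀ m : M, ∃ m' : M, p • m' = m) → Function.Injective j →
    (∀ (g : G) (t : T), j (T.ρ g t) = M.ρ g (j t)) → (∀ m : M, p • m = 0 ↔ ∃ t, j t = m) →
    ∃ κ : ↥(invAdd M) →+ Hlc 𝒰 T 1,
      (∀ m, κ m = 0 ↔ ∃ m' : ↥(invAdd M), p • m' = m) ∧
      ∀ (E : T ⟶ T) (E' : M →+ M) (hE' : ∀ (g : G) (m : M), E' (M.ρ g m) = M.ρ g (E' m)),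
        (∀ t, j (E.hom t) = E' (j t)) →
        ∀ m : ↥(invAdd M), HM 𝒰 E 1 (κ m) = κ ⟨E' m.1, fun g => by rw [← hE', m.2 g]⟩

/-- the hypotheses "`N ≅ μ_p(Ω)`" of `Local.Stmt_towerKummer2`. -/
def IsMuEmb {𝒢 Ω : Type} [Group 𝒢] [Field Ω] [MulSemiringAction 𝒢 Ω] {p : ℕ}
    (N : Rep.{0} (ZMod p) 𝒢) (e : N →+ Additive Ωˣ) : Prop :=
  Function.Injective e ∧
    (∀ (g : 𝒢) (n : N), e (N.ρ g n) = Additive.ofMul (g • (e n).toMul)) ∧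
    (∀ z : Ωˣ, z ^ p = 1 → ∃ n : N, e n = Additive.ofMul z)

/-- K2. `# e H¹(G, Map(Γ, μ_p)) ≥ # e(Lˣ/p)`.  [K1 with `M = mapRep (𝒢 ⧸ W) (unitsRep 𝒢 Ω)`,
`T = tw W N`, `j = e ∘ -`, `E = rtOp W N a`, `E' = rtLin` with the coefficients `(a γ).val`.
`M^𝒢 ≅ Lˣ`, `Φ ↦ Φ 1`, inverse `x ↦ (c ↦ c x)`; it carries `E'` to `opZ a`.] -/
def Stmt_kumTw : Prop :=
  ∀ (𝒢 Ω : Type) [Group 𝒢] [NormedField Ω] [MulSemiringAction 𝒢 Ω] (𝒰 : LevelSys 𝒢),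
    LocTower 𝒢 Ω 𝒰 → ∀ (p : ℕ) [Fact p.Prime], (p : Ω) ≠ 0 →
    ∀ (N : Rep.{0} (ZMod p) 𝒢) (e : N →+ Additive Ωˣ), IsMuEmb N e →
    ∀ (W : Subgroup 𝒢) [W.Normal] [W.FiniteIndex], W ∈ 𝒰.S → ∀ a : 𝒢 ⧸ W → ZMod p,
    Module.Finite (ZMod p) (Hlc 𝒰 (mapRep (𝒢 ⧸ W) N) 1) →
    eCard a (⊤ : AddSubgroup (Additive (FixedPoints.subfield W Ω)ˣ)) (pS p ⊤) ≤
      Nat.card (LinearMap.range (HM 𝒰 (rtOp W N a) 1))

/-- K3. `# e H⁰(G, Map(Γ, μ_p)) ≤ # e μ_p(L)`.  [`H⁰ = invariants` (`cls0`, `H0Equiv`, `mapH_cls0`);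
an invariant `F` is `c ↦ c (F 1)`, `F 1 ∈ N^W ≅ μ_p(L)`.] -/
def Stmt_h0Tw : Prop :=
  ∀ (𝒢 Ω : Type) [Group 𝒢] [Field Ω] [MulSemiringAction 𝒢 Ω] (𝒰 : LevelSys 𝒢)
    (p : ℕ) [Fact p.Prime] (N : Rep.{0} (ZMod p) 𝒢) (e : N →+ Additive Ωˣ), IsMuEmb N e →
    ∀ (W : Subgroup 𝒢) [W.Normal] [W.FiniteIndex] (a : 𝒢 ⧸ W → ZMod p),
    Nat.card (LinearMap.range (HM 𝒰 (rtOp W N a) 0)) ≤
      Nat.card ((nsmulAddMonoidHom (α := Additive (FixedPoints.subfield W Ω)ˣ) p).ker.map (opZ a))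

/-- K4. `# e H²(G, Map(Γ, μ_p)) ≤ # e 𝔽_p`.  [`α : H²(Y) ≅ Hom_G(Y, N)^*`, `Y = tw W N`;
`α (E_* z) ε = α z (ε ∘ E)`; `Hom_G(tw W N, N)` is spanned by `twSum W N`
(`ε (δ_c n) = c ε(δ_1 c⁻¹ n) = λ n`) and `twSum ∘ rtOp a = aug a • twSum`.] -/
def Stmt_h2Tw : Prop :=
  ∀ (p : ℕ) [Fact p.Prime] (G : Type) [Group G] (𝒰 : LevelSys G) (χ : G →* (ZMod p)ˣ)
    (N : Rep.{0} (ZMod p) G) (lam : Hlc 𝒰 N 2 →ₗ[ZMod p] ZMod p), IsMu χ N →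
    ∀ (W : Subgroup G) [W.Normal] [W.FiniteIndex], PerfE 𝒰 N lam (mapRep (G ⧸ W) N) →
    ∀ a : G ⧸ W → ZMod p,
    Nat.card (LinearMap.range (HM 𝒰 (rtOp W N a) 2)) ≤ (if aug a = 0 then 1 else p)

/-- K5. every endomorphism of `Map(Γ, N)` is a right translation operator.
[`a γ` = the scalar `n ↦ E(δ_γ n)(1)`; `rtOp a ∘ rtOp b = rtOp (a * b)`; `a ↦ rtOp a` is injective.] -/
def Stmt_endTw : Prop :=
  ∀ (p : ℕ) [Fact p.Prime] (G : Type) [Group G] (χ : G →* (ZMod p)ˣ) (N : Rep.{0} (ZMod p) G),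
    IsMu χ N → ∀ (W : Subgroup G) [W.Normal] [W.FiniteIndex]
    (E : mapRep (G ⧸ W) N ⟶ mapRep (G ⧸ W) N),
    ∃ a : G ⧸ W → ZMod p, (∀ F, E.hom F = (rtOp W N a).hom F) ∧
      ((∀ F, E.hom (E.hom F) = E.hom F) → IsIdem a)

/-- K6. the rank of a right translation operator. -/
def Stmt_rkTw : Prop :=
  ∀ (p : ℕ) [Fact p.Prime] (G : Type) [Group G] (χ : G →* (ZMod p)ˣ) (N : Rep.{0} (ZMod p) G),
    IsMu χ N → ∀ (W : Subgroup G) [W.Normal] [W.FiniteIndex] (a : G ⧸ W → ZMod p),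
    finrank (ZMod p) (LinearMap.range (rtLin W N a)) = rk a

/-- K7. cohomology of a retract.  [`stmt_HMfun`.] -/
def Stmt_retract : Prop :=
  ∀ (k : Type) [Field k] (G : Type) [Group G] (𝒰 : LevelSys G) (P X : Rep.{0} k G)
    (i : P ⟶ X) (r : X ⟶ P) (E : X ⟶ X), (∀ x, r.hom (i.hom x) = x) →
    (∀ x, E.hom x = i.hom (r.hom x)) →
    Nonempty (P ≃ₗ[k] LinearMap.range E.hom.toLinearMap) ∧
    ∀ n : ℕ, Nonempty (Hlc 𝒰 P n ≃ₗ[k] LinearMap.range (HM 𝒰 E n))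

/-- K8. `Map(Γ, μ_p) ≅ perm W` when `W` fixes `μ_p`.  [`F ↦ (c ↦ F(c) • c n₀)`.] -/
def Stmt_twMuPerm : Prop :=
  ∀ (k : Type) [Field k] (G : Type) [Group G] (χ : G →* kˣ) (N : Rep.{0} k G), IsMu χ N →
    ∀ (W : Subgroup G) [W.Normal], (∀ w ∈ W, χ w = 1) →
    ∃ e : (perm W : Rep.{0} k G) ⟶ tw W N, Function.Bijective e.hom

/-- K9. `χ` is additive for a local group.  [`stmt_euler`, `stmt_ses`, `stmt_fdAll`, `stmt_locRex`.] -/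
def Stmt_lecAdd : Prop :=
  ∀ (p : ℕ) [Fact p.Prime] (G : Type) [Group G] (𝒰 : LevelSys G) (χ : G →* (ZMod p)ˣ),
    LocHyp 𝒰 χ → ∀ (X₁ X₂ X₃ : Rep.{0} (ZMod p) G) (i : X₁ ⟶ X₂) (q : X₂ ⟶ X₃),
    Good 𝒰 X₁ → Good 𝒰 X₂ → Good 𝒰 X₃ → IsSES i q → chi 𝒰 X₂ = chi 𝒰 X₁ + chi 𝒰 X₃

/-- the context of the key lemma. -/
structure LecCtx (𝒢 Ω : Type) [Group 𝒢] [NormedField Ω] [MulSemiringAction 𝒢 Ω]
    (𝒰 : LevelSys 𝒢) (p : ℕ) [Fact p.Prime] (N : Rep.{0} (ZMod p) 𝒢) (χ : 𝒢 →* (ZMod p)ˣ)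
    (ε : ℕ) : Prop where
  tower : LocTower 𝒢 Ω 𝒰
  hp : (p : Ω) ≠ 0
  mu : IsMu χ N
  emb : ∃ e : N →+ Additive Ωˣ, IsMuEmb N e
  χtriv : ∃ U ∈ 𝒰.S, ∀ u ∈ U, χ u = 1
  num : ∀ H : Subgroup 𝒢, 𝒰.IsOpen H → (∀ h ∈ H, χ h = 1) →
    Module.Finite (ZMod p) (Hlc 𝒰 (permRep (ZMod p) H) 1) ∧
    finrank (ZMod p) (Hlc 𝒰 (permRep (ZMod p) H) 1) = 2 + ε * H.index ∧
    Module.Finite (ZMod p) (Hlc 𝒰 (permRep (ZMod p) H) 2) ∧
    finrank (ZMod p) (Hlc 𝒰 (permRep (ZMod p) H) 2) = 1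
  res : ∃ (ϖ : Ω) (k : ℕ), IsUnifFix (⊤ : Subgroup 𝒢) ϖ ∧ ‖(p : Ω)‖ = ‖ϖ‖ ^ k ∧
    resCard (FixedPoints.subfield 𝒢 Ω) ^ k = p ^ ε

/-- K10. one inequality: `χ(P) + ε dim P ≤ 0` for a retract `P` of `Map(Γ, μ_p)`.
[K5: `i ∘ r = rtOp a`, `a` idempotent.  K7, K6: `dim P = rk a`, `# Hⁿ(P) = # range`.  K2 + C4 (for the layer
`LocAct (𝒢 ⧸ W) (Ω^W)`, `Local.all_towerBase` for `resCard`), K3, K4 (`PerfE` from `stmt_LDE`,
`stmt_LDEperm`, `stmt_locRex`; `lam ≠ 0` exists since `# H²(N) = p`, `Local.all_towerKummer2`).] -/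
def Stmt_lecLe : Prop :=
  ∀ (𝒢 Ω : Type) [Group 𝒢] [NormedField Ω] [MulSemiringAction 𝒢 Ω] (𝒰 : LevelSys 𝒢) (p : ℕ)
    [Fact p.Prime] (N : Rep.{0} (ZMod p) 𝒢) (χ : 𝒢 →* (ZMod p)ˣ) (ε : ℕ), LecCtx 𝒢 Ω 𝒰 p N χ ε →
    ∀ (W : Subgroup 𝒢) [W.Normal] [W.FiniteIndex], W ∈ 𝒰.S → (∀ w ∈ W, χ w = 1) →
    ∀ (P : Rep.{0} (ZMod p) 𝒢) (i : P ⟶ tw W N) (r : tw W N ⟶ P), (∀ x, r.hom (i.hom x) = x) →
    chi 𝒰 P + ε * finrank (ZMod p) P ≤ 0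

/-- K11. **the key lemma**: `χ(P) = - ε dim P` for every retract `P` of `perm W`.
[K8 reduces to retracts of `tw W N`.  K10 for `P` and for the complement `P' = kerRep r`;
`χ + ε dim` is additive (K9) and vanishes on `tw W N` (`SubAdd.tw_self_eq` or K8, `stmt_h0perm`, `num`).] -/
def Stmt_lecKey : Prop :=
  ∀ (𝒢 Ω : Type) [Group 𝒢] [NormedField Ω] [MulSemiringAction 𝒢 Ω] (𝒰 : LevelSys 𝒢) (p : ℕ)
    [Fact p.Prime] (N : Rep.{0} (ZMod p) 𝒢) (χ : 𝒢 →* (ZMod p)ˣ) (ε : ℕ), LecCtx 𝒢 Ω 𝒰 p N χ ε →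
    ∀ (W : Subgroup 𝒢) [W.Normal] [W.FiniteIndex], W ∈ 𝒰.S → (∀ w ∈ W, χ w = 1) →
    ∀ (P : Rep.{0} (ZMod p) 𝒢) (i : P ⟶ perm W) (r : perm W ⟶ P), (∀ x, r.hom (i.hom x) = x) →
    chi 𝒰 P + ε * finrank (ZMod p) P = 0

/-- **IND, Cartan form** (block IND): an additive function on the `𝔽_p[G/W]`-modules which vanishes on
the direct summands of the regular representation is zero. -/
def Stmt_INDproj : Prop :=
  ∀ (p : ℕ) [Fact p.Prime] (G : Type) [Group G] (W : Subgroup G) [W.Normal] [W.FiniteIndex]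
    (f : Rep.{0} (ZMod p) G → ℤ),
    (∀ (X₁ X₂ X₃ : Rep.{0} (ZMod p) G) (i : X₁ ⟶ X₂) (q : X₂ ⟶ X₃), GoodW W X₁ → GoodW W X₂ →
      GoodW W X₃ → IsSES i q → f X₂ = f X₁ + f X₃) →
    (∀ (P : Rep.{0} (ZMod p) G) (i : P ⟶ perm W) (r : perm W ⟶ P),
      (∀ x, r.hom (i.hom x) = x) → f P = 0) →
    ∀ X : Rep.{0} (ZMod p) G, GoodW W X → f X = 0

/-- K12. the local Euler characteristic in a context.  [K9, K11, IND; `finrank` is additive.] -/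
def Stmt_lecAll : Prop :=
  ∀ (𝒢 Ω : Type) [Group 𝒢] [NormedField Ω] [MulSemiringAction 𝒢 Ω] (𝒰 : LevelSys 𝒢) (p : ℕ)
    [Fact p.Prime] (N : Rep.{0} (ZMod p) 𝒢) (χ : 𝒢 →* (ZMod p)ˣ) (ε : ℕ), LecCtx 𝒢 Ω 𝒰 p N χ ε →
    ∀ Y : Rep.{0} (ZMod p) 𝒢, Good 𝒰 Y → chi 𝒰 Y = -((ε : ℤ) * finrank (ZMod p) Y)

/-- K13. the concrete context.  [`Local.all_padicTower`, `Local.final_LN12` + `Top.toolAll_shapiroLc`
(as in `Local/QLN.lean`), the embedding `μ_p → Ωˣ` of `Local/LN3full.lean`; `ϖ = q`,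
`k = if q = p then 1 else 0`, `resCard ℚ_q = q`.] -/
def Stmt_lecCtx : Prop :=
  ∀ (q p : ℕ) [Fact q.Prime] [Fact p.Prime],
    LecCtx (Gq q) (PadicAlgCl q) (levq q) p
      (Rep.res (localGaloisToGlobal q) (muRep (ZMod p) (cycloChar p)))
      ((cycloChar p).comp (localGaloisToGlobal q)) (if q = p then 1 else 0)

/-- **LEC : the local Euler characteristic formula.** -/
def Stmt_LEC : Prop :=
  ∀ (q p : ℕ) [Fact q.Prime] [Fact p.Prime] (Y : Rep.{0} (ZMod p) (Gq q)), Good (levq q) Y →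
    chi (levq q) Y = -(if q = p then (finrank (ZMod p) Y : ℤ) else 0)

end Fermat.Agent.TW56.Loc

end
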