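/-
TEAM TW56 -> S56, block LEC, A3 : THE FINITE MODULE LEMMA `# e(Q[p]) = # e(Q/p)`.
-/
import Fermat.Agent.TW56.Loc.LecInterface

set_option autoImplicit false

noncomputable section

namespace Fermat.Agent.TW56.Loc

open Fermat.Agent.CFT Fermat.Agent.CFT.Top Fermat.Agent.CFT.Pos Fermat.Agent.CFT.Local Module
  CategoryTheory ExtCitation

attribute [local instance] Units.mulDistribMulActionRight
attribute [local instance] quotAct
attribute [local instance] addAct

namespace EFinite

variable {Γ : Type} [Group Γ] {X : Type} [AddCommGroup X] [DistribMulAction Γ X]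

lemma mem_pS {p : ℕ} {A : AddSubgroup X} {x : X} : x ∈ pS p A ↔ ∃ y ∈ A, p • y = x := by
  rw [AddSubgroup.mem_map]
  rfl

lemma mem_pDiv {p : ℕ} {A C : AddSubgroup X} {x : X} : x ∈ pDiv p A C ↔ x ∈ A ∧ p • x ∈ C := by
  rw [AddSubgroup.mem_inf, AddSubgroup.mem_comap]
  rfl

lemma stab_inf {A B : AddSubgroup X} (hA : Stab Γ A) (hB : Stab Γ B) : Stab Γ (A ⊓ B) :=
  fun γ x hx => ⟨hA γ x hx.1, hB γ x hx.2⟩

lemma stab_sup {A B : AddSubgroup X} (hA : Stab Γ A) (hB : Stab Γ B) : Stab Γ (A ⊔ B) := by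
  intro γ x hx
  obtain ⟨y, hy, z, hz, rfl⟩ := AddSubgroup.mem_sup.1 hx
  rw [smul_add]
  exact AddSubgroup.mem_sup.2 ⟨_, hA γ y hy, _, hB γ z hz, rfl⟩

lemma stab_pS (p : ℕ) {A : AddSubgroup X} (hA : Stab Γ A) : Stab Γ (pS p A) := by
  intro γ x hx
  obtain ⟨y, hy, rfl⟩ := mem_pS.1 hx
  exact mem_pS.2 ⟨γ • y, hA γ y hy, (smul_comm γ p y).symm⟩

lemma stab_pDiv (p : ℕ) {A C : AddSubgroup X} (hA : Stab Γ A) (hC : Stab Γ C) :
    Stab Γ (pDiv p A C) := by
  intro γ x hx
  obtain ⟨h1, h2⟩ := mem_pDiv.1 hx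
  refine mem_pDiv.2 ⟨hA γ x h1, ?_⟩
  rw [← smul_comm γ p x]
  exact hC γ _ h2

lemma le_pDiv (p : ℕ) {A C : AddSubgroup X} (hCA : C ≤ A) : C ≤ pDiv p A C :=
  fun _ hx => mem_pDiv.2 ⟨hCA hx, C.nsmul_mem hx p⟩

lemma pS_le (p : ℕ) (A : AddSubgroup X) : pS p A ≤ A := by
  intro x hx
  obtain ⟨y, hy, rfl⟩ := mem_pS.1 hx
  exact A.nsmul_mem hy p

/-- if `p` is onto on the finite group `A / C` it is injective. -/
lemma pDiv_eq (p : ℕ) {A C : AddSubgroup X} (hCA : C ≤ A) (hfin : C.relIndex A ≠ 0)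
    (h : pS p A ⊔ C = A) : pDiv p A C = C := by
  apply le_antisymm _ (le_pDiv p hCA)
  have e1 : (pDiv p A C).relIndex A = C.relIndex A := by
    rw [AddSubgroup.inf_relIndex_left, AddSubgroup.relIndex_comap]
    conv_rhs => rw [← h]
    exact (AddSubgroup.relIndex_sup_right _ _).symm
  have e2 := AddSubgroup.relIndex_mul_relIndex C (pDiv p A C) A (le_pDiv p hCA) inf_le_left
  rw [e1] at e2
  have e3 : C.relIndex (pDiv p A C) = 1 := by
    have := Nat.eq_of_mul_eq_mul_right (Nat.pos_of_ne_zero hfin) (e2.trans (one_mul _).symm)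
    exact this
  exact AddSubgroup.relIndex_eq_one.1 e3

end EFinite

open EFinite in
/-- **A3**. -/
theorem stmt_eFinite (h0 : Stmt_opZ) (h1 : Stmt_eMul) (h2 : Stmt_eTransport) : Stmt_eFinite := by
  intro p _ Γ _ _ X _ _ a ha A C hA hC hCA hfin
  -- `# e(B / B) = 1`
  have hself : ∀ B : AddSubgroup X, Stab Γ B → eCard a B B = 1 := by
    intro B hB
    have hle : B.map (opZ a) ≤ B := by
      rintro _ ⟨x, hx, rfl⟩
      exact (h0 p Γ X a B hB).1 x hx
    rw [eCard, sup_eq_left.2 hle, AddSubgroup.relIndex_self]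
  have main : ∀ n : ℕ, ∀ A : AddSubgroup X, Stab Γ A → C ≤ A → C.relIndex A ≠ 0 →
      C.relIndex A = n → eCard a (pDiv p A C) C = eCard a A (pS p A ⊔ C) := by
    intro n
    induction n using Nat.strong_induction_on with
    | _ n ih =>
      intro A hA hCA hfin hn
      have hA₁A : pS p A ⊔ C ≤ A := sup_le (pS_le p A) hCA
      by_cases hcase : pS p A ⊔ C = A
      · rw [pDiv_eq p hCA hfin hcase, hcase, hself C hC, hself A hA]
      · set S : AddSubgroup X := pDiv p A C with hS
        set A₁ : AddSubgroup X := pS p A ⊔ C with hA₁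
        set A₂ : AddSubgroup X := pS p A₁ ⊔ C with hA₂
        have hSs : Stab Γ S := stab_pDiv p hA hC
        have hA₁s : Stab Γ A₁ := stab_sup (stab_pS p hA) hC
        have hA₂s : Stab Γ A₂ := stab_sup (stab_pS p hA₁s) hC
        have hCA₁ : C ≤ A₁ := le_sup_right
        have hCS : C ≤ S := le_pDiv p hCA
        have hSA : S ≤ A := inf_le_left
        have hA₂A₁ : A₂ ≤ A₁ := sup_le (pS_le p A₁) hCA₁
        -- the index drops
        have hmul := AddSubgroup.relIndex_mul_relIndex C A₁ A hCA₁ hA₁A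
        have hne1 : A₁.relIndex A ≠ 1 := fun h =>
          hcase (le_antisymm hA₁A (AddSubgroup.relIndex_eq_one.1 h))
        have hfin₁ : C.relIndex A₁ ≠ 0 := fun h => hfin (by rw [← hmul, h, zero_mul])
        have hne0 : A₁.relIndex A ≠ 0 := fun h => hfin (by rw [← hmul, h, mul_zero])
        have hlt : C.relIndex A₁ < n := by
          rw [← hn, ← hmul]
          have h2 : 2 ≤ A₁.relIndex A := by omega
          have h3 : 0 < C.relIndex A₁ := Nat.pos_of_ne_zero hfin₁
          nlinarith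
        have hIH := ih _ hlt A₁ hA₁s hCA₁ hfin₁ rfl
        have hdiv : pDiv p A₁ C = S ⊓ A₁ := by
          ext x
          rw [mem_pDiv, AddSubgroup.mem_inf, hS, mem_pDiv]
          exact ⟨fun h => ⟨⟨hA₁A h.1, h.2⟩, h.1⟩, fun h => ⟨h.2, h.1.2⟩⟩
        rw [hdiv] at hIH
        -- A1, twice
        have m1 : eCard a S C = eCard a S (S ⊓ A₁) * eCard a (S ⊓ A₁) C :=
          h1 p Γ X a ha S (S ⊓ A₁) C hSs (stab_inf hSs hA₁s) hC (le_inf hCS hCA₁) inf_le_left (by
            intro x hx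
            obtain ⟨y, hy, rfl⟩ := mem_pS.1 hx
            exact (mem_pDiv.1 hy).2)
        have m2 : eCard a A A₁ = eCard a A (S ⊔ A₁) * eCard a (S ⊔ A₁) A₁ :=
          h1 p Γ X a ha A (S ⊔ A₁) A₁ hA (stab_sup hSs hA₁s) hA₁s le_sup_right (sup_le hSA hA₁A)
            le_sup_left
        -- A2 with `φ = id`
        have t1 : eCard a S (S ⊓ A₁) = eCard a (S ⊔ A₁) A₁ :=
          h2 p Γ X X a S (S ⊓ A₁) (S ⊔ A₁) A₁ id hSs (stab_inf hSs hA₁s) (stab_sup hSs hA₁s) hA₁s
            inf_le_left le_sup_right (fun x hx => AddSubgroup.mem_sup_left hx)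
            (fun x _ y _ => by simp only [id]; rw [add_sub_cancel_left, sub_self]; exact A₁.zero_mem)
            (fun γ x _ => by simp only [id]; rw [sub_self]; exact A₁.zero_mem)
            (fun x hx => ⟨fun h => ⟨hx, h⟩, fun h => h.2⟩)
            (fun y hy => by
              obtain ⟨s, hs, z, hz, rfl⟩ := AddSubgroup.mem_sup.1 hy
              exact ⟨s, hs, by simp only [id]; rw [add_sub_cancel_left]; exact hz⟩)
        -- A2 with `φ = p •`
        have t2 : eCard a A (S ⊔ A₁) = eCard a A₁ A₂ :=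
          h2 p Γ X X a A (S ⊔ A₁) A₁ A₂ (fun x => p • x) hA (stab_sup hSs hA₁s) hA₁s hA₂s
            (sup_le hSA hA₁A) hA₂A₁
            (fun x hx => AddSubgroup.mem_sup_left (mem_pS.2 ⟨x, hx, rfl⟩))
            (fun x _ y _ => by
              show p • (x + y) - p • x - p • y ∈ A₂
              rw [smul_add, add_sub_cancel_left, sub_self]; exact A₂.zero_mem)
            (fun γ x _ => by
              show p • γ • x - γ • p • x ∈ A₂
              rw [smul_comm γ p x, sub_self]; exact A₂.zero_mem)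
            (fun x hx => by
              show p • x ∈ A₂ ↔ x ∈ S ⊔ A₁
              constructor
              · intro h
                obtain ⟨y, hy, c, hc, hyc⟩ := AddSubgroup.mem_sup.1 h
                obtain ⟨a₁, ha₁, rfl⟩ := mem_pS.1 hy
                refine AddSubgroup.mem_sup.2 ⟨x - a₁, ?_, a₁, ha₁, sub_add_cancel _ _⟩
                refine mem_pDiv.2 ⟨A.sub_mem hx (hA₁A ha₁), ?_⟩
                rw [smul_sub, ← hyc, add_sub_cancel_left]
                exact hc
              · intro h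
                obtain ⟨s, hs, a₁, ha₁, rfl⟩ := AddSubgroup.mem_sup.1 h
                rw [smul_add]
                exact A₂.add_mem (AddSubgroup.mem_sup_right (mem_pDiv.1 hs).2)
                  (AddSubgroup.mem_sup_left (mem_pS.2 ⟨a₁, ha₁, rfl⟩)))
            (fun y hy => by
              obtain ⟨z, hz, c, hc, rfl⟩ := AddSubgroup.mem_sup.1 hy
              obtain ⟨x, hx, rfl⟩ := mem_pS.1 hz
              refine ⟨x, hx, ?_⟩
              show p • x + c - p • x ∈ A₂
              rw [add_sub_cancel_left]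
              exact AddSubgroup.mem_sup_right hc)
        rw [m1, m2, hIH, t1, t2, mul_comm]
  exact main _ A hA hCA hfin rfl

end Fermat.Agent.TW56.Loc

end
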