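/-
TEAM TW56 -> S56, block LEC (architect helper61).  A4 (index lemma) and A5 (independence of the lattice).
-/
import Fermat.Agent.TW56.Loc.LecInterface

set_option autoImplicit false

noncomputable section

namespace Fermat.Agent.TW56.Loc

open Fermat.Agent.CFT Fermat.Agent.CFT.Top Fermat.Agent.CFT.Pos Fermat.Agent.CFT.Local Module
  CategoryTheory ExtCitation

attribute [local instance] Units.mulDistribMulActionRight
attribute [local instance] quotAct
attribute [local instance] addAct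

namespace EIndex

variable {Γ : Type} [Group Γ] {X : Type} [AddCommGroup X] [DistribMulAction Γ X]

lemma mem_pS {p : ℕ} {A : AddSubgroup X} {x : X} : x ∈ pS p A ↔ ∃ y ∈ A, p • y = x := by
  simp only [AddSubgroup.mem_map, nsmulAddMonoidHom_apply]

lemma pS_le (p : ℕ) (A : AddSubgroup X) : pS p A ≤ A := by
  intro x hx
  obtain ⟨y, hy, rfl⟩ := mem_pS.1 hx
  exact A.nsmul_mem hy p

lemma pS_mono (p : ℕ) {A B : AddSubgroup X} (h : A ≤ B) : pS p A ≤ pS p B :=
  AddSubgroup.map_mono h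

lemma stab_pS (p : ℕ) {A : AddSubgroup X} (hA : Stab Γ A) : Stab Γ (pS p A) := by
  intro γ x hx
  obtain ⟨y, hy, rfl⟩ := mem_pS.1 hx
  exact mem_pS.2 ⟨γ • y, hA γ y hy, (smul_comm γ p y).symm⟩

lemma stab_sup {A B : AddSubgroup X} (hA : Stab Γ A) (hB : Stab Γ B) : Stab Γ (A ⊔ B) := by
  intro γ x hx
  obtain ⟨y, hy, z, hz, rfl⟩ := AddSubgroup.mem_sup.1 hx
  rw [smul_add]
  exact AddSubgroup.mem_sup.2 ⟨_, hA γ y hy, _, hB γ z hz, rfl⟩

lemma stab_top : Stab Γ (⊤ : AddSubgroup X) := fun _ _ _ => AddSubgroup.mem_top _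

lemma stab_bot : Stab Γ (⊥ : AddSubgroup X) := by
  intro γ x hx
  rw [AddSubgroup.mem_bot] at hx ⊢
  rw [hx, smul_zero]

lemma mem_ker {p : ℕ} {x : X} : x ∈ (nsmulAddMonoidHom (α := X) p).ker ↔ p • x = 0 := by
  rw [AddMonoidHom.mem_ker, nsmulAddMonoidHom_apply]

lemma stab_ker (p : ℕ) : Stab Γ (nsmulAddMonoidHom (α := X) p).ker := by
  intro γ x hx
  rw [mem_ker] at hx ⊢
  rw [← smul_comm γ p x, hx, smul_zero]

end EIndex

open EIndex

theorem stmt_eLattice (h3 : Stmt_eFinite) : Stmt_eLattice := by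
  intro p _ Γ _ _ X _ _ a ha htf Λ Λ' hΛ hΛ' hle hidx
  have key := h3 p Γ X a ha Λ (pS p Λ') hΛ (stab_pS p hΛ') ((pS_le p Λ').trans hle) hidx
  have e1 : pDiv p Λ (pS p Λ') = Λ' := by
    apply le_antisymm
    · intro x hx
      obtain ⟨-, hx2⟩ := AddSubgroup.mem_inf.1 hx
      rw [AddSubgroup.mem_comap, nsmulAddMonoidHom_apply] at hx2
      obtain ⟨y, hy, hyx⟩ := mem_pS.1 hx2
      have : x - y = 0 := htf _ (by rw [smul_sub, hyx, sub_self])
      rw [sub_eq_zero.1 this]
      exact hy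
    · intro x hx
      refine AddSubgroup.mem_inf.2 ⟨hle hx, ?_⟩
      rw [AddSubgroup.mem_comap, nsmulAddMonoidHom_apply]
      exact mem_pS.2 ⟨x, hx, rfl⟩
  have e2 : pS p Λ ⊔ pS p Λ' = pS p Λ := sup_eq_left.2 (pS_mono p hle)
  rw [e1, e2] at key
  exact key

theorem stmt_eIndex (_h0 : Stmt_opZ) (h1 : Stmt_eMul) (h2 : Stmt_eTransport) (h3 : Stmt_eFinite) :
    Stmt_eIndex := by
  intro p _ Γ _ _ X _ _ a ha B hB hidx htf
  set K : AddSubgroup X := (nsmulAddMonoidHom (α := X) p).ker with hK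
  have hKs : Stab Γ K := stab_ker p
  have hpB : Stab Γ (pS p B) := stab_pS p hB
  have key := h3 p Γ X a ha ⊤ (pS p B) stab_top hpB le_top
    (by rw [AddSubgroup.relIndex_top_right]; exact hidx)
  have e1 : pDiv p (⊤ : AddSubgroup X) (pS p B) = B ⊔ K := by
    apply le_antisymm
    · intro x hx
      obtain ⟨-, hx2⟩ := AddSubgroup.mem_inf.1 hx
      rw [AddSubgroup.mem_comap, nsmulAddMonoidHom_apply] at hx2
      obtain ⟨y, hy, hyx⟩ := mem_pS.1 hx2
      refine AddSubgroup.mem_sup.2 ⟨y, hy, x - y, ?_, by abel⟩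
      rw [hK, mem_ker, smul_sub, hyx, sub_self]
    · intro x hx
      obtain ⟨y, hy, z, hz, rfl⟩ := AddSubgroup.mem_sup.1 hx
      refine AddSubgroup.mem_inf.2 ⟨AddSubgroup.mem_top _, ?_⟩
      rw [AddSubgroup.mem_comap, nsmulAddMonoidHom_apply]
      rw [hK, mem_ker] at hz
      exact mem_pS.2 ⟨y, hy, by rw [smul_add, hz, add_zero]⟩
  have e2 : pS p (⊤ : AddSubgroup X) ⊔ pS p B = pS p ⊤ := sup_eq_left.2 (pS_mono p le_top)
  rw [e1, e2] at key
  -- multiplicativity
  have hmul := h1 p Γ X a ha (B ⊔ K) (pS p B ⊔ K) (pS p B) (stab_sup hB hKs) (stab_sup hpB hKs) hpB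
    le_sup_left (sup_le_sup_right (pS_le p B) K) (by
      intro x hx
      obtain ⟨w, hw, rfl⟩ := mem_pS.1 hx
      obtain ⟨y, hy, z, hz, rfl⟩ := AddSubgroup.mem_sup.1 hw
      rw [hK, mem_ker] at hz
      exact mem_pS.2 ⟨y, hy, by rw [smul_add, hz, add_zero]⟩)
  -- first transport
  have ht1 : eCard a B (pS p B) = eCard a (B ⊔ K) (pS p B ⊔ K) := by
    refine h2 p Γ X X a B (pS p B) (B ⊔ K) (pS p B ⊔ K) id hB hpB (stab_sup hB hKs)
      (stab_sup hpB hKs) (pS_le p B) (sup_le_sup_right (pS_le p B) K) ?_ ?_ ?_ ?_ ?_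
    · intro x hx
      exact (le_sup_left : B ≤ B ⊔ K) hx
    · intro x _ y _
      simp only [id, add_sub_cancel_left, sub_self]
      exact AddSubgroup.zero_mem _
    · intro γ x _
      simp only [id, sub_self]
      exact AddSubgroup.zero_mem _
    · intro x hx
      constructor
      · intro hx'
        obtain ⟨y, hy, z, hz, hyz⟩ := AddSubgroup.mem_sup.1 (show x ∈ pS p B ⊔ K from hx')
        have hzB : z ∈ B := by
          have : z = x - y := by rw [← hyz]; abel
          rw [this]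
          exact B.sub_mem hx (pS_le p B hy)
        rw [hK, mem_ker] at hz
        have hz0 := htf z hzB hz
        rw [hz0, add_zero] at hyz
        rw [← hyz]
        exact hy
      · intro hx'
        exact (le_sup_left : pS p B ≤ pS p B ⊔ K) hx'
    · intro y hy
      obtain ⟨b, hb, z, hz, rfl⟩ := AddSubgroup.mem_sup.1 hy
      refine ⟨b, hb, ?_⟩
      simp only [id, add_sub_cancel_left]
      exact (le_sup_right : K ≤ pS p B ⊔ K) hz
  -- second transport
  have ht2 : eCard a K ⊥ = eCard a (pS p B ⊔ K) (pS p B) := by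
    refine h2 p Γ X X a K ⊥ (pS p B ⊔ K) (pS p B) id hKs stab_bot (stab_sup hpB hKs) hpB
      bot_le le_sup_left ?_ ?_ ?_ ?_ ?_
    · intro x hx
      exact (le_sup_right : K ≤ pS p B ⊔ K) hx
    · intro x _ y _
      simp only [id, add_sub_cancel_left, sub_self]
      exact AddSubgroup.zero_mem _
    · intro γ x _
      simp only [id, sub_self]
      exact AddSubgroup.zero_mem _
    · intro x hx
      rw [hK, mem_ker] at hx
      constructor
      · intro hx'
        exact AddSubgroup.mem_bot.2 (htf x (pS_le p B hx') hx)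
      · intro hx'
        rw [AddSubgroup.mem_bot.1 hx']
        exact AddSubgroup.zero_mem _
    · intro y hy
      obtain ⟨b, hb, z, hz, rfl⟩ := AddSubgroup.mem_sup.1 hy
      refine ⟨z, hz, ?_⟩
      simp only [id, add_sub_cancel_right]
      exact hb
  have hbot : eCard a K ⊥ = Nat.card (K.map (opZ a)) := by
    unfold eCard
    rw [bot_sup_eq, AddSubgroup.relIndex_bot_left]
  rw [← key, hmul, ← ht1, ← ht2, hbot]

end Fermat.Agent.TW56.Loc

end
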