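/-
TEAM TW56 -> S56, block LEC, package A1 : `opZ` calculus and multiplicativity of `eCard`.
-/
import Fermat.Agent.TW56.Loc.LecInterface

set_option autoImplicit false
set_option linter.unusedSectionVars false

noncomputable section

namespace Fermat.Agent.TW56.Loc

open Fermat.Agent.CFT Fermat.Agent.CFT.Top Fermat.Agent.CFT.Pos Fermat.Agent.CFT.Local Module
  CategoryTheory ExtCitation

attribute [local instance] Units.mulDistribMulActionRight
attribute [local instance] quotAct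
attribute [local instance] addAct

namespace EMul

section

variable {p : ℕ} {Γ : Type} [Group Γ] [Finite Γ] {X : Type} [AddCommGroup X]
  [DistribMulAction Γ X]

lemma opZ_eq_sum [Fintype Γ] (a : Γ → ZMod p) (x : X) : opZ a x = ∑ γ : Γ, (a γ).val • γ • x := by
  rw [opZ_apply, finsum_eq_sum_of_fintype]

/-- `opZ a` preserves stable subgroups. -/
lemma opZ_mem (a : Γ → ZMod p) {A : AddSubgroup X} (hA : Stab Γ A) {x : X} (hx : x ∈ A) :
    opZ a x ∈ A := by
  cases nonempty_fintype Γ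
  rw [opZ_eq_sum]
  exact A.sum_mem fun γ _ => A.nsmul_mem (hA γ x hx) _

lemma map_opZ_le (a : Γ → ZMod p) {A : AddSubgroup X} (hA : Stab Γ A) : A.map (opZ a) ≤ A := by
  rintro _ ⟨x, hx, rfl⟩
  exact opZ_mem a hA hx

/-- the coefficients of `a * a`, lifted to `ℕ`. -/
def sq [Fintype Γ] (a : Γ → ZMod p) (g : Γ) : ℕ := ∑ δ : Γ, (a δ).val * (a (δ⁻¹ * g)).val

lemma opZ_opZ [Fintype Γ] (a : Γ → ZMod p) (x : X) :
    opZ a (opZ a x) = ∑ g : Γ, sq a g • g • x := by
  rw [opZ_eq_sum a (opZ a x), opZ_eq_sum a x]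
  have h1 : ∀ δ : Γ, (a δ).val • δ • ∑ γ : Γ, (a γ).val • γ • x
      = ∑ g : Γ, ((a δ).val * (a (δ⁻¹ * g)).val) • g • x := by
    intro δ
    rw [Finset.smul_sum, Finset.smul_sum]
    refine Fintype.sum_equiv (Equiv.mulLeft δ) _ _ fun γ => ?_
    rw [Equiv.coe_mulLeft, inv_mul_cancel_left, smul_comm δ, mul_smul, mul_smul]
  rw [Finset.sum_congr rfl fun δ _ => h1 δ, Finset.sum_comm]
  refine Finset.sum_congr rfl fun g _ => ?_
  rw [sq, Finset.sum_smul]

lemma sq_cast [Fintype Γ] [NeZero p] {a : Γ → ZMod p} (ha : IsIdem a) (g : Γ) :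
    ((sq a g : ℕ) : ZMod p) = a g := by
  have h := ha g
  rw [finsum_eq_sum_of_fintype] at h
  rw [← h, sq]
  push_cast
  simp only [ZMod.natCast_zmod_val]

lemma exists_sq [Fintype Γ] [NeZero p] {a : Γ → ZMod p} (ha : IsIdem a) (g : Γ) :
    ∃ m : ℤ, ((sq a g : ℕ) : ℤ) - (((a g).val : ℕ) : ℤ) = p * m := by
  have h : ((((sq a g : ℕ) : ℤ) - (((a g).val : ℕ) : ℤ) : ℤ) : ZMod p) = 0 := by
    push_cast
    rw [sq_cast ha, ZMod.natCast_zmod_val, sub_self]
  exact (ZMod.intCast_zmod_eq_zero_iff_dvd _ p).1 h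

/-- `opZ a` is idempotent modulo `p`. -/
lemma opZ_opZ_sub_mem [NeZero p] {a : Γ → ZMod p} (ha : IsIdem a) {A : AddSubgroup X}
    (hA : Stab Γ A) {x : X} (hx : x ∈ A) : opZ a (opZ a x) - opZ a x ∈ pS p A := by
  cases nonempty_fintype Γ
  choose m hm using exists_sq ha
  refine ⟨∑ g : Γ, m g • g • x, A.sum_mem fun g _ => A.zsmul_mem (hA g x hx) _, ?_⟩
  rw [opZ_opZ, opZ_eq_sum a x, ← Finset.sum_sub_distrib, nsmulAddMonoidHom_apply, Finset.smul_sum]
  refine Finset.sum_congr rfl fun g _ => ?_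
  rw [← natCast_zsmul (g • x) (sq a g), ← natCast_zsmul (g • x) (a g).val, ← sub_smul, hm,
    mul_smul, natCast_zsmul]

/-! ### stable subgroups -/

lemma stab_top : Stab Γ (⊤ : AddSubgroup X) := fun _ _ _ => AddSubgroup.mem_top _

lemma stab_bot : Stab Γ (⊥ : AddSubgroup X) := by
  intro γ x hx
  rw [AddSubgroup.mem_bot] at hx ⊢
  rw [hx, smul_zero]

lemma stab_inf {A B : AddSubgroup X} (hA : Stab Γ A) (hB : Stab Γ B) : Stab Γ (A ⊓ B) :=
  fun γ x hx => ⟨hA γ x hx.1, hB γ x hx.2⟩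

lemma stab_sup {A B : AddSubgroup X} (hA : Stab Γ A) (hB : Stab Γ B) : Stab Γ (A ⊔ B) := by
  intro γ x hx
  obtain ⟨y, hy, z, hz, rfl⟩ := AddSubgroup.mem_sup.1 hx
  rw [smul_add]
  exact AddSubgroup.mem_sup.2 ⟨_, hA γ y hy, _, hB γ z hz, rfl⟩

lemma stab_pS (n : ℕ) {A : AddSubgroup X} (hA : Stab Γ A) : Stab Γ (pS n A) := by
  rintro γ _ ⟨x, hx, rfl⟩
  refine ⟨γ • x, hA γ x hx, ?_⟩
  rw [nsmulAddMonoidHom_apply, nsmulAddMonoidHom_apply, smul_comm]

lemma stab_comap_nsmul (n : ℕ) {C : AddSubgroup X} (hC : Stab Γ C) :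
    Stab Γ (C.comap (nsmulAddMonoidHom n)) := by
  intro γ x hx
  rw [AddSubgroup.mem_comap, nsmulAddMonoidHom_apply] at hx ⊢
  rw [smul_comm]
  exact hC γ _ hx

lemma stab_pDiv (n : ℕ) {A C : AddSubgroup X} (hA : Stab Γ A) (hC : Stab Γ C) :
    Stab Γ (pDiv n A C) := stab_inf hA (stab_comap_nsmul n hC)

lemma stab_ker_nsmul (n : ℕ) : Stab Γ (nsmulAddMonoidHom (α := X) n).ker := by
  intro γ x hx
  rw [AddMonoidHom.mem_ker, nsmulAddMonoidHom_apply] at hx ⊢
  rw [smul_comm, hx, smul_zero]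

/-- the image of a stable subgroup under `opZ a` is contained in the subgroup. -/
lemma sup_map_opZ_eq (a : Γ → ZMod p) {A : AddSubgroup X} (hA : Stab Γ A) :
    A ⊔ A.map (opZ a) = A := sup_eq_left.2 (map_opZ_le a hA)

/-! ### `eCard` -/

lemma eCard_def (a : Γ → ZMod p) (A C : AddSubgroup X) :
    eCard a A C = C.relIndex (C ⊔ A.map (opZ a)) := rfl

lemma eCard_self (a : Γ → ZMod p) {A : AddSubgroup X} (hA : Stab Γ A) : eCard a A A = 1 := by
  rw [eCard_def, sup_map_opZ_eq a hA, AddSubgroup.relIndex_self]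

lemma eCard_bot (a : Γ → ZMod p) (A : AddSubgroup X) :
    eCard a A ⊥ = Nat.card (A.map (opZ a)) := by
  rw [eCard_def, bot_sup_eq, AddSubgroup.relIndex_bot_left]

/-- `eCard a A C = 1` as soon as `A ≤ C`, `C` stable. -/
lemma eCard_of_le (a : Γ → ZMod p) {A C : AddSubgroup X} (hC : Stab Γ C) (h : A ≤ C) :
    eCard a A C = 1 := by
  rw [eCard_def, AddSubgroup.relIndex_eq_one]
  exact sup_le le_rfl ((AddSubgroup.map_mono h).trans (map_opZ_le a hC))

end

end EMul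

theorem stmt_opZ : Stmt_opZ := by
  intro p _ Γ _ _ X _ _ a A hA
  exact ⟨fun x hx => EMul.opZ_mem a hA hx, fun ha x hx => EMul.opZ_opZ_sub_mem ha hA hx⟩

theorem stmt_eMul (h : Stmt_opZ) : Stmt_eMul := by
  intro p _ Γ _ _ X _ _ a ha A B C hA hB hC hCB hBA hpA
  have hAe := (h p Γ X a A hA).2 ha
  have hBe := (h p Γ X a B hB).1
  have hmono : B.map (opZ a) ≤ A.map (opZ a) := AddSubgroup.map_mono hBA
  -- the two lattice identities
  have hsup : (C ⊔ A.map (opZ a)) ⊔ B = B ⊔ A.map (opZ a) := by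
    apply le_antisymm
    · exact sup_le (sup_le (hCB.trans le_sup_left) le_sup_right) le_sup_left
    · exact sup_le le_sup_right (le_sup_right.trans le_sup_left)
  have hinf : B ⊓ (C ⊔ A.map (opZ a)) = C ⊔ B.map (opZ a) := by
    apply le_antisymm
    · rintro z ⟨hzB, hz⟩
      obtain ⟨c, hc, _, ⟨x, hx, rfl⟩, rfl⟩ := AddSubgroup.mem_sup.1 hz
      have h1 : opZ a x ∈ B := by
        have := B.sub_mem hzB (hCB hc)
        rwa [add_sub_cancel_left] at this
      have h2 : opZ a (opZ a x) - opZ a x ∈ C := hpA (hAe x hx)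
      refine AddSubgroup.mem_sup.2 ⟨c - (opZ a (opZ a x) - opZ a x), C.sub_mem hc h2,
        opZ a (opZ a x), ⟨opZ a x, h1, rfl⟩, ?_⟩
      abel
    · refine le_inf (sup_le hCB ?_) (sup_le_sup_left hmono C)
      rintro _ ⟨x, hx, rfl⟩
      exact hBe x hx
  have e1 : B.relIndex (B ⊔ A.map (opZ a))
      = (C ⊔ B.map (opZ a)).relIndex (C ⊔ A.map (opZ a)) := by
    rw [← hsup, AddSubgroup.relIndex_sup_right, ← hinf, AddSubgroup.inf_relIndex_right]
  rw [EMul.eCard_def, EMul.eCard_def, EMul.eCard_def, e1, mul_comm]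
  exact (AddSubgroup.relIndex_mul_relIndex _ _ _ le_sup_left (sup_le_sup_left hmono C)).symm

end Fermat.Agent.TW56.Loc

end
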