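/-
TEAM TW56 -> S56, block LEC, package A2 : transport of `eCard` along quasi-homomorphisms (helper59).
-/
import Fermat.Agent.TW56.Loc.LecInterface

set_option autoImplicit false

noncomputable section

namespace Fermat.Agent.TW56.Loc

namespace ETransport

variable {p : ℕ} {Γ : Type} [Group Γ] [Finite Γ] {X : Type} [AddCommGroup X]
  [DistribMulAction Γ X]

/-- `[C + eA : C] = # (image of eA in X / C)`. -/
theorem eCard_eq (a : Γ → ZMod p) (A C : AddSubgroup X) :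
    eCard a A C = Nat.card ((A.map (opZ a)).map (QuotientAddGroup.mk' C)) := by
  have h := AddSubgroup.relIndex_ker (K := C ⊔ A.map (opZ a)) (QuotientAddGroup.mk' C)
  rw [QuotientAddGroup.ker_mk', AddSubgroup.map_sup, QuotientAddGroup.map_mk'_self,
    bot_sup_eq] at h
  exact h

end ETransport

open ETransport

theorem stmt_eTransport (h : Stmt_opZ) : Stmt_eTransport := by
  intro p _ Γ _ _ X X' _ _ _ _ a A C A' C' φ hA hC hA' hC' hCA hCA' h1 h2 h3 h4 h5
  cases nonempty_fintype Γ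
  have heA : ∀ x ∈ A, opZ a x ∈ A := (h p Γ X a A hA).1
  have heC' : ∀ x ∈ C', opZ a x ∈ C' := (h p Γ X' a C' hC').1
  -- the homomorphism `ψ`
  let ψ : A →+ X' ⧸ C' := AddMonoidHom.mk' (fun x => QuotientAddGroup.mk (φ x.1)) (by
    intro x y
    rw [← QuotientAddGroup.mk_add, QuotientAddGroup.eq]
    have := C'.neg_mem (h2 x.1 x.2 y.1 y.2)
    have e : -φ (x.1 + y.1) + (φ x.1 + φ y.1) = -(φ (x.1 + y.1) - φ x.1 - φ y.1) := by abel
    show -φ (x.1 + y.1) + (φ x.1 + φ y.1) ∈ C'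
    rw [e]
    exact this)
  have hψ : ∀ x : A, ψ x = QuotientAddGroup.mk (φ x.1) := fun x => rfl
  -- equivariance
  have hψe : ∀ x : A, ψ ⟨opZ a x.1, heA _ x.2⟩ = QuotientAddGroup.mk (opZ a (φ x.1)) := by
    intro x
    have e1 : (⟨opZ a x.1, heA _ x.2⟩ : A) =
        ∑ γ : Γ, (a γ).val • (⟨γ • x.1, hA γ _ x.2⟩ : A) := by
      apply Subtype.ext
      rw [AddSubgroup.val_finsetSum]
      show opZ a x.1 = _
      rw [opZ_apply, finsum_eq_sum_of_fintype]
      rfl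
    rw [e1, map_sum, opZ_apply, finsum_eq_sum_of_fintype]
    have e2 : (QuotientAddGroup.mk (∑ γ : Γ, (a γ).val • γ • φ x.1) : X' ⧸ C') =
        ∑ γ : Γ, (a γ).val • (QuotientAddGroup.mk (γ • φ x.1) : X' ⧸ C') := by
      have := map_sum (QuotientAddGroup.mk' C') (fun γ : Γ => (a γ).val • γ • φ x.1) Finset.univ
      rw [QuotientAddGroup.mk'_apply] at this
      rw [this]
      refine Finset.sum_congr rfl fun γ _ => ?_
      rw [map_nsmul]
      rfl
    rw [e2]
    refine Finset.sum_congr rfl fun γ _ => ?_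
    rw [map_nsmul, hψ]
    congr 1
    rw [QuotientAddGroup.eq]
    have := C'.neg_mem (h3 γ x.1 x.2)
    have e : -φ (γ • x.1) + γ • φ x.1 = -(φ (γ • x.1) - γ • φ x.1) := by abel
    rw [e]
    exact this
  -- the kernel
  have hker : ψ.ker = C.addSubgroupOf A := by
    ext x
    rw [AddMonoidHom.mem_ker, hψ, QuotientAddGroup.eq_zero_iff, h4 x.1 x.2,
      AddSubgroup.mem_addSubgroupOf]
  have hDA : C ⊔ A.map (opZ a) ≤ A := by
    refine sup_le hCA ?_
    rintro _ ⟨x, hx, rfl⟩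
    exact heA x hx
  rw [eCard_eq a A' C', eCard, ← AddSubgroup.relIndex_addSubgroupOf hDA, ← hker,
    AddSubgroup.relIndex_ker]
  congr 1
  have hset : ((C ⊔ A.map (opZ a)).addSubgroupOf A).map ψ =
      (A'.map (opZ a)).map (QuotientAddGroup.mk' C') := by
    apply le_antisymm
    · rintro _ ⟨x, hx, rfl⟩
      have hx' : x.1 ∈ C ⊔ A.map (opZ a) := hx
      obtain ⟨c, hc, y, ⟨a0, ha0, rfl⟩, hxe⟩ := AddSubgroup.mem_sup.1 hx'
      have e : x = (⟨c, hCA hc⟩ : A) + ⟨opZ a a0, heA _ ha0⟩ := Subtype.ext hxe.symm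
      have hc0 : ψ ⟨c, hCA hc⟩ = 0 := by
        rw [hψ, QuotientAddGroup.eq_zero_iff, h4 c (hCA hc)]
        exact hc
      rw [e, map_add, hc0, zero_add, hψe ⟨a0, ha0⟩]
      exact ⟨opZ a (φ a0), ⟨φ a0, h1 a0 ha0, rfl⟩, rfl⟩
    · rintro _ ⟨_, ⟨a', ha', rfl⟩, rfl⟩
      obtain ⟨a0, ha0, hd⟩ := h5 a' ha'
      refine ⟨⟨opZ a a0, heA _ ha0⟩, ?_, ?_⟩
      · show opZ a a0 ∈ C ⊔ A.map (opZ a)
        exact (le_sup_right : A.map (opZ a) ≤ C ⊔ A.map (opZ a)) ⟨a0, ha0, rfl⟩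
      · rw [hψe ⟨a0, ha0⟩, QuotientAddGroup.mk'_apply, QuotientAddGroup.eq]
        have := heC' _ hd
        rw [map_sub] at this
        have e : -opZ a (φ a0) + opZ a a' = opZ a a' - opZ a (φ a0) := by abel
        rw [e]
        exact this
  rw [hset]

end Fermat.Agent.TW56.Loc

end
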