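/-
TEAM TW56 -> S56, block LEC.  K8 (`Map(Γ, μ_p) ≅ perm W`) and K9 (`χ` is additive for local groups).
-/
import Fermat.Agent.TW56.Loc.LecInterface
import Fermat.Agent.CFT.Pos.Final

set_option autoImplicit false

noncomputable section

namespace Fermat.Agent.TW56.Loc

open Fermat.Agent.CFT Fermat.Agent.CFT.Top Fermat.Agent.CFT.Pos Fermat.Agent.CFT.Local Module
  CategoryTheory ExtCitation

attribute [local instance] Units.mulDistribMulActionRight
attribute [local instance] quotAct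
attribute [local instance] addAct

namespace LecAdd

variable {k : Type} [Field k] {G : Type} [Group G]

/-- `F ↦ (c ↦ F c • (b c • n₀))`. -/
def eLin (W : Subgroup G) (N : Rep.{0} k G) (b : G ⧸ W → k) (n₀ : N) :
    (G ⧸ W → k) →ₗ[k] (G ⧸ W → N) :=
  LinearMap.pi fun c => (LinearMap.toSpanSingleton k N (b c • n₀)) ∘ₗ LinearMap.proj c

lemma eLin_apply (W : Subgroup G) (N : Rep.{0} k G) (b : G ⧸ W → k) (n₀ : N) (F : G ⧸ W → k)
    (c : G ⧸ W) : eLin W N b n₀ F c = F c • (b c • n₀) := rfl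

end LecAdd

/-- K8. -/
theorem stmt_twMuPerm : Stmt_twMuPerm := by
  intro k _ G _ χ N hN W _ hW
  obtain ⟨n₀, hn₀, hspan⟩ := finrank_eq_one_iff'.1 hN.1
  -- the induced character of `G ⧸ W`
  let χb : G ⧸ W →* kˣ := QuotientGroup.lift W χ hW
  have hχb : ∀ x : G, χb (x : G ⧸ W) = χ x := fun x => rfl
  have hb0 : ∀ c : G ⧸ W, ((χb c : kˣ) : k) • n₀ ≠ 0 := fun c =>
    smul_ne_zero (Units.ne_zero _) hn₀
  refine ⟨Rep.ofHom ⟨LecAdd.eLin W N (fun c => ((χb c : kˣ) : k)) n₀, fun g => LinearMap.ext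
    fun F => funext fun c => ?_⟩, ?_, ?_⟩
  · induction c using QuotientGroup.induction_on with
    | H x =>
      show F (g⁻¹ • (x : G ⧸ W)) • (((χb (x : G ⧸ W) : kˣ) : k) • n₀) =
        N.ρ g (F (g⁻¹ • (x : G ⧸ W)) • (((χb (g⁻¹ • (x : G ⧸ W)) : kˣ) : k) • n₀))
      have e1 : g⁻¹ • (x : G ⧸ W) = ((g⁻¹ * x : G) : G ⧸ W) := rfl
      rw [hN.2, e1, hχb, hχb, map_mul, map_inv, smul_smul, smul_smul, smul_smul, Units.val_mul]
      congr 1
      have h1 : ((χ g : kˣ) : k) * (((χ g)⁻¹ : kˣ) : k) = 1 := by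
        rw [← Units.val_mul, mul_inv_cancel, Units.val_one]
      linear_combination (-(F ((g⁻¹ * x : G) : G ⧸ W) * ((χ x : kˣ) : k))) * h1
  · intro F F' h
    funext c
    have h1 : F c • (((χb c : kˣ) : k) • n₀) = F' c • (((χb c : kˣ) : k) • n₀) := congrFun h c
    exact smul_left_injective k (hb0 c) h1
  · intro Φ
    choose a ha using fun c => hspan (Φ c)
    refine ⟨fun c => a c * (((χb c)⁻¹ : kˣ) : k), ?_⟩
    funext c
    show (a c * (((χb c)⁻¹ : kˣ) : k)) • (((χb c : kˣ) : k) • n₀) = Φ c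
    rw [smul_smul, mul_assoc, ← Units.val_mul, inv_mul_cancel, Units.val_one, mul_one, ha]

/-- K9. -/
theorem stmt_lecAdd : Stmt_lecAdd := by
  intro p _ G _ 𝒰 χ hL X₁ X₂ X₃ i q h₁ h₂ h₃ hses
  have hsubChi := stmt_subAddChi stmt_euler stmt_ses stmt_HMfun
  have hrex := stmt_rightExact stmt_euler stmt_ses stmt_HMfun hsubChi
  have hfdAll := stmt_fdAll stmt_sylow stmt_charTriv stmt_fdExt stmt_ses stmt_HMfun
  have hlocRex := stmt_locRex stmt_sylow stmt_charTriv hfdAll hrex stmt_h0perm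
  obtain ⟨ε, hnum⟩ := hL.num
  have hfd : ∀ X : Rep.{0} (ZMod p) G, Good 𝒰 X → FD 𝒰 X :=
    hfdAll p G 𝒰 χ hL.χtriv fun H hH hχ => ⟨(hnum H hH hχ).1, (hnum H hH hχ).2.2.1⟩
  have hsurj : Function.Surjective (HM 𝒰 q 2) := hlocRex p G 𝒰 χ hL X₂ X₃ q h₂ h₃ hses.surj
  have hc := stmt_ses (ZMod p) G 𝒰 X₁ X₂ X₃ i q hses h₂.2.isDisc
  have he := stmt_euler (ZMod p) _ _ _ _ _ hc (hfd X₁ h₁) (hfd X₂ h₂) (hfd X₃ h₃)
  rw [LinearMap.range_eq_top.2 hsurj, finrank_top, sub_self] at he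
  show cchi (lcCpx 𝒰 X₂) = cchi (lcCpx 𝒰 X₁) + cchi (lcCpx 𝒰 X₃)
  linarith

end Fermat.Agent.TW56.Loc

end
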