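/-
TEAM TW56 -> S56, block LEC, task LEC-K11 (helper26): the key lemma
`χ(P) = - ε dim P` for retracts of `perm W`.
-/
import Fermat.Agent.TW56.Loc.LecInterface
import Fermat.Agent.CFT.Pos.Fun
import Fermat.Agent.CFT.Pos.PermHom

set_option autoImplicit false

noncomputable section

namespace Fermat.Agent.TW56.Loc

open Fermat.Agent.CFT Fermat.Agent.CFT.Top Fermat.Agent.CFT.Pos Fermat.Agent.CFT.Local Module
  CategoryTheory ExtCitation

attribute [local instance] Units.mulDistribMulActionRight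
attribute [local instance] quotAct
attribute [local instance] addAct

namespace LecKey

variable {k : Type} [Field k] {G : Type} [Group G]

/-- `GoodW W` implies `Good 𝒰` for a level `W`. -/
theorem good_of_goodW {𝒰 : LevelSys G} {W : Subgroup G} (hW : W ∈ 𝒰.S) {X : Rep.{0} k G}
    (h : GoodW W X) : Good 𝒰 X := ⟨h.1, W, hW, h.2⟩

/-- a retract of a `GoodW` module is `GoodW`. -/
theorem goodW_retract {W : Subgroup G} {P X : Rep.{0} k G} (i : P ⟶ X) (r : X ⟶ P)
    (hri : ∀ x, r.hom (i.hom x) = x) (hX : GoodW W X) : GoodW W P := by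
  have := hX.1
  refine ⟨?_, fun w hw x => ?_⟩
  · exact Module.Finite.of_surjective r.hom.toLinearMap (fun x => ⟨i.hom x, hri x⟩)
  · rw [← hri (P.ρ w x), Rep.hom_comm_apply, hX.2 w hw, hri]

/-- the complementary retraction `x ↦ x - i (r x)` onto the kernel of `r`. -/
def compl {P X : Rep.{0} k G} (i : P ⟶ X) (r : X ⟶ P) (hri : ∀ x, r.hom (i.hom x) = x) :
    X ⟶ kerRep r :=
  Rep.ofHom ⟨LinearMap.codRestrict (LinearMap.ker r.hom.toLinearMap)
      (LinearMap.id - i.hom.toLinearMap ∘ₗ r.hom.toLinearMap) (fun x => by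
        change r.hom (x - i.hom (r.hom x)) = 0
        rw [map_sub, hri, sub_self]),
    fun g => LinearMap.ext fun x => Subtype.ext (by
      change X.ρ g x - i.hom (r.hom (X.ρ g x)) = X.ρ g (x - i.hom (r.hom x))
      rw [Rep.hom_comm_apply, Rep.hom_comm_apply, map_sub])⟩

theorem compl_kerι {P X : Rep.{0} k G} (i : P ⟶ X) (r : X ⟶ P)
    (hri : ∀ x, r.hom (i.hom x) = x) (x : kerRep r) :
    (compl i r hri).hom ((kerι r).hom x) = x := by
  apply Subtype.ext
  change x.1 - i.hom (r.hom x.1) = x.1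
  have : r.hom x.1 = 0 := x.2
  rw [this, map_zero, sub_zero]

end LecKey

open LecKey

theorem stmt_lecKey (hL : Stmt_lecLe) (hA : Stmt_lecAdd) (hT : Stmt_twMuPerm) : Stmt_lecKey := by
  intro 𝒢 Ω _ _ _ 𝒰 p _ N χ ε hC W _ _ hW hχW P i r hri
  have hLoc : LocHyp 𝒰 χ := ⟨hC.χtriv, ε, hC.num⟩
  obtain ⟨e, he⟩ := hT (ZMod p) 𝒢 χ N hC.mu W hχW
  obtain ⟨e', he1, he2⟩ := stmt_inv (ZMod p) 𝒢 _ _ e he
  -- the transported retract
  let i' : P ⟶ tw W N := i ≫ e
  let r' : tw W N ⟶ P := e' ≫ r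
  have hri' : ∀ x, r'.hom (i'.hom x) = x := by
    intro x
    change r.hom (e'.hom (e.hom (i.hom x))) = x
    rw [he1, hri]
  have hsurj : Function.Surjective r'.hom := fun x => ⟨i'.hom x, hri' x⟩
  -- goodness
  have hNfin : Module.Finite (ZMod p) N :=
    Module.finite_of_finrank_pos (by rw [hC.mu.1]; exact one_pos)
  have hN : GoodW W N := ⟨hNfin, fun w hw x => by rw [hC.mu.2, hχW w hw, Units.val_one, one_smul]⟩
  have hTw : GoodW W (tw W N) := goodW_tw le_rfl hN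
  have hPerm : GoodW W (perm W : Rep.{0} (ZMod p) 𝒢) := goodW_perm le_rfl
  have hP : GoodW W P := goodW_retract i' r' hri' hTw
  have hP' : GoodW W (kerRep r') := goodW_ker r' hTw
  -- the two inequalities
  have h1 := hL 𝒢 Ω 𝒰 p N χ ε hC W hW hχW P i' r' hri'
  have h2 := hL 𝒢 Ω 𝒰 p N χ ε hC W hW hχW (kerRep r') (kerι r') (compl i' r' hri')
    (compl_kerι i' r' hri')
  -- additivity
  have h3 := hA p 𝒢 𝒰 χ hLoc (kerRep r') (tw W N) P (kerι r') r' (good_of_goodW hW hP')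
    (good_of_goodW hW hTw) (good_of_goodW hW hP) (isSES_ker r' hsurj)
  have := hTw.1
  have h4 : finrank (ZMod p) (kerRep r') + finrank (ZMod p) P = finrank (ZMod p) (tw W N) :=
    finrank_ker_add r' hsurj
  -- the zero module
  have hZ : GoodW W (zeroRep : Rep.{0} (ZMod p) 𝒢) := goodW_of_subsingleton W _
  have h5 := hA p 𝒢 𝒰 χ hLoc zeroRep zeroRep zeroRep (𝟙 _) (𝟙 _) (good_of_goodW hW hZ)
    (good_of_goodW hW hZ) (good_of_goodW hW hZ)
    ⟨fun _ _ _ => Subsingleton.elim _ _, fun x => ⟨x, Subsingleton.elim _ _⟩,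
      fun x => ⟨fun _ => ⟨x, Subsingleton.elim _ _⟩, fun _ => Subsingleton.elim _ _⟩⟩
  have h6 := hA p 𝒢 𝒰 χ hLoc (perm W) (tw W N) zeroRep e 0 (good_of_goodW hW hPerm)
    (good_of_goodW hW hTw) (good_of_goodW hW hZ)
    ⟨he.1, fun x => ⟨0, Subsingleton.elim _ _⟩,
      fun x => ⟨fun _ => he.2 x, fun _ => Subsingleton.elim _ _⟩⟩
  -- numerics
  have h7 : finrank (ZMod p) (tw W N) = W.index := by
    rw [finrank_tw, hC.mu.1, mul_one]
  obtain ⟨-, n1, -, n2⟩ := hC.num W ⟨W, hW, le_rfl⟩ hχW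
  have n0 : finrank (ZMod p) (Hlc 𝒰 (perm W : Rep.{0} (ZMod p) 𝒢) 0) = 1 :=
    stmt_h0perm (ZMod p) 𝒢 𝒰 W
  have h8 : chi 𝒰 (perm W : Rep.{0} (ZMod p) 𝒢) = 1 - (2 + ε * W.index : ℕ) + 1 := by
    have n1' : finrank (ZMod p) (Hlc 𝒰 (perm W : Rep.{0} (ZMod p) 𝒢) 1) = 2 + ε * W.index := n1
    have n2' : finrank (ZMod p) (Hlc 𝒰 (perm W : Rep.{0} (ZMod p) 𝒢) 2) = 1 := n2
    unfold chi cchi
    rw [n0, n1', n2']
    norm_num
  have h4' : (finrank (ZMod p) (kerRep r') : ℤ) + finrank (ZMod p) P = W.index := by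
    rw [← h7]; exact_mod_cast h4
  push_cast at h8
  have h9 : (ε : ℤ) * finrank (ZMod p) (kerRep r') + ε * finrank (ZMod p) P = ε * W.index := by
    rw [← mul_add, h4']
  linarith

end Fermat.Agent.TW56.Loc

end
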