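/-
TEAM TW56 -> S56, block LEC, package K5 : endomorphisms of `Map(Γ, N)` are right translation operators.
-/
import Fermat.Agent.TW56.Loc.LecInterface

set_option autoImplicit false

noncomputable section

namespace Fermat.Agent.TW56.Loc

open Fermat.Agent.CFT Fermat.Agent.CFT.Top Fermat.Agent.CFT.Pos Fermat.Agent.CFT.Local Module
  CategoryTheory ExtCitation

attribute [local instance] Units.mulDistribMulActionRight
attribute [local instance] quotAct
attribute [local instance] addAct

namespace EndTw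

/-! ### convolution -/

section Conv

variable {k : Type} [CommRing k] {Γ : Type} [Group Γ] [Finite Γ]

/-- the product of `k[Γ]`. -/
def conv (a b : Γ → k) : Γ → k := fun η => ∑ᶠ γ : Γ, a γ * b (γ⁻¹ * η)

omit [Finite Γ] in
lemma conv_apply (a b : Γ → k) (η : Γ) : conv a b η = ∑ᶠ γ : Γ, a γ * b (γ⁻¹ * η) := rfl

omit [Finite Γ] in
lemma isIdem_iff {p : ℕ} (a : Γ → ZMod p) : IsIdem a ↔ conv a a = a :=
  ⟨fun h => funext h, fun h γ => congrFun h γ⟩

lemma conv_one_left [DecidableEq Γ] (b : Γ → k) : conv (Pi.single 1 1) b = b := by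
  cases nonempty_fintype Γ
  funext η
  rw [conv_apply, finsum_eq_sum_of_fintype, Finset.sum_eq_single 1]
  · simp
  · intro γ _ hγ
    rw [Pi.single_eq_of_ne hγ, zero_mul]
  · intro h
    exact (h (Finset.mem_univ _)).elim

lemma conv_one_right [DecidableEq Γ] (a : Γ → k) : conv a (Pi.single 1 1) = a := by
  cases nonempty_fintype Γ
  funext η
  rw [conv_apply, finsum_eq_sum_of_fintype, Finset.sum_eq_single η]
  · simp
  · intro γ _ hγ
    rw [Pi.single_eq_of_ne (fun h => hγ (inv_mul_eq_one.1 h)), mul_zero]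
  · intro h
    exact (h (Finset.mem_univ _)).elim

lemma conv_sub_left (a a' b : Γ → k) : conv (a - a') b = conv a b - conv a' b := by
  cases nonempty_fintype Γ
  funext η
  simp only [conv_apply, Pi.sub_apply, finsum_eq_sum_of_fintype, sub_mul, Finset.sum_sub_distrib]

lemma conv_sub_right (a b b' : Γ → k) : conv a (b - b') = conv a b - conv a b' := by
  cases nonempty_fintype Γ
  funext η
  simp only [conv_apply, Pi.sub_apply, finsum_eq_sum_of_fintype, mul_sub, Finset.sum_sub_distrib]

/-- `e` idempotent `⟹` `1 - e` idempotent. -/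
theorem isIdem_one_sub [DecidableEq Γ] {p : ℕ} (a : Γ → ZMod p) (h : IsIdem a) :
    IsIdem (Pi.single 1 1 - a) := by
  rw [isIdem_iff] at h ⊢
  rw [conv_sub_left, conv_sub_right, conv_sub_right, conv_one_left, conv_one_left, conv_one_right,
    h]
  abel

end Conv

/-! ### right translation operators -/

section RT

variable {k : Type} [CommRing k] {G : Type} [Group G] (W : Subgroup G) [W.Normal] [W.FiniteIndex]
  (A : Rep.{0} k G)

omit [W.FiniteIndex] in
lemma smul_eq_mk_mul (g : G) (γ : G ⧸ W) : g • γ = (g : G ⧸ W) * γ := by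
  induction γ using QuotientGroup.induction_on
  rfl

/-- the composition formula. -/
theorem rtLin_comp (a b : G ⧸ W → k) (F : G ⧸ W → A) :
    rtLin W A a (rtLin W A b F) = rtLin W A (conv a b) F := by
  cases nonempty_fintype (G ⧸ W)
  funext c
  simp only [rtLin_apply, conv_apply, finsum_eq_sum_of_fintype, Finset.smul_sum, Finset.sum_smul,
    smul_smul]
  conv_rhs => rw [Finset.sum_comm]
  refine Finset.sum_congr rfl fun γ _ => ?_
  refine Fintype.sum_equiv (Equiv.mulLeft γ) _ _ fun δ => ?_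
  simp [mul_assoc]

theorem rtOp_comp (a b : G ⧸ W → k) (F : G ⧸ W → A) :
    (rtOp W A a).hom ((rtOp W A b).hom F) = (rtOp W A (conv a b)).hom F :=
  rtLin_comp W A a b F

theorem rtLin_one [DecidableEq (G ⧸ W)] (F : G ⧸ W → A) : rtLin W A (Pi.single 1 1) F = F := by
  cases nonempty_fintype (G ⧸ W)
  funext c
  rw [rtLin_apply, finsum_eq_sum_of_fintype, Finset.sum_eq_single 1]
  · simp
  · intro γ _ hγ
    rw [Pi.single_eq_of_ne hγ, zero_smul]
  · intro h
    exact (h (Finset.mem_univ _)).elim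

theorem rtOp_one [DecidableEq (G ⧸ W)] (F : G ⧸ W → A) :
    (rtOp W A (Pi.single 1 1)).hom F = F := rtLin_one W A F

theorem rtLin_sub (a b : G ⧸ W → k) (F : G ⧸ W → A) :
    rtLin W A (a - b) F = rtLin W A a F - rtLin W A b F := by
  cases nonempty_fintype (G ⧸ W)
  funext c
  simp only [rtLin_apply, Pi.sub_apply, finsum_eq_sum_of_fintype, sub_smul,
    Finset.sum_sub_distrib]

theorem rtOp_sub (a b : G ⧸ W → k) (F : G ⧸ W → A) :
    (rtOp W A (a - b)).hom F = (rtOp W A a).hom F - (rtOp W A b).hom F := rtLin_sub W A a b F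

/-- evaluation on `δ_η n` at `1`. -/
theorem rtLin_single (a : G ⧸ W → k) (η : G ⧸ W) (n : A) [DecidableEq (G ⧸ W)] :
    rtLin W A a (Pi.single η n) 1 = a η • n := by
  cases nonempty_fintype (G ⧸ W)
  rw [rtLin_apply, finsum_eq_sum_of_fintype, Finset.sum_eq_single η]
  · simp
  · intro γ _ hγ
    rw [one_mul, Pi.single_eq_of_ne hγ, smul_zero]
  · intro h
    exact (h (Finset.mem_univ _)).elim

end RT

section Main

variable {k : Type} [Field k] {G : Type} [Group G] (W : Subgroup G) [W.Normal] [W.FiniteIndex]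
  (N : Rep.{0} k G)

/-- `a ↦ rtLin a` is injective if `N ≠ 0`. -/
theorem rtLin_injective {n0 : N} (hn0 : n0 ≠ 0) {a b : G ⧸ W → k}
    (h : ∀ F, rtLin W N a F = rtLin W N b F) : a = b := by
  classical
  funext η
  have h1 := congrFun (h (Pi.single η n0)) 1
  rw [rtLin_single, rtLin_single] at h1
  exact smul_left_injective k hn0 h1

theorem exists_rtLin (hN : finrank k N = 1) (El : (G ⧸ W → N) →ₗ[k] (G ⧸ W → N))
    (hEl : ∀ g F, El ((mapRep (G ⧸ W) N).ρ g F) = (mapRep (G ⧸ W) N).ρ g (El F)) :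
    ∃ a : G ⧸ W → k, ∀ F, El F = rtLin W N a F := by
  classical
  cases nonempty_fintype (G ⧸ W)
  obtain ⟨n0, hn0, hspan⟩ := finrank_eq_one_iff'.1 hN
  choose co hco using hspan
  refine ⟨fun γ => co (El (Pi.single γ n0) 1), fun F => ?_⟩
  have h1 : ∀ F : G ⧸ W → N, El F 1 = ∑ γ, co (El (Pi.single γ n0) 1) • F γ := by
    intro F
    have hF : F = ∑ γ, co (F γ) • (Pi.single γ n0 : G ⧸ W → N) := by
      funext x
      rw [Finset.sum_apply, Finset.sum_eq_single x]
      · rw [Pi.smul_apply, Pi.single_eq_same, hco]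
      · intro γ _ hγ
        rw [Pi.smul_apply, Pi.single_eq_of_ne (Ne.symm hγ), smul_zero]
      · intro h
        exact (h (Finset.mem_univ _)).elim
    conv_lhs => rw [hF]
    rw [map_sum, Finset.sum_apply]
    refine Finset.sum_congr rfl fun γ _ => ?_
    rw [map_smul, Pi.smul_apply]
    conv_lhs => rw [← hco (El (Pi.single γ n0) 1)]
    conv_rhs => rw [← hco (F γ)]
    rw [smul_smul, smul_smul, mul_comm]
  funext c
  induction c using QuotientGroup.induction_on with | H g =>
  have h2 := congrFun (hEl g⁻¹ F) 1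
  rw [mapRep_ρ_apply, inv_inv, smul_eq_mk_mul, mul_one] at h2
  have h4 : El F (g : G ⧸ W) = N.ρ g (El ((mapRep (G ⧸ W) N).ρ g⁻¹ F) 1) := by
    rw [h2, ← Module.End.mul_apply, ← map_mul, mul_inv_cancel, map_one]
    rfl
  rw [h4, h1, map_sum, rtLin_apply, finsum_eq_sum_of_fintype]
  refine Finset.sum_congr rfl fun γ _ => ?_
  rw [map_smul, mapRep_ρ_apply, inv_inv, ← Module.End.mul_apply, ← map_mul, mul_inv_cancel,
    map_one, smul_eq_mk_mul]
  rfl

end Main

end EndTw

/-- **K5.** -/
theorem stmt_endTw : Stmt_endTw := by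
  intro p _ G _ χ N hN W _ _ E
  obtain ⟨a, ha⟩ := EndTw.exists_rtLin W N hN.1 E.hom.toLinearMap
    (fun g F => Rep.hom_comm_apply E g F)
  refine ⟨a, ha, fun hE => ?_⟩
  obtain ⟨n0, hn0, -⟩ := finrank_eq_one_iff'.1 hN.1
  rw [EndTw.isIdem_iff]
  refine EndTw.rtLin_injective W N hn0 fun F => ?_
  rw [← EndTw.rtLin_comp]
  have h1 := hE F
  have e1 : E.hom F = rtLin W N a F := ha F
  have e2 : E.hom (rtLin W N a F) = rtLin W N a (rtLin W N a F) := ha _
  rw [e1, e2] at h1
  exact h1

end Fermat.Agent.TW56.Loc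

end
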