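/-
TEAM TW56 -> S56, block LEC, K3 : `# e H⁰(G, Map(Γ, μ_p)) ≤ # e μ_p(L)`.
-/
import Fermat.Agent.TW56.Loc.LecInterface

set_option autoImplicit false
set_option linter.unusedSectionVars false

noncomputable section

namespace Fermat.Agent.TW56.Loc

open Fermat.Agent.CFT Fermat.Agent.CFT.Top Fermat.Agent.CFT.Pos Fermat.Agent.CFT.Local Module
  CategoryTheory ExtCitation

attribute [local instance] Units.mulDistribMulActionRight
attribute [local instance] quotAct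
attribute [local instance] addAct

namespace H0Tw

section Inv

variable {k : Type} [CommRing k] {𝒢 : Type} [Group 𝒢] (W : Subgroup 𝒢) [W.Normal]
  (N : Rep.{0} k 𝒢)

/-- an invariant function is `c ↦ c (F 1)`. -/
lemma inv_apply {F : 𝒢 ⧸ W → N} (hF : F ∈ (mapRep (𝒢 ⧸ W) N).ρ.invariants) (g : 𝒢) :
    F (g : 𝒢 ⧸ W) = N.ρ g (F 1) := by
  have h1 := congrFun (hF g) (g : 𝒢 ⧸ W)
  rw [mapRep_ρ_apply] at h1
  have h2 : g⁻¹ • (g : 𝒢 ⧸ W) = 1 := by
    show ((g⁻¹ * g : 𝒢) : 𝒢 ⧸ W) = 1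
    rw [inv_mul_cancel]
    rfl
  rw [h2] at h1
  exact h1.symm

lemma inv_fixed {F : 𝒢 ⧸ W → N} (hF : F ∈ (mapRep (𝒢 ⧸ W) N).ρ.invariants) (w : 𝒢) (hw : w ∈ W) :
    N.ρ w (F 1) = F 1 := by
  rw [← inv_apply W N hF w, (QuotientGroup.eq_one_iff w).2 hw]

lemma inv_ext {F F' : 𝒢 ⧸ W → N} (hF : F ∈ (mapRep (𝒢 ⧸ W) N).ρ.invariants)
    (hF' : F' ∈ (mapRep (𝒢 ⧸ W) N).ρ.invariants) (h : F 1 = F' 1) : F = F' := by
  funext c
  induction c using QuotientGroup.induction_on with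
  | H g => rw [inv_apply W N hF, inv_apply W N hF', h]

end Inv

section Field

variable {𝒢 Ω : Type} [Group 𝒢] [Field Ω] [MulSemiringAction 𝒢 Ω] (W : Subgroup 𝒢) [W.Normal]

/-- `Lˣ → Ωˣ`, additively. -/
def incl : Additive (FixedPoints.subfield W Ω)ˣ →+ Additive Ωˣ :=
  MonoidHom.toAdditive (Units.map ((FixedPoints.subfield W Ω).subtype : _ →* Ω))

lemma incl_val (x : Additive (FixedPoints.subfield W Ω)ˣ) :
    (((incl W x).toMul : Ωˣ) : Ω) = ((x.toMul : (FixedPoints.subfield W Ω)ˣ) :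
      FixedPoints.subfield W Ω) := rfl

lemma incl_injective : Function.Injective (incl (Ω := Ω) W) := by
  intro x y h
  have h1 : (((incl W x).toMul : Ωˣ) : Ω) = (((incl W y).toMul : Ωˣ) : Ω) := by rw [h]
  rw [incl_val, incl_val] at h1
  exact Additive.toMul.injective (Units.ext (Subtype.ext h1))

lemma incl_smul (g : 𝒢) (x : Additive (FixedPoints.subfield W Ω)ˣ) :
    incl W ((g : 𝒢 ⧸ W) • x) = Additive.ofMul (g • (incl W x).toMul) := rfl

/-- a `W`-fixed unit comes from `L`. -/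
lemma exists_incl (u : Additive Ωˣ) (hu : ∀ w ∈ W, Additive.ofMul (w • u.toMul) = u) :
    ∃ x : Additive (FixedPoints.subfield W Ω)ˣ, incl W x = u := by
  have h1 : ∀ w : W, w • ((u.toMul : Ωˣ) : Ω) = ((u.toMul : Ωˣ) : Ω) := by
    intro w
    have := congrArg (fun v : Additive Ωˣ => ((v.toMul : Ωˣ) : Ω)) (hu w.1 w.2)
    exact this
  have h2 : ∀ w : W, w • (((u.toMul)⁻¹ : Ωˣ) : Ω) = (((u.toMul)⁻¹ : Ωˣ) : Ω) := by
    intro w
    have := congrArg (fun v : Additive Ωˣ => (((v.toMul)⁻¹ : Ωˣ) : Ω)) (hu w.1 w.2)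
    exact this
  refine ⟨Additive.ofMul ⟨⟨_, h1⟩, ⟨_, h2⟩, Subtype.ext (Units.mul_inv _),
    Subtype.ext (Units.inv_mul _)⟩, ?_⟩
  exact Additive.toMul.injective (Units.ext rfl)

end Field

end H0Tw

open H0Tw in
theorem stmt_h0Tw : Stmt_h0Tw := by
  intro 𝒢 Ω _ _ _ 𝒰 p _ N e he W _ _ a
  obtain ⟨heinj, heq, -⟩ := he
  have hp : p.Prime := Fact.out
  have : NeZero p := ⟨hp.ne_zero⟩
  -- scalars
  have hsm : ∀ (t : ZMod p) (n : N), e (t • n) = t.val • e n := by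
    intro t n
    rw [← map_nsmul, ← Nat.cast_smul_eq_nsmul (ZMod p), ZMod.natCast_zmod_val]
  have hpn : ∀ n : N, p • e n = 0 := by
    intro n
    rw [← map_nsmul, ← Nat.cast_smul_eq_nsmul (ZMod p), CharP.cast_eq_zero, zero_smul, map_zero]
  -- the unit attached to an invariant function
  have hx : ∀ F ∈ (mapRep (𝒢 ⧸ W) N).ρ.invariants,
      ∃ x : Additive (FixedPoints.subfield W Ω)ˣ, incl W x = e (F 1) := by
    intro F hF
    refine exists_incl W _ fun w hw => ?_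
    rw [← heq, inv_fixed W N hF w hw]
  -- the key identity
  have key : ∀ F ∈ (mapRep (𝒢 ⧸ W) N).ρ.invariants,
      ∀ x : Additive (FixedPoints.subfield W Ω)ˣ, incl W x = e (F 1) →
      incl W (opZ a x) = e ((rtOp W N a).hom F 1) := by
    intro F hF x hxF
    rw [opZ_apply, rtOp_apply, AddMonoidHom.map_finsum _ (Set.toFinite _),
      AddMonoidHom.map_finsum _ (Set.toFinite _)]
    refine finsum_congr fun γ => ?_
    rw [map_nsmul, hsm, one_mul]
    congr 1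
    induction γ using QuotientGroup.induction_on with
    | H g => rw [incl_smul, hxF, ← heq, inv_apply W N hF]
  -- finiteness of the target
  have hfin : Finite ((nsmulAddMonoidHom (α := Additive (FixedPoints.subfield W Ω)ˣ) p).ker.map
      (opZ a)) := by
    have h1 : Finite (nsmulAddMonoidHom (α := Additive (FixedPoints.subfield W Ω)ˣ) p).ker := by
      refine Finite.of_injective
        (fun u => (⟨u.1.toMul, by
          rw [mem_rootsOfUnity]
          exact congrArg Additive.toMul u.2⟩ : rootsOfUnity p (FixedPoints.subfield W Ω))) ?_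
      intro u v h
      exact Subtype.ext (Additive.toMul.injective (congrArg Subtype.val h))
    have h2 := (Set.toFinite ((nsmulAddMonoidHom
      (α := Additive (FixedPoints.subfield W Ω)ˣ) p).ker :
        Set (Additive (FixedPoints.subfield W Ω)ˣ))).image (opZ a)
    rw [← AddSubgroup.coe_map] at h2
    exact h2.to_subtype
  -- the map
  have hex : ∀ z : LinearMap.range (HM 𝒰 (rtOp W N a) 0),
      ∃ y : ((nsmulAddMonoidHom (α := Additive (FixedPoints.subfield W Ω)ˣ) p).ker.map (opZ a)),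
        incl W y.1 = e (((H0Equiv 𝒰 (mapRep (𝒢 ⧸ W) N)).symm z.1).1 1) := by
    rintro ⟨_, z₀, rfl⟩
    obtain ⟨F₀, rfl⟩ := (cls0_bijective 𝒰 (mapRep (𝒢 ⧸ W) N)).2 z₀
    obtain ⟨x₀, hx₀⟩ := hx F₀.1 F₀.2
    have hker : x₀ ∈ (nsmulAddMonoidHom (α := Additive (FixedPoints.subfield W Ω)ˣ) p).ker := by
      rw [AddMonoidHom.mem_ker]
      apply incl_injective W
      show incl W (p • x₀) = incl W 0
      rw [map_nsmul, hx₀, hpn, map_zero]
    refine ⟨⟨opZ a x₀, x₀, hker, rfl⟩, ?_⟩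
    have h1 : HM 𝒰 (rtOp W N a) 0 (cls0 𝒰 (mapRep (𝒢 ⧸ W) N) F₀)
        = H0Equiv 𝒰 (mapRep (𝒢 ⧸ W) N) ⟨(rtOp W N a).hom F₀.1,
            map_mem_invariants (MonoidHom.id 𝒢) (rtOp W N a).hom.toLinearMap
              (fun g m => Rep.hom_comm_apply (rtOp W N a) g m) F₀.2⟩ := rfl
    show incl W (opZ a x₀) = e (((H0Equiv 𝒰 (mapRep (𝒢 ⧸ W) N)).symm
      (HM 𝒰 (rtOp W N a) 0 (cls0 𝒰 (mapRep (𝒢 ⧸ W) N) F₀))).1 1)
    rw [h1, LinearEquiv.symm_apply_apply]
    exact key F₀.1 F₀.2 x₀ hx₀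
  choose Θ hΘ using hex
  refine Nat.card_le_card_of_injective Θ ?_
  intro z z' hzz
  have h1 := hΘ z
  rw [hzz, hΘ z'] at h1
  have h2 := heinj h1
  have h3 := inv_ext W N ((H0Equiv 𝒰 (mapRep (𝒢 ⧸ W) N)).symm z'.1).2
    ((H0Equiv 𝒰 (mapRep (𝒢 ⧸ W) N)).symm z.1).2 h2
  exact Subtype.ext ((H0Equiv 𝒰 (mapRep (𝒢 ⧸ W) N)).symm.injective (Subtype.ext h3)).symm

end Fermat.Agent.TW56.Loc

end
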