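import Fermat.Agent.TW56.Loc.LecInterface
import Fermat.Agent.CFT.Pos.Fun

/-!
# TW56 / Loc : LEC-K6, K7.  The rank of `rtOp`, cohomology of retracts
-/

set_option autoImplicit false

noncomputable section

namespace Fermat.Agent.TW56.Loc

open Fermat.Agent.CFT Fermat.Agent.CFT.Top Fermat.Agent.CFT.Pos Fermat.Agent.CFT.Local Module
  CategoryTheory ExtCitation

attribute [local instance] Units.mulDistribMulActionRight
attribute [local instance] quotAct
attribute [local instance] addAct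

namespace RkTw

/-- a retract is the image of the idempotent. -/
theorem retract_abs {k P X : Type*} [Field k] [AddCommGroup P] [Module k P] [AddCommGroup X]
    [Module k X] (i : P →ₗ[k] X) (r : X →ₗ[k] P) (E : X →ₗ[k] X) (h1 : ∀ x, r (i x) = x)
    (h2 : ∀ x, E x = i (r x)) : Nonempty (P ≃ₗ[k] LinearMap.range E) := by
  refine ⟨LinearEquiv.ofBijective
    (i.codRestrict (LinearMap.range E) fun x => ⟨i x, by rw [h2, h1]⟩) ⟨?_, ?_⟩⟩
  · intro x y hxy
    have h3 : r (i x) = r (i y) := congrArg (fun z : LinearMap.range E => r z.1) hxy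
    rwa [h1, h1] at h3
  · rintro ⟨_, y, rfl⟩
    exact ⟨r y, Subtype.ext (h2 y).symm⟩

/-- conjugate endomorphisms have the same rank. -/
theorem finrank_range_conj {k V V' : Type*} [Field k] [AddCommGroup V] [Module k V]
    [AddCommGroup V'] [Module k V'] (Φ : V ≃ₗ[k] V') (f : V →ₗ[k] V) (f' : V' →ₗ[k] V')
    (h : ∀ x, Φ (f x) = f' (Φ x)) :
    finrank k (LinearMap.range f) = finrank k (LinearMap.range f') := by
  have e : (LinearMap.range f).map (Φ : V →ₗ[k] V') = LinearMap.range f' := by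
    ext y
    constructor
    · rintro ⟨_, ⟨x, rfl⟩, rfl⟩
      exact ⟨Φ x, (h x).symm⟩
    · rintro ⟨x, rfl⟩
      refine ⟨f (Φ.symm x), ⟨_, rfl⟩, ?_⟩
      show Φ (f (Φ.symm x)) = f' x
      rw [h, LinearEquiv.apply_symm_apply]
  rw [← e]
  exact (LinearEquiv.finrank_map_eq Φ _).symm

end RkTw

theorem stmt_rkTw : Stmt_rkTw := by
  intro p _ G _ χ N hN W _ _ a
  have hfin : Module.Finite (ZMod p) N := Module.finite_of_finrank_pos (by rw [hN.1]; exact one_pos)
  let φ : N ≃ₗ[ZMod p] ZMod p := LinearEquiv.ofFinrankEq _ _ (by rw [hN.1, finrank_self])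
  let Φ : (G ⧸ W → N) ≃ₗ[ZMod p] (G ⧸ W → ZMod p) := LinearEquiv.piCongrRight fun _ => φ
  refine RkTw.finrank_range_conj Φ (rtLin W N a) (regOp a) fun F => ?_
  funext c
  show φ (∑ᶠ γ : G ⧸ W, a γ • F (c * γ)) = ∑ᶠ γ : G ⧸ W, a γ * φ (F (c * γ))
  rw [map_finsum _ (Set.toFinite _)]
  exact finsum_congr fun γ => by rw [map_smul, smul_eq_mul]

theorem stmt_retract : Stmt_retract := by
  intro k _ G _ 𝒰 P X i r E h1 h2
  refine ⟨RkTw.retract_abs i.hom.toLinearMap r.hom.toLinearMap E.hom.toLinearMap h1 h2, fun n => ?_⟩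
  obtain ⟨hid, hcomp, -, -⟩ := stmt_HMfun k G 𝒰 n
  refine RkTw.retract_abs (HM 𝒰 i n) (HM 𝒰 r n) (HM 𝒰 E n) (fun z => ?_) (fun z => ?_)
  · rw [← hcomp P X P i r (𝟙 P) (fun x => (h1 x).symm) z]
    exact hid P (𝟙 P) (fun _ => rfl) z
  · exact hcomp X P X r i E h2 z

end Fermat.Agent.TW56.Loc

end
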