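/-
TEAM TW56 -> S56, block LEC, K1 : the natural Kummer map (`Stmt_kumNat`).
-/
import Fermat.Agent.TW56.Loc.LecInterface

set_option autoImplicit false

noncomputable section

namespace Fermat.Agent.TW56.Loc

open Fermat.Agent.CFT Fermat.Agent.CFT.Top Fermat.Agent.CFT.Pos Fermat.Agent.CFT.Local Module
  CategoryTheory ExtCitation

attribute [local instance] Units.mulDistribMulActionRight
attribute [local instance] quotAct
attribute [local instance] addAct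

namespace KumNat

variable {p : ℕ} {G : Type} [Group G] {𝒰 : LevelSys G} {M : Rep.{0} ℤ G}
  {T : Rep.{0} (ZMod p) G} {j : T →+ M}

lemma rho_mul {k : Type} [CommRing k] (X : Rep.{0} k G) (g h : G) (x : X) :
    X.ρ (g * h) x = X.ρ g (X.ρ h x) := by
  rw [map_mul]
  rfl

/-- `z` is the cocycle `g ↦ j⁻¹ (g m' - m')`. -/
def IsCoc (j : T →+ M) (m' : M) (z : G → T) : Prop := ∀ g, j (z g) = M.ρ g m' - m'

lemma exists_isCoc (hker : ∀ m : M, p • m = 0 ↔ ∃ t, j t = m) (m' : M)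
    (hm : ∀ g, M.ρ g (p • m') = p • m') : ∃ z : G → T, IsCoc j m' z := by
  have h : ∀ g, ∃ t, j t = M.ρ g m' - m' := fun g => by
    rw [← hker, smul_sub, ← map_nsmul, hm g, sub_self]
  choose z hz using h
  exact ⟨z, hz⟩

lemma mem_C0 (hd : IsDisc 𝒰 M) (hinj : Function.Injective j)
    (heq : ∀ (g : G) (t : T), j (T.ρ g t) = M.ρ g (j t)) (t : T) : t ∈ C0 𝒰 T := by
  obtain ⟨U, hU, h⟩ := hd (j t)
  exact Top.mem_C0.2 ⟨U, hU, fun u hu => hinj (by rw [heq, h u hu])⟩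

lemma IsCoc.mem_Z1 (hd : IsDisc 𝒰 M) (hinj : Function.Injective j)
    (heq : ∀ (g : G) (t : T), j (T.ρ g t) = M.ρ g (j t)) {m' : M} {z : G → T}
    (hz : IsCoc j m' z) : z ∈ Z1 𝒰 T := by
  rw [Top.mem_Z1]
  refine ⟨fun g h => hinj ?_, ?_⟩
  · rw [map_add, heq, hz, hz, hz, map_sub, rho_mul]
    abel
  · obtain ⟨U, hU, h⟩ := hd m'
    have hN := 𝒰.normal U hU
    refine Top.mem_C1.2 ⟨U, hU, fun g u hu => hinj ?_, fun g u hu => hinj ?_⟩
    · rw [hz, hz, rho_mul, h u hu]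
    · have h1 : g⁻¹ * u * g ∈ U := by
        have := hN.conj_mem u hu g⁻¹
        simpa using this
      have h2 : u * g = g * (g⁻¹ * u * g) := by group
      rw [heq, hz, map_sub, h u hu, ← rho_mul, h2, rho_mul, h _ h1]

/-- the class does not depend on the choice of the root. -/
lemma cls_eq (hd : IsDisc 𝒰 M) (hinj : Function.Injective j)
    (heq : ∀ (g : G) (t : T), j (T.ρ g t) = M.ρ g (j t))
    (hker : ∀ m : M, p • m = 0 ↔ ∃ t, j t = m) {m₁ m₂ : M} {z₁ z₂ : G → T}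
    (h₁ : IsCoc j m₁ z₁) (h₂ : IsCoc j m₂ z₂) (h : p • m₁ = p • m₂)
    (hz₁ : z₁ ∈ Z1 𝒰 T) (hz₂ : z₂ ∈ Z1 𝒰 T) :
    cls1 𝒰 T ⟨z₁, hz₁⟩ = cls1 𝒰 T ⟨z₂, hz₂⟩ := by
  rw [← sub_eq_zero, ← map_sub, cls1_eq_zero_iff]
  obtain ⟨t, ht⟩ := (hker (m₁ - m₂)).1 (by rw [smul_sub, h, sub_self])
  refine ⟨t, mem_C0 hd hinj heq t, fun g => hinj ?_⟩
  show j (z₁ g - z₂ g) = _
  rw [map_sub, map_sub, heq, h₁, h₂, ht, map_sub]
  abel

end KumNat

open KumNat in
theorem stmt_kumNat : Stmt_kumNat := by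
  intro p _ G _ 𝒰 M T j hd hsurj hinj heq hker
  -- choices
  choose r hr using hsurj
  have hex : ∀ m : ↥(invAdd M), ∃ z : G → T, IsCoc j (r m.1) z := fun m =>
    exists_isCoc hker (r m.1) fun g => by rw [hr, m.2 g]
  choose z hz using hex
  have hZ : ∀ {m' : M} {y : G → T}, IsCoc j m' y → y ∈ Z1 𝒰 T := fun h => h.mem_Z1 hd hinj heq
  -- the characterisation of the class
  have key : ∀ (m : ↥(invAdd M)) (m' : M) (y : G → T) (hy : IsCoc j m' y), p • m' = m.1 →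
      cls1 𝒰 T ⟨z m, hZ (hz m)⟩ = cls1 𝒰 T ⟨y, hZ hy⟩ := fun m m' y hy hm =>
    cls_eq hd hinj heq hker (hz m) hy (by rw [hr, hm]) _ _
  let κ : ↥(invAdd M) →+ Hlc 𝒰 T 1 :=
    AddMonoidHom.mk' (fun m => cls1 𝒰 T ⟨z m, hZ (hz m)⟩) (by
      intro a b
      have hy : IsCoc j (r a.1 + r b.1) (z a + z b) := fun g => by
        rw [Pi.add_apply, map_add, hz a g, hz b g, map_add]
        abel
      rw [key (a + b) _ _ hy (by rw [smul_add, hr, hr]; rfl), ← map_add]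
      rfl)
  refine ⟨κ, fun m => ?_, fun E E' hE' hEj m => ?_⟩
  · show cls1 𝒰 T ⟨z m, hZ (hz m)⟩ = 0 ↔ _
    constructor
    · intro h
      obtain ⟨t, -, ht⟩ := (cls1_eq_zero_iff 𝒰 T _).1 h
      refine ⟨⟨r m.1 - j t, fun g => ?_⟩, Subtype.ext ?_⟩
      · have h1 : j (z m g) = M.ρ g (j t) - j t := by
          have := congrArg j (ht g)
          rwa [map_sub, heq] at this
        rw [hz m g] at h1
        rw [map_sub]
        have h2 : M.ρ g (r m.1) - M.ρ g (j t) = (M.ρ g (r m.1) - r m.1) - (M.ρ g (j t) - j t)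
            + (r m.1 - j t) := by abel
        rw [h2, h1, sub_self, zero_add]
      · show p • (r m.1 - j t) = m.1
        rw [smul_sub, hr, (hker (j t)).2 ⟨t, rfl⟩, sub_zero]
    · rintro ⟨m', rfl⟩
      have hy : IsCoc j m'.1 (0 : G → T) := fun g => by
        rw [Pi.zero_apply, map_zero, m'.2 g, sub_self]
      rw [key (p • m') _ _ hy rfl, ← map_zero (cls1 𝒰 T)]
      rfl
  · show HM 𝒰 E 1 (cls1 𝒰 T ⟨z m, hZ (hz m)⟩) = cls1 𝒰 T ⟨z _, hZ (hz _)⟩
    have hy : IsCoc j (E' (r m.1)) (fun g => E.hom (z m g)) := fun g => by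
      rw [hEj, hz m g, map_sub, hE']
    rw [key ⟨E' m.1, fun g => by rw [← hE', m.2 g]⟩ _ _ hy (by rw [← map_nsmul, hr])]
    exact mapH_cls1 (MonoidHom.id G) 𝒰.isCont_id E.hom.toLinearMap
      (fun g m => Rep.hom_comm_apply E g m) ⟨z m, hZ (hz m)⟩

end Fermat.Agent.TW56.Loc

end
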