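/-
TEAM TW56 -> S56, block LEC, task LEC-K2 (helper72): `# e H¹(G, Map(Γ, μ_p)) ≥ # e(Lˣ/p)`.
`stmt_kumTw : Stmt_kumNat → Stmt_kumTw`.
-/
import Fermat.Agent.TW56.Loc.LecInterface
import Fermat.Agent.CFT.Top.ToolShDisc

set_option autoImplicit false

noncomputable section

namespace Fermat.Agent.TW56.Loc

open Fermat.Agent.CFT Fermat.Agent.CFT.Top Fermat.Agent.CFT.Pos Fermat.Agent.CFT.Local Module
  CategoryTheory ExtCitation

attribute [local instance] Units.mulDistribMulActionRight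
attribute [local instance] quotAct
attribute [local instance] addAct

namespace KumTw

/-- the counting argument. -/
lemma card_le {X H : Type} [AddCommGroup X] [AddCommGroup H] (φ : X →+ H) (C : AddSubgroup X)
    (hC : ∀ x, φ x = 0 ↔ x ∈ C) (E : X →+ X) (R : AddSubgroup H) [Finite R]
    (hR : ∀ x, φ (E x) ∈ R) :
    C.relIndex (C ⊔ (⊤ : AddSubgroup X).map E) ≤ Nat.card R := by
  have hk : C = φ.ker := by
    ext x
    rw [AddMonoidHom.mem_ker, hC]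
  rw [hk, AddSubgroup.relIndex_ker]
  have hle : (φ.ker ⊔ (⊤ : AddSubgroup X).map E).map φ ≤ R := by
    rw [AddSubgroup.map_le_iff_le_comap, sup_le_iff]
    constructor
    · intro x hx
      rw [AddSubgroup.mem_comap, AddMonoidHom.mem_ker.1 hx]
      exact R.zero_mem
    · rintro _ ⟨x, -, rfl⟩
      exact hR x
  exact Nat.card_le_card_of_injective (AddSubgroup.inclusion hle)
    (AddSubgroup.inclusion_injective hle)

section

variable {𝒢 Ω : Type} [Group 𝒢] [Field Ω] [MulSemiringAction 𝒢 Ω] (W : Subgroup 𝒢) [W.Normal]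

/-- the inclusion `(Ω^W)ˣ → Ωˣ`. -/
def incl : (FixedPoints.subfield W Ω)ˣ →* Ωˣ := Units.map (FixedPoints.subfield W Ω).subtype.toMonoidHom

omit [W.Normal] in
lemma incl_val (x : (FixedPoints.subfield W Ω)ˣ) : ((incl W x : Ωˣ) : Ω) = ((x : FixedPoints.subfield W Ω) : Ω) := rfl

omit [W.Normal] in
lemma incl_injective : Function.Injective (incl (Ω := Ω) W) := by
  intro x y h
  apply Units.ext
  apply Subtype.ext
  exact congrArg (fun u : Ωˣ => (u : Ω)) h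

lemma incl_smul (g : 𝒢) (x : (FixedPoints.subfield W Ω)ˣ) :
    incl W ((g : 𝒢 ⧸ W) • x) = g • incl W x := by
  apply Units.ext
  rfl

/-- `x ↦ (c ↦ c x)`. -/
def iotaFun : Additive (FixedPoints.subfield W Ω)ˣ →+ (𝒢 ⧸ W → unitsRep 𝒢 Ω) where
  toFun x c := (Additive.ofMul (incl W (c • Additive.toMul x)) : Additive Ωˣ)
  map_zero' := by
    funext c
    show (Additive.ofMul (incl W (c • Additive.toMul (0 : Additive (FixedPoints.subfield W Ω)ˣ))) :
      Additive Ωˣ) = 0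
    simp
  map_add' x y := by
    funext c
    show (Additive.ofMul (incl W (c • Additive.toMul (x + y))) : Additive Ωˣ) =
      Additive.ofMul (incl W (c • Additive.toMul x)) + Additive.ofMul (incl W (c • Additive.toMul y))
    simp [smul_mul']

lemma iotaFun_apply (x : Additive (FixedPoints.subfield W Ω)ˣ) (c : 𝒢 ⧸ W) :
    iotaFun W x c = (Additive.ofMul (incl W (c • Additive.toMul x)) : Additive Ωˣ) := rfl

lemma iotaFun_inv (x : Additive (FixedPoints.subfield W Ω)ˣ) (g : 𝒢) :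
    (mapRep (𝒢 ⧸ W) (unitsRep 𝒢 Ω)).ρ g (iotaFun W x) = iotaFun W x := by
  funext c
  induction c using QuotientGroup.induction_on with
  | H h =>
    show Additive.ofMul (g • incl W (((g⁻¹ * h : 𝒢) : 𝒢 ⧸ W) • Additive.toMul x)) = _
    rw [iotaFun_apply, incl_smul, incl_smul, smul_smul, mul_inv_cancel_left]

/-- `ι : Lˣ → M^𝒢`. -/
def iota : Additive (FixedPoints.subfield W Ω)ˣ →+ ↥(invAdd (mapRep (𝒢 ⧸ W) (unitsRep 𝒢 Ω))) :=
  (iotaFun W).codRestrict _ fun x g => iotaFun_inv W x g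

lemma iota_val (x : Additive (FixedPoints.subfield W Ω)ˣ) : (iota W x).1 = iotaFun W x := rfl

lemma one_fixed (m : ↥(invAdd (mapRep (𝒢 ⧸ W) (unitsRep 𝒢 Ω)))) (w : 𝒢) (hw : w ∈ W) :
    w • Additive.toMul ((show 𝒢 ⧸ W → Additive Ωˣ from m.1) 1) =
      Additive.toMul ((show 𝒢 ⧸ W → Additive Ωˣ from m.1) 1) := by
  have h1 := congrFun (m.2 w) 1
  have h2 : w⁻¹ • (1 : 𝒢 ⧸ W) = 1 := by
    show ((w⁻¹ * 1 : 𝒢) : 𝒢 ⧸ W) = ((1 : 𝒢) : 𝒢 ⧸ W)
    rw [QuotientGroup.eq]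
    simpa using hw
  rw [mapRep_ρ_apply, h2] at h1
  exact congrArg Additive.toMul h1

lemma iota_div (p : ℕ) (x : Additive (FixedPoints.subfield W Ω)ˣ) :
    (∃ m' : ↥(invAdd (mapRep (𝒢 ⧸ W) (unitsRep 𝒢 Ω))), p • m' = iota W x) ↔
      x ∈ pS p (⊤ : AddSubgroup (Additive (FixedPoints.subfield W Ω)ˣ)) := by
  constructor
  · rintro ⟨m', hm'⟩
    set y : Ωˣ := Additive.toMul ((show 𝒢 ⧸ W → Additive Ωˣ from m'.1) 1) with hy
    have hfix : ∀ w : W, w • (y : Ω) = y := fun w =>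
      congrArg (fun u : Ωˣ => (u : Ω)) (one_fixed W m' w.1 w.2)
    let y0 : FixedPoints.subfield W Ω := ⟨(y : Ω), hfix⟩
    have hy0 : y0 ≠ 0 := fun h => y.ne_zero (congrArg Subtype.val h)
    have hi : incl W (Units.mk0 y0 hy0) = y := Units.ext rfl
    refine ⟨Additive.ofMul (Units.mk0 y0 hy0), trivial, ?_⟩
    have h1 : (p • m').1 = iotaFun W x := by rw [hm', iota_val]
    have h2 := congrFun h1 1
    rw [iotaFun_apply, one_smul] at h2
    have h3 : y ^ p = incl W (Additive.toMul x) := congrArg Additive.toMul h2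
    rw [← hi, ← map_pow] at h3
    exact congrArg Additive.ofMul (incl_injective W h3)
  · rintro ⟨x', -, rfl⟩
    exact ⟨iota W x', (map_nsmul (iota W) p x').symm⟩

lemma iota_opZ {p : ℕ} [W.FiniteIndex] (a : 𝒢 ⧸ W → ZMod p)
    (x : Additive (FixedPoints.subfield W Ω)ˣ) :
    rtLin W (unitsRep 𝒢 Ω) (fun γ => ((a γ).val : ℤ)) (iotaFun W x) = iotaFun W (opZ a x) := by
  funext c
  rw [rtLin_apply, opZ_apply]
  have h := map_finsum ((Pi.evalAddMonoidHom (fun _ : 𝒢 ⧸ W => unitsRep 𝒢 Ω) c).comp (iotaFun W))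
    (f := fun γ : 𝒢 ⧸ W => (a γ).val • γ • x) (Set.toFinite _)
  refine Eq.trans ?_ h.symm
  refine finsum_congr fun γ => ?_
  rw [Nat.cast_smul_eq_nsmul]
  show _ = iotaFun W ((a γ).val • γ • x) c
  rw [map_nsmul]
  show _ = (a γ).val • iotaFun W (γ • x) c
  congr 1
  rw [iotaFun_apply, iotaFun_apply, mul_smul]
  rfl

/-- `j = e ∘ -`. -/
def jHom {p : ℕ} (N : Rep.{0} (ZMod p) 𝒢) (e : N →+ Additive Ωˣ) :
    (mapRep (𝒢 ⧸ W) N) →+ (mapRep (𝒢 ⧸ W) (unitsRep 𝒢 Ω)) where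
  toFun F := fun c => e ((show 𝒢 ⧸ W → N from F) c)
  map_zero' := by
    funext c
    exact map_zero e
  map_add' F F' := by
    funext c
    exact map_add e _ _

omit [W.Normal] in
lemma jHom_apply {p : ℕ} (N : Rep.{0} (ZMod p) 𝒢) (e : N →+ Additive Ωˣ) (F : 𝒢 ⧸ W → N)
    (c : 𝒢 ⧸ W) : jHom W N e F c = e (F c) := rfl

omit [W.Normal] in
lemma e_smul {p : ℕ} [NeZero p] (N : Rep.{0} (ZMod p) 𝒢) (e : N →+ Additive Ωˣ) (t : ZMod p)
    (n : N) : e (t • n) = ((t.val : ℤ) • (show unitsRep 𝒢 Ω from e n) : unitsRep 𝒢 Ω) := by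
  refine Eq.trans ?_ (Nat.cast_smul_eq_nsmul ℤ t.val (show unitsRep 𝒢 Ω from e n)).symm
  conv_lhs => rw [← ZMod.natCast_zmod_val t, Nat.cast_smul_eq_nsmul, map_nsmul]
  rfl

end

end KumTw

open KumTw in
theorem stmt_kumTw (h : Stmt_kumNat) : Stmt_kumTw := by
  intro 𝒢 Ω _ _ _ 𝒰 hT p _ hp N e he W _ _ hW a hfin
  obtain ⟨he1, he2, he3⟩ := he
  have hpp : p.Prime := Fact.out
  have hdisc0 : IsDisc 𝒰 (unitsRep 𝒢 Ω) := by
    intro m
    obtain ⟨U, hU, hfix⟩ := hT.disc ((Additive.toMul (m : Additive Ωˣ) : Ωˣ) : Ω)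
    refine ⟨U, hU, fun u hu => ?_⟩
    have : u • (Additive.toMul (m : Additive Ωˣ) : Ωˣ) = Additive.toMul (m : Additive Ωˣ) :=
      Units.ext (hfix u hu)
    exact congrArg Additive.ofMul this
  have hsurj0 : ∀ m : unitsRep 𝒢 Ω, ∃ m' : unitsRep 𝒢 Ω, p • m' = m := by
    intro m
    have := hT.closed
    obtain ⟨w, hw⟩ := IsAlgClosed.exists_pow_nat_eq
      ((Additive.toMul (m : Additive Ωˣ) : Ωˣ) : Ω) hpp.pos
    have hw0 : w ≠ 0 := by
      rintro rfl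
      rw [zero_pow hpp.ne_zero] at hw
      exact (Additive.toMul (m : Additive Ωˣ) : Ωˣ).ne_zero hw.symm
    refine ⟨Additive.ofMul (Units.mk0 w hw0), ?_⟩
    have : (Units.mk0 w hw0) ^ p = Additive.toMul (m : Additive Ωˣ) := Units.ext hw
    exact congrArg Additive.ofMul this
  have htors0 : ∀ m : unitsRep 𝒢 Ω, p • m = 0 ↔ ∃ t, e t = m := by
    intro m
    constructor
    · intro hm
      exact he3 (Additive.toMul (m : Additive Ωˣ)) (congrArg Additive.toMul hm)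
    · rintro ⟨t, rfl⟩
      have h0 : p • t = 0 := by
        rw [← Nat.cast_smul_eq_nsmul (ZMod p), ZMod.natCast_self, zero_smul]
      have := congrArg e h0
      rw [map_nsmul, map_zero] at this
      exact this
  have hdisc : IsDisc 𝒰 (mapRep (𝒢 ⧸ W) (unitsRep 𝒢 Ω)) :=
    toolShDisc_mapRep hdisc0 _ (toolShDisc_stab 𝒰 W hW)
  have hsurj : ∀ m : mapRep (𝒢 ⧸ W) (unitsRep 𝒢 Ω),
      ∃ m' : mapRep (𝒢 ⧸ W) (unitsRep 𝒢 Ω), p • m' = m := by
    intro m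
    choose f hf using fun c => hsurj0 ((show 𝒢 ⧸ W → unitsRep 𝒢 Ω from m) c)
    exact ⟨f, funext hf⟩
  have hinj : Function.Injective (jHom W N e) := by
    intro F F' hFF
    funext c
    exact he1 (congrFun hFF c)
  have heq : ∀ (g : 𝒢) (t : mapRep (𝒢 ⧸ W) N),
      jHom W N e ((mapRep (𝒢 ⧸ W) N).ρ g t) =
        (mapRep (𝒢 ⧸ W) (unitsRep 𝒢 Ω)).ρ g (jHom W N e t) := by
    intro g t
    funext c
    exact he2 g _
  have htors : ∀ m : mapRep (𝒢 ⧸ W) (unitsRep 𝒢 Ω), p • m = 0 ↔ ∃ t, jHom W N e t = m := by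
    intro m
    constructor
    · intro hm
      choose f hf using fun c => (htors0 ((show 𝒢 ⧸ W → unitsRep 𝒢 Ω from m) c)).1 (congrFun hm c)
      exact ⟨f, funext hf⟩
    · rintro ⟨t, rfl⟩
      funext c
      exact (htors0 _).2 ⟨_, rfl⟩
  obtain ⟨κ, hκ1, hκ2⟩ := h p 𝒢 𝒰 (mapRep (𝒢 ⧸ W) (unitsRep 𝒢 Ω)) (mapRep (𝒢 ⧸ W) N)
    (jHom W N e) hdisc hsurj hinj heq htors
  have hjE : ∀ t : mapRep (𝒢 ⧸ W) N, jHom W N e ((rtOp W N a).hom t) =
      (rtLin W (unitsRep 𝒢 Ω) (fun γ => ((a γ).val : ℤ))).toAddMonoidHom (jHom W N e t) := by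
    intro t
    funext c
    show e (∑ᶠ γ : 𝒢 ⧸ W, a γ • (show 𝒢 ⧸ W → N from t) (c * γ)) =
      ∑ᶠ γ : 𝒢 ⧸ W, ((a γ).val : ℤ) • (e ((show 𝒢 ⧸ W → N from t) (c * γ)) : unitsRep 𝒢 Ω)
    rw [map_finsum e (Set.toFinite _)]
    refine finsum_congr fun γ => ?_
    exact e_smul N e (a γ) _
  have key := hκ2 (rtOp W N a) (rtLin W (unitsRep 𝒢 Ω) (fun γ => ((a γ).val : ℤ))).toAddMonoidHom
    (fun g m => rtLin_comm W (unitsRep 𝒢 Ω) _ g m) hjE
  have hF : Finite (Hlc 𝒰 (mapRep (𝒢 ⧸ W) N) 1) := Module.finite_of_finite (ZMod p)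
  have hF' : Finite (LinearMap.range (HM 𝒰 (rtOp W N a) 1)).toAddSubgroup :=
    Subtype.finite
  refine card_le (κ.comp (iota W)) _ (fun x => ?_) (opZ a)
    (LinearMap.range (HM 𝒰 (rtOp W N a) 1)).toAddSubgroup (fun x => ?_)
  · rw [AddMonoidHom.comp_apply, hκ1, iota_div]
  · refine ⟨κ (iota W x), ?_⟩
    rw [key, AddMonoidHom.comp_apply]
    congr 1
    exact Subtype.ext (iota_opZ W a x)

end Fermat.Agent.TW56.Loc

end
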