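/-
TEAM TW56 -> S56, block LEC, task LEC-K13 (helper99): the concrete context for `Gal(ℚ̄_q/ℚ_q)`.
-/
import Fermat.Agent.TW56.Loc.LecInterface
import Fermat.Agent.CFT.Local.Final
import Fermat.Agent.CFT.Top.ToolAll
import Fermat.Agent.CFT.Top.CycloTriv

set_option autoImplicit false

noncomputable section

namespace Fermat.Agent.TW56.Loc

open Fermat.Agent.CFT Fermat.Agent.CFT.Top Fermat.Agent.CFT.Pos Fermat.Agent.CFT.Local Module
  CategoryTheory ExtCitation

attribute [local instance] Units.mulDistribMulActionRight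
attribute [local instance] quotAct
attribute [local instance] addAct

namespace LecCtxFile

theorem emb (q p : ℕ) [Fact q.Prime] [Fact p.Prime] :
    ∃ e : (Rep.res (localGaloisToGlobal q) (muRep (ZMod p) (cycloChar p)) :
        Rep.{0} (ZMod p) (Gq q)) →+ Additive (PadicAlgCl q)ˣ,
      IsMuEmb (Rep.res (localGaloisToGlobal q) (muRep (ZMod p) (cycloChar p))) e := by
  have hp : p.Prime := Fact.out
  have : NeZero p := ⟨hp.ne_zero⟩
  have : NeZero ((p : ℕ) : AlgebraicClosure ℚ) := ⟨Nat.cast_ne_zero.mpr hp.ne_zero⟩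
  obtain ⟨ζ0, hζ0⟩ := HasEnoughRootsOfUnity.exists_primitiveRoot (AlgebraicClosure ℚ) p
  have hζ1 : IsPrimitiveRoot (padicEmbedding q ζ0) p :=
    hζ0.map_of_injective (padicEmbedding q).toRingHom.injective
  let ζ : (PadicAlgCl q)ˣ := Units.mk0 (padicEmbedding q ζ0) (hζ1.ne_zero hp.ne_zero)
  have hζ : IsPrimitiveRoot ζ p := IsPrimitiveRoot.coe_units_iff.mp hζ1
  refine ⟨LN3_e p ζ hζ.pow_eq_one, LN3_e_injective p ζ hζ, ?_, LN3_e_surjective p ζ hζ⟩
  intro g n
  set c : (ZMod p)ˣ := cycloChar p (localGaloisToGlobal q (g : Gq q)) with hc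
  have hρ : (Rep.res (localGaloisToGlobal q)
      (muRep (ZMod p) (cycloChar p))).ρ g n = (c : ZMod p) * (n : ZMod p) := rfl
  have hgζ : g • ζ = ζ ^ (c : ZMod p).val := by
    apply Units.ext
    change (g : Gq q) (padicEmbedding q ζ0) = _
    rw [← padicEmbedding_localGaloisToGlobal, apply_eq_pow_cycloChar p _ hζ0.pow_eq_one,
      map_pow, Units.val_pow_eq_pow_val]
    rfl
  rw [hρ]
  change Additive.ofMul (ζ ^ ((c : ZMod p) * (n : ZMod p)).val)
    = Additive.ofMul (g • (ζ ^ (n : ZMod p).val))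
  rw [smul_pow', hgζ, ← pow_mul, ZMod.val_mul, ← pow_eq_pow_mod _ hζ.pow_eq_one]

theorem χtriv (q p : ℕ) [Fact q.Prime] [Fact p.Prime] :
    ∃ U ∈ (levq q).S, ∀ u ∈ U, ((cycloChar p).comp (localGaloisToGlobal q)) u = 1 := by
  refine ⟨(cycloChar p).ker.comap (localGaloisToGlobal q),
    ⟨(cycloChar p).ker, ⟨inferInstance, Fermat.Agent.CFT.cycloField p, inferInstance, ?_⟩, rfl⟩,
    fun u hu => hu⟩
  intro s hs
  exact (Fermat.Agent.CFT.cycloChar_eq_one_iff_mem_fixingSubgroup p s).mpr hs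

theorem num (q p : ℕ) [Fact q.Prime] [Fact p.Prime] (H : Subgroup (Gq q))
    (hopen : (levq q).IsOpen H)
    (hχ : ∀ h ∈ H, ((cycloChar p).comp (localGaloisToGlobal q)) h = 1) :
    Module.Finite (ZMod p) (Hlc (levq q) (permRep (ZMod p) H) 1) ∧
    finrank (ZMod p) (Hlc (levq q) (permRep (ZMod p) H) 1)
      = 2 + (if q = p then 1 else 0) * H.index ∧
    Module.Finite (ZMod p) (Hlc (levq q) (permRep (ZMod p) H) 2) ∧
    finrank (ZMod p) (Hlc (levq q) (permRep (ZMod p) H) 2) = 1 := by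
  obtain ⟨f1, r1, f2, r2⟩ := final_LN12 q p H hopen
    (fun g hg z hz => QLN_fix q p g (hχ g hg) z hz)
  obtain ⟨e1⟩ := shapiroLc_of_tool toolAll_shapiroLc p (Gq q) (levq q) H hopen 1
  obtain ⟨e2⟩ := shapiroLc_of_tool toolAll_shapiroLc p (Gq q) (levq q) H hopen 2
  refine ⟨Module.Finite.equiv e1.symm, ?_, Module.Finite.equiv e2.symm, ?_⟩
  · refine (LinearEquiv.finrank_eq e1).trans (r1.trans ?_)
    split_ifs
    · rw [one_mul]
    · rw [zero_mul]
  · exact (LinearEquiv.finrank_eq e2).trans r2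

theorem res (q p : ℕ) [Fact q.Prime] [Fact p.Prime] :
    ∃ (ϖ : PadicAlgCl q) (k : ℕ), IsUnifFix (⊤ : Subgroup (Gq q)) ϖ ∧
      ‖(p : PadicAlgCl q)‖ = ‖ϖ‖ ^ k ∧
      resCard (FixedPoints.subfield (Gq q) (PadicAlgCl q)) ^ k = p ^ (if q = p then 1 else 0) := by
  have hp : p.Prime := Fact.out
  have hq : q.Prime := Fact.out
  refine ⟨(q : PadicAlgCl q), if q = p then 1 else 0, LN_isUnifFix_q q, ?_, ?_⟩
  · split_ifs with hqp
    · rw [pow_one, ← hqp]
    · rw [pow_zero, LN_norm_natCast, Padic.norm_natCast_eq_one_iff]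
      exact (Nat.coprime_primes hq hp).2 hqp
  · split_ifs with hqp
    · rw [pow_one, pow_one,
        LN_resCard q reps (all_towerBase (Gq q) (PadicAlgCl q) _ (all_padicTower q)).1, hqp]
    · rw [pow_zero, pow_zero]

end LecCtxFile

theorem stmt_lecCtx : Stmt_lecCtx := by
  intro q p _ _
  exact ⟨all_padicTower q, LN_p_ne_zero q p, ⟨Module.finrank_self (ZMod p), fun g m => rfl⟩,
    LecCtxFile.emb q p, LecCtxFile.χtriv q p, LecCtxFile.num q p, LecCtxFile.res q p⟩

end Fermat.Agent.TW56.Loc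

end
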