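/-
TEAM TW56 -> S56, block LEC, package C1 (architect helper61): balls, `# e(B_r / p B_r) = (# O_K/p)^(rk a)`.
-/
import Fermat.Agent.TW56.Loc.LecInterface
import Fermat.Agent.CFT.Local.All

set_option autoImplicit false

noncomputable section

namespace Fermat.Agent.TW56.Loc

open Fermat.Agent.CFT Fermat.Agent.CFT.Top Fermat.Agent.CFT.Pos Fermat.Agent.CFT.Local Module
  CategoryTheory ExtCitation

attribute [local instance] Units.mulDistribMulActionRight
attribute [local instance] quotAct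
attribute [local instance] addAct

namespace EBall

section Gen

variable {Γ : Type} [Group Γ] [Finite Γ] {X : Type} [AddCommGroup X] [DistribMulAction Γ X]

omit [Finite Γ] in
lemma stab_pS (p : ℕ) {A : AddSubgroup X} (hA : Stab Γ A) : Stab Γ (pS p A) := by
  rintro γ _ ⟨y, hy, rfl⟩
  refine ⟨γ • y, hA γ y hy, ?_⟩
  simp only [nsmulAddMonoidHom_apply]
  exact (smul_comm γ p y).symm

omit [Group Γ] [Finite Γ] [DistribMulAction Γ X] in
lemma pS_le (p : ℕ) (A : AddSubgroup X) : pS p A ≤ A := by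
  rintro _ ⟨y, hy, rfl⟩
  exact A.nsmul_mem hy p

omit [Group Γ] [Finite Γ] [DistribMulAction Γ X] in
lemma pS_mono (p : ℕ) {A B : AddSubgroup X} (h : A ≤ B) : pS p A ≤ pS p B :=
  AddSubgroup.map_mono h

end Gen

section Ball

variable {L : Type} [NormedField L]

lemma pS_ballA (u : IsUltrametricDist L) (p : ℕ) (hp : (p : L) ≠ 0) (s : NNReal) :
    pS p (ballA u s) = ballA u (‖(p : L)‖₊ * s) := by
  ext x
  constructor
  · rintro ⟨y, hy, rfl⟩
    rw [mem_ballA]
    simp only [nsmulAddMonoidHom_apply]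
    rw [nsmul_eq_mul, norm_mul]
    push_cast
    exact mul_le_mul_of_nonneg_left hy (norm_nonneg _)
  · intro hx
    rw [mem_ballA] at hx
    push_cast at hx
    refine ⟨(p : L)⁻¹ * x, ?_, ?_⟩
    · change ‖(p : L)⁻¹ * x‖ ≤ s
      rw [norm_mul, norm_inv]
      have h0 : 0 < ‖(p : L)‖ := norm_pos_iff.2 hp
      rw [inv_mul_le_iff₀ h0]
      exact hx
    · simp only [nsmulAddMonoidHom_apply]
      rw [nsmul_eq_mul, mul_inv_cancel_left₀ hp]

lemma ballA_mono (u : IsUltrametricDist L) {s r : NNReal} (h : s ≤ r) : ballA u s ≤ ballA u r :=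
  fun x hx => le_trans ((mem_ballA u s x).1 hx) (by exact_mod_cast h)

lemma coe_ballA (u : IsUltrametricDist L) (r : NNReal) :
    ((ballA u r : AddSubgroup L) : Set L) = Metric.closedBall 0 r := by
  ext x
  simp [mem_ballA]

lemma relIndex_ballA_ne_zero (u : IsUltrametricDist L) [ProperSpace L] (s r : NNReal)
    (hs : 0 < s) : (ballA u s).relIndex (ballA u r) ≠ 0 := by
  have : CompactSpace ↥(ballA u r) := isCompact_iff_compactSpace.1 (by
    rw [coe_ballA]
    exact isCompact_closedBall 0 _)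
  have hopen : IsOpen (((ballA u s).addSubgroupOf (ballA u r) : AddSubgroup ↥(ballA u r)) :
      Set ↥(ballA u r)) := by
    have h1 : IsOpen ((ballA u s : AddSubgroup L) : Set L) := by
      rw [coe_ballA]
      exact IsUltrametricDist.isOpen_closedBall 0 (by exact_mod_cast hs.ne')
    exact h1.preimage continuous_subtype_val
  have := AddSubgroup.quotient_finite_of_isOpen _ hopen
  exact AddSubgroup.index_ne_zero_of_finite

lemma relIndex_ne_zero_of_ball_le (u : IsUltrametricDist L) [ProperSpace L] (s r : NNReal)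
    (hs : 0 < s) (A : AddSubgroup L) (h : ballA u s ≤ A) : A.relIndex (ballA u r) ≠ 0 := by
  intro h0
  have := AddSubgroup.relIndex_dvd_of_le_left (ballA u r) h
  rw [h0, zero_dvd_iff] at this
  exact relIndex_ballA_ne_zero u s r hs this

end Ball

section Lat

variable {Γ L : Type} [Group Γ] [Finite Γ] [NormedField L] [MulSemiringAction Γ L]

omit [Finite Γ] in
lemma nbLat_le (u : IsUltrametricDist L) (hiso : ∀ (g : Γ) (x : L), ‖g • x‖ = ‖x‖) (θ : L)
    (hθ : ‖θ‖ ≤ 1) : nbLat Γ θ ≤ ballA u 1 := by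
  refine (AddSubgroup.closure_le _).2 ?_
  rintro _ ⟨c, g, -, hc, rfl⟩
  change ‖c * g • θ‖ ≤ ((1 : NNReal) : ℝ)
  rw [norm_mul, hiso]
  push_cast
  exact mul_le_one₀ hc (norm_nonneg _) hθ

omit [Finite Γ] in
lemma stab_nbLat (θ : L) : Stab Γ (nbLat Γ θ) := by
  intro γ x hx
  induction hx using AddSubgroup.closure_induction with
  | mem x hx =>
    obtain ⟨c, g, hc, hc1, rfl⟩ := hx
    refine AddSubgroup.subset_closure ⟨c, γ * g, hc, hc1, ?_⟩
    rw [smul_mul', hc, mul_smul]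
  | zero => rw [smul_zero]; exact zero_mem _
  | add x y _ _ hx hy => rw [smul_add]; exact add_mem hx hy
  | neg x _ hx => rw [smul_neg]; exact neg_mem hx

lemma ball_le_nbLat (u : IsUltrametricDist L) (θ : L) (c : ℝ) (hc : 0 < c)
    (h : ∀ x : L, ∃ a : Γ → L, (∀ g h : Γ, h • a g = a g) ∧ (∀ g, c * ‖a g‖ ≤ ‖x‖) ∧
        x = ∑ᶠ g : Γ, a g * g • θ) : ballA u c.toNNReal ≤ nbLat Γ θ := by
  intro x hx
  rw [mem_ballA, Real.coe_toNNReal _ hc.le] at hx
  obtain ⟨a, ha, hb, hxa⟩ := h x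
  cases nonempty_fintype Γ
  rw [hxa, finsum_eq_sum_of_fintype]
  refine sum_mem fun g _ => AddSubgroup.subset_closure ⟨a g, g, ha g, ?_, rfl⟩
  have h1 : c * ‖a g‖ ≤ c * 1 := by rw [mul_one]; exact (hb g).trans hx
  exact le_of_mul_le_mul_left h1 hc

/-- `t A`. -/
abbrev tS (t : L) (A : AddSubgroup L) : AddSubgroup L := A.map (AddMonoidHom.mulLeft t)

omit [Finite Γ] in
lemma stab_tS (t : L) (ht : ∀ γ : Γ, γ • t = t) {A : AddSubgroup L} (hA : Stab Γ A) :
    Stab Γ (tS t A) := by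
  rintro γ _ ⟨y, hy, rfl⟩
  refine ⟨γ • y, hA γ y hy, ?_⟩
  simp only [AddMonoidHom.coe_mulLeft]
  rw [smul_mul', ht]

omit [Group Γ] [Finite Γ] [MulSemiringAction Γ L] in
lemma tS_ballA (u : IsUltrametricDist L) (t : L) (ht : t ≠ 0) (s : NNReal) :
    tS t (ballA u s) = ballA u (‖t‖₊ * s) := by
  ext x
  constructor
  · rintro ⟨y, hy, rfl⟩
    rw [mem_ballA]
    simp only [AddMonoidHom.coe_mulLeft]
    rw [norm_mul]
    push_cast
    exact mul_le_mul_of_nonneg_left hy (norm_nonneg _)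
  · intro hx
    rw [mem_ballA] at hx
    push_cast at hx
    refine ⟨t⁻¹ * x, ?_, ?_⟩
    · change ‖t⁻¹ * x‖ ≤ s
      rw [norm_mul, norm_inv]
      have h0 : 0 < ‖t‖ := norm_pos_iff.2 ht
      rw [inv_mul_le_iff₀ h0]
      exact hx
    · simp only [AddMonoidHom.coe_mulLeft]
      rw [mul_inv_cancel_left₀ ht]

end Lat

end EBall

open EBall in
theorem stmt_eBall (h1 : Stmt_eLattice) (h2 : Stmt_eTransport) (h3 : Stmt_eNB) : Stmt_eBall := by
  intro Γ L _ _ _ _ hL p _ a ha ϖ k hϖ hpk r hr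
  have u := hL.loc.ultra
  have : ProperSpace L := Local.proper L hL.loc
  obtain ⟨θ, c, hc, hθ, hind, hspan⟩ := Local.all_lattice Γ L hL
  have hϖ0 : ϖ ≠ 0 := hϖ.1
  have hp0 : (p : L) ≠ 0 := by
    rw [← norm_pos_iff, hpk]
    exact pow_pos (norm_pos_iff.2 hϖ0) k
  have htf : ∀ x : L, p • x = 0 → x = 0 := by
    intro x hx
    rw [nsmul_eq_mul] at hx
    exact (mul_eq_zero.1 hx).resolve_left hp0
  -- the scaling factor
  obtain ⟨m, hm⟩ := exists_pow_lt_of_lt_one (show (0 : ℝ) < r from by exact_mod_cast hr) hϖ.2.1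
  set t : L := ϖ ^ m with ht
  have ht0 : t ≠ 0 := pow_ne_zero m hϖ0
  have htr : ‖t‖ ≤ r := by rw [ht, norm_pow]; exact hm.le
  have htfix : ∀ γ : Γ, γ • t = t := by
    intro γ
    rw [ht, smul_pow', hϖ.2.2.1 γ (Subgroup.mem_top γ)]
  set Λ := nbLat Γ θ with hΛ
  have hΛs : Stab Γ Λ := stab_nbLat θ
  have hΛ1 : Λ ≤ ballA u 1 := nbLat_le u hL.isom θ hθ
  have hΛc : ballA u c.toNNReal ≤ Λ := ball_le_nbLat u θ c hc hspan
  have hts : Stab Γ (tS t Λ) := stab_tS t htfix hΛs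
  have hbs : Stab Γ (ballA u r) := fun γ x hx => by
    rw [mem_ballA] at hx ⊢
    rw [hL.isom]
    exact hx
  have htle : tS t Λ ≤ ballA u r := by
    refine (AddSubgroup.map_mono hΛ1).trans ((tS_ballA u t ht0 1).le.trans ?_)
    rw [mul_one]
    exact ballA_mono u (by exact_mod_cast htr)
  have hfin : (pS p (tS t Λ)).relIndex (ballA u r) ≠ 0 := by
    refine relIndex_ne_zero_of_ball_le u (‖(p : L)‖₊ * (‖t‖₊ * c.toNNReal)) r ?_ _ ?_
    · refine mul_pos (nnnorm_pos.2 hp0) (mul_pos (nnnorm_pos.2 ht0) ?_)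
      exact Real.toNNReal_pos.2 hc
    · rw [← pS_ballA u p hp0, ← tS_ballA u t ht0]
      exact pS_mono p (AddSubgroup.map_mono hΛc)
  have e1 := h1 p Γ L a ha htf (ballA u r) (tS t Λ) hbs hts htle hfin
  have e2 : eCard a Λ (pS p Λ) = eCard a (tS t Λ) (pS p (tS t Λ)) := by
    refine h2 p Γ L L a Λ (pS p Λ) (tS t Λ) (pS p (tS t Λ)) (fun x => t * x) hΛs (stab_pS p hΛs) hts
      (stab_pS p hts) (pS_le p _) (pS_le p _) ?_ ?_ ?_ ?_ ?_
    · intro x hx
      exact ⟨x, hx, rfl⟩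
    · intro x _ y _
      have : t * (x + y) - t * x - t * y = 0 := by ring
      rw [this]
      exact zero_mem _
    · intro γ x _
      have : t * γ • x - γ • (t * x) = 0 := by rw [smul_mul', htfix, sub_self]
      rw [this]
      exact zero_mem _
    · intro x _
      constructor
      · rintro ⟨_, ⟨y, hy, rfl⟩, hyx⟩
        refine ⟨y, hy, ?_⟩
        simp only [nsmulAddMonoidHom_apply, AddMonoidHom.coe_mulLeft] at hyx ⊢
        rw [nsmul_eq_mul] at hyx ⊢
        apply mul_left_cancel₀ ht0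
        rw [← hyx]
        ring
      · rintro ⟨y, hy, rfl⟩
        refine ⟨t * y, ⟨y, hy, rfl⟩, ?_⟩
        simp only [nsmulAddMonoidHom_apply]
        rw [nsmul_eq_mul, nsmul_eq_mul]
        ring
    · rintro _ ⟨x, hx, rfl⟩
      refine ⟨x, hx, ?_⟩
      simp only [AddMonoidHom.coe_mulLeft, sub_self]
      exact zero_mem _
  have e3 := h3 Γ L hL p a ϖ k hϖ hpk θ hind
  rw [← pS_ballA u p hp0, ← e1, ← e2]
  exact e3

end Fermat.Agent.TW56.Loc

end
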