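import Fermat.Agent.TW56.Loc.LecInterface

/-!
# TW56 / Loc, task LEC-C4 : assembly of the equivariant index (`Stmt_eMain`)
-/

set_option autoImplicit false

noncomputable section

namespace Fermat.Agent.TW56.Loc

open Fermat.Agent.CFT Fermat.Agent.CFT.Top Fermat.Agent.CFT.Pos Fermat.Agent.CFT.Local Module
  CategoryTheory ExtCitation

attribute [local instance] Units.mulDistribMulActionRight
attribute [local instance] quotAct
attribute [local instance] addAct

theorem stmt_eMain (h1 : Stmt_eBall) (h2 : Stmt_eUnitsAdd) (h3 : Stmt_eUnits) : Stmt_eMain := by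
  intro Γ L _ _ _ _ hL p _ a ha ϖ k hϖ hk
  have hu : IsUltrametricDist L := hL.loc.ultra
  have hp0 : 0 < ‖(p : L)‖₊ := by
    have h0 : 0 < ‖(p : L)‖ := by
      rw [hk]
      exact pow_pos (norm_pos_iff.2 hϖ.1) k
    exact_mod_cast h0
  have hp1 : ‖(p : L)‖₊ ≤ 1 := by
    have := IsUltrametricDist.norm_natCast_le_one L p
    exact_mod_cast this
  have hr0 : 0 < ‖(p : L)‖₊ / 2 := half_pos hp0
  have hr1 : ‖(p : L)‖₊ / 2 < ‖(p : L)‖₊ := half_lt_self hp0
  rw [h3 Γ L hL p a ha _ hr0 hr1, h2 Γ L hL p a _ hr0 (hr1.trans_le hp1) hr1.le,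
    h1 Γ L hL p a ha ϖ k hϖ hk _ hr0]

end Fermat.Agent.TW56.Loc
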