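/-
TEAM TW56 -> S56, block LEC, package R2 : the normal basis lattice (`Stmt_eNB`).
-/
import Fermat.Agent.TW56.Loc.LecInterface
import Fermat.Agent.CFT.Local.Card
import Fermat.Agent.CFT.Local.FixedLoc

set_option autoImplicit false

noncomputable section

namespace Fermat.Agent.TW56.Loc

open Fermat.Agent.CFT Fermat.Agent.CFT.Top Fermat.Agent.CFT.Pos Fermat.Agent.CFT.Local Module
  CategoryTheory ExtCitation

attribute [local instance] Units.mulDistribMulActionRight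
attribute [local instance] quotAct
attribute [local instance] addAct

namespace ENB

section Abs

variable {p : ℕ} {Γ : Type} [Group Γ] [Finite Γ] {X : Type} [AddCommGroup X]
  [DistribMulAction Γ X]

/-- the operator `F ↦ (g ↦ ∑_γ a(γ) F(γ⁻¹ g))` on `Map(Γ, B)`. -/
def T (a : Γ → ZMod p) (B : Type) [AddCommGroup B] : (Γ → B) →+ (Γ → B) where
  toFun F g := ∑ᶠ γ : Γ, (a γ).val • F (γ⁻¹ * g)
  map_zero' := by funext g; simp
  map_add' F F' := by
    funext g
    simp only [Pi.add_apply, smul_add]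
    exact finsum_add_distrib (Set.toFinite _) (Set.toFinite _)

lemma T_apply (a : Γ → ZMod p) (B : Type) [AddCommGroup B] (F : Γ → B) (g : Γ) :
    T a B F g = ∑ᶠ γ : Γ, (a γ).val • F (γ⁻¹ * g) := rfl

lemma opZ_Φ {B : Type} [AddCommGroup B] (Φ : (Γ → B) →+ X)
    (hΦ : ∀ (γ : Γ) (c : Γ → B), γ • Φ c = Φ (fun g => c (γ⁻¹ * g))) (a : Γ → ZMod p)
    (c : Γ → B) : opZ a (Φ c) = Φ (T a B c) := by
  rw [opZ_apply]
  simp only [hΦ, ← map_nsmul]
  rw [← AddMonoidHom.map_finsum _ (Set.toFinite _)]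
  congr 1
  funext g
  cases nonempty_fintype Γ
  simp [finsum_eq_sum_of_fintype, T_apply, Finset.sum_apply]

theorem eCard_eq {B : Type} [AddCommGroup B] (Φ : (Γ → B) →+ X) (hinj : Function.Injective Φ)
    (hΦ : ∀ (γ : Γ) (c : Γ → B), γ • Φ c = Φ (fun g => c (γ⁻¹ * g))) (a : Γ → ZMod p)
    (Pk : AddSubgroup B) (h1 : ∀ b : B, p • b ∈ Pk) (h2 : ∀ b ∈ Pk, ∃ b' : B, p • b' = b) :
    eCard a Φ.range (pS p Φ.range) =
      Nat.card (Set.range fun (F : Γ → B ⧸ Pk) (g : Γ) => ∑ᶠ γ : Γ, (a γ).val • F (γ⁻¹ * g)) := by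
  let π : (Γ → B) →+ (Γ → B ⧸ Pk) := (QuotientAddGroup.mk' Pk).compLeft Γ
  have hπ : ∀ (c : Γ → B) (g : Γ), π c g = QuotientAddGroup.mk' Pk (c g) := fun _ _ => rfl
  have hπs : Function.Surjective π := by
    intro F
    choose c hc using fun g => QuotientAddGroup.mk'_surjective Pk (F g)
    exact ⟨c, funext hc⟩
  have e1 : pS p Φ.range = π.ker.map Φ := by
    ext x
    constructor
    · rintro ⟨_, ⟨c, rfl⟩, rfl⟩
      refine ⟨p • c, ?_, by simp⟩
      rw [SetLike.mem_coe, AddMonoidHom.mem_ker]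
      funext g
      exact (QuotientAddGroup.eq_zero_iff _).2 (h1 (c g))
    · rintro ⟨c, hc, rfl⟩
      have hc' : ∀ g, c g ∈ Pk := fun g => (QuotientAddGroup.eq_zero_iff _).1 (congrFun hc g)
      choose b hb using fun g => h2 (c g) (hc' g)
      refine ⟨Φ b, ⟨b, rfl⟩, ?_⟩
      show p • Φ b = Φ c
      rw [← map_nsmul]
      congr 1
      funext g
      exact hb g
  have e2 : Φ.range.map (opZ a) = (T a B).range.map Φ := by
    ext x
    constructor
    · rintro ⟨_, ⟨c, rfl⟩, rfl⟩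
      exact ⟨T a B c, ⟨c, rfl⟩, (opZ_Φ Φ hΦ a c).symm⟩
    · rintro ⟨_, ⟨c, rfl⟩, rfl⟩
      exact ⟨Φ c, ⟨c, rfl⟩, opZ_Φ Φ hΦ a c⟩
  unfold eCard
  rw [e1, e2, ← AddSubgroup.map_sup, AddSubgroup.relIndex_map_map_of_injective _ _ hinj,
    AddSubgroup.relIndex_sup_left, AddSubgroup.relIndex_ker]
  have hcomm : ∀ c : Γ → B, π (T a B c) = T a (B ⧸ Pk) (π c) := by
    intro c
    funext g
    rw [hπ, T_apply, T_apply, AddMonoidHom.map_finsum _ (Set.toFinite _)]
    refine finsum_congr fun γ => ?_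
    rw [map_nsmul, hπ]
  refine Nat.card_congr (Equiv.setCongr ?_)
  ext F
  constructor
  · rintro ⟨_, ⟨c, rfl⟩, rfl⟩
    exact ⟨π c, (hcomm c).symm⟩
  · rintro ⟨F', rfl⟩
    obtain ⟨c, rfl⟩ := hπs F'
    exact ⟨T a B c, ⟨c, rfl⟩, hcomm c⟩

end Abs

end ENB

theorem stmt_eNB (h : Stmt_eReg) : Stmt_eNB := by
  intro Γ L _ _ _ _ hact p _ a ϖ k hϖ hpk θ hind
  classical
  have := hact.loc.ultra
  have hlocK := fixedLoc Γ L hact
  have := hlocK.ultra
  cases nonempty_fintype Γ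
  simp only [finsum_eq_sum_of_fintype] at hind
  obtain ⟨hE0, hE1, hEfix, hEval⟩ := hϖ
  let ϖ' : FixedPoints.subfield Γ L := ⟨ϖ, fun g => hEfix g (Subgroup.mem_top g)⟩
  have hϖ'0 : ϖ' ≠ 0 := fun h => hE0 (congrArg Subtype.val h)
  have hϖ' : IsUnif ϖ' :=
    ⟨hϖ'0, hE1, fun x hx => hEval x (fun h => hx (Subtype.ext h)) (fun h _ => x.2 h)⟩
  let OK : AddSubgroup (FixedPoints.subfield Γ L) := cardCb 1
  have hOK : ∀ b : OK, ‖((b : FixedPoints.subfield Γ L) : L)‖ ≤ 1 := by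
    intro b
    have := b.2
    rw [card_mem_cb, norm_one] at this
    exact this
  let Φ : (Γ → OK) →+ L := cardΨ θ OK
  have hΦinj : Function.Injective Φ := by
    rw [injective_iff_map_eq_zero]
    intro c hc
    have := hind (fun g => ((c g : FixedPoints.subfield Γ L) : L)) (fun g h => (c g).1.2 h) hc
    funext g
    exact Subtype.ext (Subtype.ext (this g))
  have hΦ : ∀ (γ : Γ) (c : Γ → OK), γ • Φ c = Φ (fun g => c (γ⁻¹ * g)) := by
    intro γ c
    show γ • ∑ g, ((c g : FixedPoints.subfield Γ L) : L) * g • θ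
      = ∑ g, ((c (γ⁻¹ * g) : FixedPoints.subfield Γ L) : L) * g • θ
    rw [Finset.smul_sum]
    refine Fintype.sum_equiv (Equiv.mulLeft γ) _ _ fun g => ?_
    rw [smul_mul', (c g).1.2 γ, smul_smul, Equiv.coe_mulLeft, inv_mul_cancel_left]
  have hrange : nbLat Γ θ = Φ.range := by
    apply le_antisymm
    · refine (AddSubgroup.closure_le _).2 ?_
      rintro x ⟨c, g, hfix, hc, rfl⟩
      refine ⟨Pi.single g ⟨⟨c, hfix⟩, by rw [card_mem_cb, norm_one]; exact hc⟩, ?_⟩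
      show ∑ g', (((Pi.single g ⟨⟨c, hfix⟩, _⟩ : Γ → OK) g' : FixedPoints.subfield Γ L) : L)
        * g' • θ = c * g • θ
      rw [Finset.sum_eq_single g]
      · rw [Pi.single_eq_same]
      · intro g' _ hg'
        rw [Pi.single_eq_of_ne hg']
        simp
      · intro hg
        exact absurd (Finset.mem_univ g) hg
    · rintro _ ⟨c, rfl⟩
      exact AddSubgroup.sum_mem _ fun g _ =>
        AddSubgroup.subset_closure ⟨_, g, fun h => (c g).1.2 h, hOK (c g), rfl⟩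
  have hpK : ‖((p : ℕ) : FixedPoints.subfield Γ L)‖ = ‖ϖ' ^ k‖ := by
    rw [norm_pow]
    exact hpk
  have hp0 : ((p : ℕ) : FixedPoints.subfield Γ L) ≠ 0 := by
    rw [← norm_pos_iff, hpK]
    exact norm_pos_iff.2 (pow_ne_zero k hϖ'0)
  let Pk : AddSubgroup OK := (cardCb (ϖ' ^ k)).addSubgroupOf OK
  have h1 : ∀ b : OK, p • b ∈ Pk := by
    intro b
    rw [AddSubgroup.mem_addSubgroupOf, AddSubgroup.coe_nsmul, card_mem_cb, nsmul_eq_mul, norm_mul,
      hpK]
    exact mul_le_of_le_one_right (norm_nonneg _) (hOK b)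
  have h2 : ∀ b ∈ Pk, ∃ b' : OK, p • b' = b := by
    intro b hb
    rw [AddSubgroup.mem_addSubgroupOf, card_mem_cb, ← hpK] at hb
    refine ⟨⟨((p : ℕ) : FixedPoints.subfield Γ L)⁻¹ * b, ?_⟩, ?_⟩
    · rw [card_mem_cb, norm_one, norm_mul, norm_inv, inv_mul_le_iff₀ (norm_pos_iff.2 hp0), mul_one]
      exact hb
    · apply Subtype.ext
      rw [AddSubgroup.coe_nsmul, nsmul_eq_mul]
      exact mul_inv_cancel_left₀ hp0 _
  have hcardV : Nat.card (OK ⧸ Pk) = resCard (FixedPoints.subfield Γ L) ^ k :=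
    card_relIndex_pow hϖ' k
  have : Finite (OK ⧸ Pk) := Nat.finite_of_card_ne_zero (by
    rw [hcardV]
    exact pow_ne_zero _ (card_resCard_ne_zero hlocK))
  have hkill : ∀ v : OK ⧸ Pk, p • v = 0 := by
    intro v
    induction v using QuotientAddGroup.induction_on with
    | H b => exact (QuotientAddGroup.eq_zero_iff _).2 (h1 b)
  rw [hrange, ENB.eCard_eq Φ hΦinj hΦ a Pk h1 h2, h p Γ a (OK ⧸ Pk) hkill, hcardV]

end Fermat.Agent.TW56.Loc

end
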