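/-
TEAM TW56 -> S56, block LEC, R1 : `# e Map(Γ, V) = (# V)^(rk a)` (`Stmt_eReg`).
-/
import Fermat.Agent.TW56.Loc.LecInterface

set_option autoImplicit false

noncomputable section

namespace Fermat.Agent.TW56.Loc

open Fermat.Agent.CFT Fermat.Agent.CFT.Top Fermat.Agent.CFT.Pos Fermat.Agent.CFT.Local Module
  CategoryTheory ExtCitation

namespace EReg

/-- the transposition `Map(Γ, V) ≃ Map(Γ, 𝔽_p)^d`, composed with `g ↦ g⁻¹`. -/
def Phi {Γ V R : Type} [Group Γ] [AddCommGroup V] [AddCommGroup R] {d : ℕ} (φ : V ≃+ (Fin d → R)) :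
    (Γ → V) ≃ (Fin d → Γ → R) where
  toFun F := fun i c => φ (F c⁻¹) i
  invFun G := fun g => φ.symm (fun i => G i g⁻¹)
  left_inv F := by
    funext g
    simp
  right_inv G := by
    funext i c
    simp

theorem main (p : ℕ) [Fact p.Prime] (Γ : Type) [Group Γ] [Finite Γ] (a : Γ → ZMod p) (V : Type)
    [AddCommGroup V] [Finite V] [Module (ZMod p) V] :
    Nat.card (Set.range fun (F : Γ → V) (g : Γ) => ∑ᶠ γ : Γ, (a γ).val • F (γ⁻¹ * g)) =
      Nat.card V ^ rk a := by
  classical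
  cases nonempty_fintype Γ
  obtain ⟨d, hd⟩ : ∃ d : ℕ, d = finrank (ZMod p) V := ⟨_, rfl⟩
  let φ : V ≃+ (Fin d → ZMod p) :=
    ((Module.finBasis (ZMod p) V).reindex (finCongr hd.symm)).equivFun.toAddEquiv
  set T : (Γ → V) → (Γ → V) := fun (F : Γ → V) (g : Γ) => ∑ᶠ γ : Γ, (a γ).val • F (γ⁻¹ * g) with hT
  have key : ∀ F : Γ → V, Phi φ (T F) = Pi.map (fun _ : Fin d => regOp a) (Phi φ F) := by
    intro F
    funext i c
    show φ (∑ᶠ γ : Γ, (a γ).val • F (γ⁻¹ * c⁻¹)) i = ∑ᶠ γ : Γ, a γ * φ (F (c * γ)⁻¹) i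
    rw [finsum_eq_sum_of_fintype, finsum_eq_sum_of_fintype, map_sum, Finset.sum_apply]
    refine Finset.sum_congr rfl fun γ _ => ?_
    rw [map_nsmul, Pi.smul_apply, nsmul_eq_mul, ZMod.natCast_zmod_val, mul_inv_rev]
  have h1 : Phi φ '' Set.range T
      = Set.pi Set.univ fun _ : Fin d => Set.range (regOp a) := by
    rw [← Set.range_comp, ← Set.range_piMap]
    have : (Phi φ : (Γ → V) → _) ∘ T
        = Pi.map (fun _ : Fin d => (regOp a : (Γ → ZMod p) → (Γ → ZMod p))) ∘ Phi φ := by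
      funext F
      exact key F
    rw [this, (Phi φ).surjective.range_comp]
  have h2 : Nat.card (Set.range (regOp a)) = p ^ rk a := by
    have : Nat.card (LinearMap.range (regOp a)) = p ^ rk a := by
      rw [Module.natCard_eq_pow_finrank (K := ZMod p), Nat.card_zmod]
      rfl
    rw [← this]
    rfl
  have h3 : Nat.card V = p ^ d := by
    rw [Module.natCard_eq_pow_finrank (K := ZMod p), Nat.card_zmod, hd]
  rw [← Nat.card_image_of_injective (Phi φ).injective, h1,
    Nat.card_congr (Equiv.Set.univPi _), Nat.card_pi, Finset.prod_const, h2, h3, Finset.card_univ,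
    Fintype.card_fin, ← pow_mul, ← pow_mul, mul_comm]

end EReg

theorem stmt_eReg : Stmt_eReg := by
  intro p _ Γ _ _ a V _ _ hV
  let _ : Module (ZMod p) V := AddCommGroup.zmodModule hV
  exact EReg.main p Γ a V

end Fermat.Agent.TW56.Loc

end

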