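/-
TEAM TW56 -> S56, block LEC, task LEC-C2 (helper54): `U_r / U_{|p| r} ≅ B_r / B_{|p| r}`.
-/
import Fermat.Agent.TW56.Loc.LecInterface

set_option autoImplicit false

noncomputable section

namespace Fermat.Agent.TW56.Loc

open Fermat.Agent.CFT Fermat.Agent.CFT.Top Fermat.Agent.CFT.Pos Fermat.Agent.CFT.Local Module
  CategoryTheory ExtCitation

attribute [local instance] Units.mulDistribMulActionRight
attribute [local instance] quotAct
attribute [local instance] addAct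

namespace EUnitsAdd

variable {Γ L : Type} [Group Γ] [Finite Γ] [NormedField L] [MulSemiringAction Γ L]

omit [Finite Γ] in
lemma val_toMul_smul (γ : Γ) (u : Additive Lˣ) :
    ((Additive.toMul (γ • u) : Lˣ) : L) = γ • ((Additive.toMul u : Lˣ) : L) := rfl

lemma stab_UA (hL : LocAct Γ L) (s : NNReal) : Stab Γ (UA hL.loc.ultra s) := by
  intro γ u hu
  rw [mem_UA] at hu ⊢
  rw [val_toMul_smul]
  refine ⟨by rw [hL.isom]; exact hu.1, ?_⟩
  have e : γ • ((Additive.toMul u : Lˣ) : L) - 1 = γ • (((Additive.toMul u : Lˣ) : L) - 1) := by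
    rw [smul_sub, smul_one]
  rw [e, hL.isom]
  exact hu.2

lemma stab_ballA (hL : LocAct Γ L) (s : NNReal) : Stab Γ (ballA hL.loc.ultra s) := by
  intro γ x hx
  rw [mem_ballA] at hx ⊢
  rw [hL.isom]
  exact hx

lemma norm_one_of_sub (hu : IsUltrametricDist L) {x : L} (h : ‖x - 1‖ < 1) : ‖x‖ = 1 := by
  have h1 : ‖x - 1‖ ≠ ‖(1 : L)‖ := by rw [norm_one]; exact h.ne
  have h2 := IsUltrametricDist.norm_add_eq_max_of_norm_ne_norm h1
  rw [sub_add_cancel, norm_one, max_eq_right h.le] at h2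
  exact h2

end EUnitsAdd

open EUnitsAdd in
/-- C2. `U_r / U_{|p| r} ≅ B_r / B_{|p| r}` for `r ≤ |p|`, `r < 1`. -/
theorem stmt_eUnitsAdd (h : Stmt_eTransport) : Stmt_eUnitsAdd := by
  intro Γ L _ _ _ _ hL p _ a r hr0 hr1 hrp
  have hU : IsUltrametricDist L := hL.loc.ultra
  have hp1 : ‖(p : L)‖ ≤ 1 := IsUltrametricDist.norm_natCast_le_one L p
  have hr1' : (r : ℝ) < 1 := by exact_mod_cast hr1
  have hr0' : (0 : ℝ) < r := by exact_mod_cast hr0
  have hrp' : (r : ℝ) ≤ ‖(p : L)‖ := by exact_mod_cast hrp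
  have hle : ((‖(p : L)‖₊ * r : NNReal) : ℝ) ≤ r := by
    rw [NNReal.coe_mul, coe_nnnorm]
    exact mul_le_of_le_one_left hr0'.le hp1
  have hcoe : ((‖(p : L)‖₊ * r : NNReal) : ℝ) = ‖(p : L)‖ * r := by
    rw [NNReal.coe_mul, coe_nnnorm]
  refine h p Γ (Additive Lˣ) L a (UA hL.loc.ultra r) (UA hL.loc.ultra (‖(p : L)‖₊ * r))
    (ballA hL.loc.ultra r) (ballA hL.loc.ultra (‖(p : L)‖₊ * r))
    (fun u => ((Additive.toMul u : Lˣ) : L) - 1)
    (stab_UA hL _) (stab_UA hL _) (stab_ballA hL _) (stab_ballA hL _) ?_ ?_ ?_ ?_ ?_ ?_ ?_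
  · intro u hu
    rw [mem_UA] at hu ⊢
    exact ⟨hu.1, hu.2.trans hle⟩
  · intro x hx
    rw [mem_ballA] at hx ⊢
    exact hx.trans hle
  · intro u hu
    rw [mem_UA] at hu
    rw [mem_ballA]
    exact hu.2
  · intro u hu v hv
    rw [mem_UA] at hu hv
    rw [mem_ballA]
    have e : (((Additive.toMul (u + v) : Lˣ) : L) - 1) - (((Additive.toMul u : Lˣ) : L) - 1)
        - (((Additive.toMul v : Lˣ) : L) - 1)
        = (((Additive.toMul u : Lˣ) : L) - 1) * (((Additive.toMul v : Lˣ) : L) - 1) := by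
      rw [toMul_add, Units.val_mul]
      ring
    show ‖(((Additive.toMul (u + v) : Lˣ) : L) - 1) - (((Additive.toMul u : Lˣ) : L) - 1)
        - (((Additive.toMul v : Lˣ) : L) - 1)‖ ≤ _
    rw [e, norm_mul, hcoe]
    exact mul_le_mul (hu.2.trans hrp') hv.2 (norm_nonneg _) (norm_nonneg _)
  · intro γ u _
    have e : (((Additive.toMul (γ • u) : Lˣ) : L) - 1) - γ • (((Additive.toMul u : Lˣ) : L) - 1)
        = 0 := by
      rw [val_toMul_smul, smul_sub, smul_one, sub_self]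
    show (((Additive.toMul (γ • u) : Lˣ) : L) - 1) - γ • (((Additive.toMul u : Lˣ) : L) - 1) ∈ _
    rw [e]
    exact zero_mem _
  · intro u hu
    rw [mem_UA] at hu
    rw [mem_UA, mem_ballA]
    exact ⟨fun h' => ⟨hu.1, h'⟩, fun h' => h'.2⟩
  · intro y hy
    rw [mem_ballA] at hy
    have hn : ‖1 + y‖ = 1 := by
      apply norm_one_of_sub hU
      rw [add_sub_cancel_left]
      exact hy.trans_lt hr1'
    have hne : 1 + y ≠ 0 := by
      intro h0
      rw [h0, norm_zero] at hn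
      exact zero_ne_one hn
    refine ⟨Additive.ofMul (Units.mk0 (1 + y) hne), ?_, ?_⟩
    · rw [mem_UA]
      refine ⟨hn, ?_⟩
      show ‖(1 + y) - 1‖ ≤ _
      rw [add_sub_cancel_left]
      exact hy
    · show y - ((1 + y) - 1) ∈ _
      rw [add_sub_cancel_left, sub_self]
      exact zero_mem _

end Fermat.Agent.TW56.Loc

end
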