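/-
TEAM TW56 -> S56, block LEC, task LEC-C3 (helper85):
`# e(Lˣ/p) = # e μ_p(L) · # e 𝔽_p · # e(U_r/U_{|p| r})`.
-/
import Fermat.Agent.TW56.Loc.LecInterface
import Fermat.Agent.TW56.Loc.EUnitsAdd
import Fermat.Agent.CFT.Local.All

set_option autoImplicit false

noncomputable section

namespace Fermat.Agent.TW56.Loc

open Fermat.Agent.CFT Fermat.Agent.CFT.Top Fermat.Agent.CFT.Pos Fermat.Agent.CFT.Local Module
  CategoryTheory ExtCitation

attribute [local instance] Units.mulDistribMulActionRight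
attribute [local instance] quotAct
attribute [local instance] addAct

namespace EUnits

/-! ### group theory -/

theorem relIndex_eq_card_of {G : Type*} [AddGroup G] (H K : AddSubgroup G) {T : Type*} (φ : T → G)
    (hφ : ∀ t, φ t ∈ K) (hinj : ∀ t t', -(φ t) + φ t' ∈ H → t = t')
    (hsurj : ∀ x ∈ K, ∃ t, -(φ t) + x ∈ H) : H.relIndex K = Nat.card T := by
  unfold AddSubgroup.relIndex AddSubgroup.index
  symm
  refine Nat.card_congr (Equiv.ofBijective
    (fun t => ((⟨φ t, hφ t⟩ : K) : K ⧸ H.addSubgroupOf K)) ⟨?_, ?_⟩)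
  · intro t t' h
    apply hinj
    have := QuotientAddGroup.eq.1 h
    simpa [AddSubgroup.mem_addSubgroupOf] using this
  · intro x
    induction x using QuotientAddGroup.induction_on with
    | H x =>
      obtain ⟨t, ht⟩ := hsurj x.1 x.2
      refine ⟨t, ?_⟩
      apply QuotientAddGroup.eq.2
      simpa [AddSubgroup.mem_addSubgroupOf] using ht

section Abs

variable {p : ℕ} {Γ : Type} [Group Γ] {X : Type} [AddCommGroup X] [DistribMulAction Γ X]

lemma stab_sup {A A' : AddSubgroup X} (h : Stab Γ A) (h' : Stab Γ A') : Stab Γ (A ⊔ A') := by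
  intro γ x hx
  obtain ⟨y, hy, z, hz, rfl⟩ := AddSubgroup.mem_sup.1 hx
  rw [smul_add]
  exact AddSubgroup.mem_sup.2 ⟨_, h γ y hy, _, h' γ z hz, rfl⟩

lemma stab_zmultiples {w : X} (hw : ∀ γ : Γ, γ • w = w) : Stab Γ (AddSubgroup.zmultiples w) := by
  intro γ x hx
  obtain ⟨n, rfl⟩ := AddSubgroup.mem_zmultiples_iff.1 hx
  rw [smul_comm, hw]
  exact AddSubgroup.zsmul_mem_zmultiples w n

lemma mem_zu {v x : X} {U : AddSubgroup X} :
    x ∈ AddSubgroup.zmultiples v ⊔ U ↔ ∃ n : ℤ, ∃ u ∈ U, x = n • v + u := by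
  rw [AddSubgroup.mem_sup]
  constructor
  · rintro ⟨y, hy, u, hu, rfl⟩
    obtain ⟨n, rfl⟩ := AddSubgroup.mem_zmultiples_iff.1 hy
    exact ⟨n, u, hu, rfl⟩
  · rintro ⟨n, u, hu, rfl⟩
    exact ⟨_, AddSubgroup.zsmul_mem_zmultiples v n, u, hu, rfl⟩

/-- `[ℤ w + U : ℤ p w + U] = p`. -/
lemma relIndex_p (hp : 0 < p) (w : X) (U : AddSubgroup X) (hind : ∀ n : ℤ, n • w ∈ U → n = 0) :
    (AddSubgroup.zmultiples (p • w) ⊔ U).relIndex (AddSubgroup.zmultiples w ⊔ U) = p := by
  have key := relIndex_eq_card_of (AddSubgroup.zmultiples (p • w) ⊔ U)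
    (AddSubgroup.zmultiples w ⊔ U) (T := Fin p) (fun t => (t : ℕ) • w) ?_ ?_ ?_
  · rw [key, Nat.card_eq_fintype_card, Fintype.card_fin]
  · intro t
    exact AddSubgroup.mem_sup_left (AddSubgroup.nsmul_mem_zmultiples w _)
  · intro t t' h
    obtain ⟨n, u, hu, hx⟩ := mem_zu.1 h
    have h2 : ((t' : ℤ) - (t : ℤ) - n * p) • w ∈ U := by
      have : ((t' : ℤ) - (t : ℤ) - n * p) • w = u := by
        rw [sub_smul, sub_smul, mul_smul, natCast_zsmul, natCast_zsmul, natCast_zsmul]
        rw [← sub_eq_iff_eq_add'] at hx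
        rw [← hx]
        abel
      rw [this]; exact hu
    have h3 := hind _ h2
    have ht := t.2
    have ht' := t'.2
    have hn0 : n = 0 := by
      by_contra hn
      rcases lt_or_gt_of_ne hn with hn | hn
      · have : n * (p : ℤ) ≤ (-1) * (p : ℤ) :=
          mul_le_mul_of_nonneg_right (by omega) (by omega)
        omega
      · have : 1 * (p : ℤ) ≤ n * (p : ℤ) :=
          mul_le_mul_of_nonneg_right (by omega) (by omega)
        omega
    rw [hn0, zero_mul] at h3
    apply Fin.ext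
    omega
  · intro x hx
    obtain ⟨n, u, hu, rfl⟩ := mem_zu.1 hx
    have hp' : (p : ℤ) ≠ 0 := by omega
    have hlt : (n % p).toNat < p := by
      have := Int.emod_lt_of_pos n (show (0 : ℤ) < p by omega)
      have := Int.emod_nonneg n hp'
      omega
    refine ⟨⟨(n % p).toNat, hlt⟩, ?_⟩
    refine mem_zu.2 ⟨n / p, u, hu, ?_⟩
    have e1 : ((n % p).toNat : ℤ) = n % p := Int.toNat_of_nonneg (Int.emod_nonneg n hp')
    have e2 : (n % p).toNat • w = (n % p) • w := by
      conv_rhs => rw [← e1]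
      rw [natCast_zsmul]
    simp only []
    rw [e2, ← add_assoc, ← neg_smul, ← add_smul, ← natCast_zsmul w p, ← mul_smul]
    congr 2
    have := Int.emod_add_mul_ediv n p
    linarith

/-- `e w = s w` for a fixed element `w`. -/
lemma opZ_fixed [Finite Γ] [NeZero p] (a : Γ → ZMod p) {w : X} (hw : ∀ γ : Γ, γ • w = w) :
    ∃ s : ℕ, (s : ZMod p) = aug a ∧ opZ a w = s • w := by
  cases nonempty_fintype Γ
  refine ⟨∑ γ : Γ, (a γ).val, ?_, ?_⟩
  · rw [aug, finsum_eq_sum_of_fintype, Nat.cast_sum]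
    exact Finset.sum_congr rfl fun γ _ => ZMod.natCast_zmod_val _
  · rw [opZ_apply, finsum_eq_sum_of_fintype, Finset.sum_smul]
    exact Finset.sum_congr rfl fun γ _ => by rw [hw]

theorem abs [Finite Γ] [Fact p.Prime] (h0 : Stmt_opZ) (h1 : Stmt_eMul) (h2 : Stmt_eTransport)
    (h4 : Stmt_eIndex) (a : Γ → ZMod p) (ha : IsIdem a) (w : X) (hw : ∀ γ : Γ, γ • w = w)
    (U U' : AddSubgroup X) (hU : Stab Γ U) (hU' : Stab Γ U') (hpU : pS p U = U')
    (hind : ∀ n : ℤ, n • w ∈ U → n = 0) (htor : ∀ u ∈ U, p • u = 0 → u = 0)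
    (hidx : (AddSubgroup.zmultiples (p • w) ⊔ U').index ≠ 0) :
    eCard a (⊤ : AddSubgroup X) (pS p ⊤) =
      Nat.card ((nsmulAddMonoidHom (α := X) p).ker.map (opZ a)) *
        (if aug a = 0 then 1 else p) * eCard a U U' := by
  have hp : p.Prime := Fact.out
  have hp0 : (p : ℤ) ≠ 0 := by exact_mod_cast hp.ne_zero
  have hUU : U' ≤ U := by
    rw [← hpU]
    rintro _ ⟨u, hu, rfl⟩
    exact U.nsmul_mem hu p
  have hwp : ∀ γ : Γ, γ • (p • w) = p • w := fun γ => by rw [smul_comm, hw]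
  have hZZ : AddSubgroup.zmultiples (p • w) ≤ AddSubgroup.zmultiples w := by
    rw [AddSubgroup.zmultiples_le]
    exact AddSubgroup.nsmul_mem_zmultiples w p
  obtain ⟨B, hB⟩ : ∃ B, B = AddSubgroup.zmultiples w ⊔ U := ⟨_, rfl⟩
  obtain ⟨M, hM⟩ : ∃ M, M = AddSubgroup.zmultiples (p • w) ⊔ U := ⟨_, rfl⟩
  obtain ⟨C, hC⟩ : ∃ C, C = AddSubgroup.zmultiples (p • w) ⊔ U' := ⟨_, rfl⟩
  have hBs : Stab Γ B := by rw [hB]; exact stab_sup (stab_zmultiples hw) hU
  have hMs : Stab Γ M := by rw [hM]; exact stab_sup (stab_zmultiples hwp) hU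
  have hCs : Stab Γ C := by rw [hC]; exact stab_sup (stab_zmultiples hwp) hU'
  have hpB : pS p B = C := by
    rw [hB, hC, ← hpU]
    show (AddSubgroup.zmultiples w ⊔ U).map (nsmulAddMonoidHom p) = _
    rw [AddSubgroup.map_sup, AddMonoidHom.map_zmultiples, nsmulAddMonoidHom_apply]
  have hCM : C ≤ M := by rw [hC, hM]; exact sup_le_sup_left hUU _
  have hMB : M ≤ B := by rw [hB, hM]; exact sup_le_sup_right hZZ _
  -- no `p`-torsion in `B`
  have htorB : ∀ x ∈ B, p • x = 0 → x = 0 := by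
    intro x hx hpx
    rw [hB] at hx
    obtain ⟨n, u, hu, rfl⟩ := mem_zu.1 hx
    have e1 : ((p : ℤ) * n) • w = -(p • u) := by
      rw [smul_add] at hpx
      rw [mul_smul, natCast_zsmul]
      exact eq_neg_of_add_eq_zero_left hpx
    have e2 := hind _ (by rw [e1]; exact U.neg_mem (U.nsmul_mem hu p))
    have hn : n = 0 := (mul_eq_zero.1 e2).resolve_left hp0
    subst hn
    rw [zero_smul, zero_add] at hpx ⊢
    exact htor u hu hpx
  have e4 := h4 p Γ X a ha B hBs (by rw [hpB, hC]; exact hidx) htorB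
  have e1 := h1 p Γ X a ha B M C hBs hMs hCs hCM hMB hpB.le
  -- transport
  have e2 : eCard a U U' = eCard a M C := by
    refine h2 p Γ X X a U U' M C id hU hU' hMs hCs hUU hCM ?_ ?_ ?_ ?_ ?_
    · intro x hx
      rw [hM]
      exact AddSubgroup.mem_sup_right hx
    · intro x _ y _
      simp only [id]
      rw [add_sub_cancel_left, sub_self]
      exact C.zero_mem
    · intro γ x _
      simp only [id]
      rw [sub_self]
      exact C.zero_mem
    · intro x hx
      simp only [id]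
      constructor
      · intro hxC
        rw [hC] at hxC
        obtain ⟨n, u, hu, rfl⟩ := mem_zu.1 hxC
        have e3 : (n * (p : ℤ)) • w ∈ U := by
          rw [mul_smul, natCast_zsmul]
          have := U.sub_mem hx (hUU hu)
          rwa [add_sub_cancel_right] at this
        have hn : n = 0 := (mul_eq_zero.1 (hind _ e3)).resolve_right hp0
        subst hn
        rw [zero_smul, zero_add]
        exact hu
      · intro hxU
        rw [hC]
        exact AddSubgroup.mem_sup_right hxU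
    · intro y hy
      rw [hM] at hy
      obtain ⟨n, u, hu, rfl⟩ := mem_zu.1 hy
      refine ⟨u, hu, ?_⟩
      simp only [id]
      rw [add_sub_cancel_right, hC]
      exact AddSubgroup.mem_sup_left (AddSubgroup.zsmul_mem_zmultiples _ n)
  -- the middle step
  have e3 : eCard a B M = if aug a = 0 then 1 else p := by
    obtain ⟨s, hs, hsw⟩ := opZ_fixed a hw
    have hUmap : U.map (opZ a) ≤ U := by
      rintro _ ⟨u, hu, rfl⟩
      exact (h0 p Γ X a U hU).1 u hu
    have hmap : M ⊔ B.map (opZ a) = M ⊔ AddSubgroup.zmultiples (s • w) := by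
      rw [hB, AddSubgroup.map_sup, AddMonoidHom.map_zmultiples, hsw]
      apply le_antisymm
      · refine sup_le le_sup_left (sup_le le_sup_right ?_)
        refine hUmap.trans (le_trans ?_ le_sup_left)
        rw [hM]
        exact le_sup_right
      · exact sup_le le_sup_left (le_trans le_sup_left le_sup_right)
    unfold eCard
    rw [hmap]
    split_ifs with haug
    · rw [haug, ZMod.natCast_eq_zero_iff] at hs
      obtain ⟨c, rfl⟩ := hs
      have : M ⊔ AddSubgroup.zmultiples ((p * c) • w) = M := by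
        rw [sup_eq_left, AddSubgroup.zmultiples_le, hM, mul_comm, mul_smul]
        exact AddSubgroup.mem_sup_left (AddSubgroup.nsmul_mem_zmultiples _ c)
      rw [this, AddSubgroup.relIndex_self]
    · have hnd : ¬ p ∣ s := by
        intro hd
        apply haug
        rw [← hs, ZMod.natCast_eq_zero_iff]
        exact hd
      have hcop : IsCoprime (s : ℤ) (p : ℤ) :=
        Nat.isCoprime_iff_coprime.2 ((Nat.Prime.coprime_iff_not_dvd hp).2 hnd).symm
      obtain ⟨x, y, hxy⟩ := hcop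
      have : M ⊔ AddSubgroup.zmultiples (s • w) = B := by
        apply le_antisymm
        · refine sup_le hMB ?_
          rw [AddSubgroup.zmultiples_le, hB]
          exact AddSubgroup.mem_sup_left (AddSubgroup.nsmul_mem_zmultiples w s)
        · rw [hB]
          refine sup_le ?_ (le_trans (by rw [hM]; exact le_sup_right) le_sup_left)
          rw [AddSubgroup.zmultiples_le]
          have e5 : w = y • (p • w) + x • (s • w) := by
            rw [← natCast_zsmul w p, ← natCast_zsmul w s, ← mul_smul, ← mul_smul, ← add_smul,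
              add_comm, hxy, one_smul]
          have hmem : y • (p • w) + x • (s • w) ∈ M ⊔ AddSubgroup.zmultiples (s • w) := by
            refine AddSubgroup.add_mem _ (AddSubgroup.mem_sup_left ?_) (AddSubgroup.mem_sup_right
              (AddSubgroup.zsmul_mem_zmultiples _ x))
            rw [hM]
            exact AddSubgroup.mem_sup_left (AddSubgroup.zsmul_mem_zmultiples _ y)
          rwa [← e5] at hmem
      rw [this, hM, hB]
      exact relIndex_p hp.pos w U hind
  rw [e4, hpB, e1, e3, e2]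
  ring

end Abs

/-! ### local fields -/

section Conc

variable {L : Type} [NormedField L]

lemma coe_mul_nnnorm (p : ℕ) (r : NNReal) :
    ((‖(p : L)‖₊ * r : NNReal) : ℝ) = ‖(p : L)‖ * r := by
  rw [NNReal.coe_mul, coe_nnnorm]

/-- the `p`-th power map is a bijection `U_r → U_{|p| r}`. -/
lemma pS_UA (hL : IsLoc L) (p : ℕ) (r : NNReal) (hr : r < ‖(p : L)‖₊) :
    pS p (UA hL.ultra r) = UA hL.ultra (‖(p : L)‖₊ * r) := by
  have := hL.ultra
  have : ProperSpace L := proper L hL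
  have hr' : (r : ℝ) < ‖(p : L)‖ := by exact_mod_cast hr
  have hp1 : ‖(p : L)‖ ≤ 1 := IsUltrametricDist.norm_natCast_le_one L p
  ext a
  constructor
  · rintro ⟨u, hu, rfl⟩
    rw [SetLike.mem_coe, mem_UA] at hu
    rw [mem_UA, nsmulAddMonoidHom_apply, toMul_nsmul, Units.val_pow_eq_pow_val, coe_mul_nnnorm]
    refine ⟨by rw [norm_pow, hu.1, one_pow], ?_⟩
    rw [PowIndex.norm_pow_sub_one p (hu.2.trans_lt hr')]
    exact mul_le_mul_of_nonneg_left hu.2 (norm_nonneg _)
  · intro ha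
    rw [mem_UA, coe_mul_nnnorm] at ha
    obtain ⟨x, hx, hxa⟩ := PowIndex.exists_pow_eq p r r.2 hr' _ ha.2
    have hn : ‖x‖ = 1 := PowIndex.norm_eq_one_of_sub (hx.trans_lt (hr'.trans_le hp1))
    have hx0 : x ≠ 0 := by
      intro h; rw [h, norm_zero] at hn; exact zero_ne_one hn
    refine ⟨Additive.ofMul (Units.mk0 x hx0), ⟨hn, hx⟩, ?_⟩
    apply Additive.toMul.injective
    apply Units.ext
    rw [nsmulAddMonoidHom_apply, toMul_nsmul, toMul_ofMul, Units.val_pow_eq_pow_val, Units.val_mk0]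
    exact hxa

lemma ind (h : IsUltrametricDist L) (g : Lˣ) (h1 : ‖(g : L)‖ < 1) (r : NNReal) (n : ℤ)
    (hn : n • Additive.ofMul g ∈ UA h r) : n = 0 := by
  have h2 := ((mem_UA h r _).1 hn).1
  rw [toMul_zsmul, toMul_ofMul, Units.val_zpow_eq_zpow_val, norm_zpow] at h2
  exact (zpow_eq_one_iff_right₀ (norm_nonneg _) h1.ne).1 h2

lemma tor (h : IsUltrametricDist L) (p : ℕ) (r : NNReal) (hr : r < ‖(p : L)‖₊)
    (u : Additive Lˣ) (hu : u ∈ UA h r) (hpu : p • u = 0) : u = 0 := by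
  have hr' : (r : ℝ) < ‖(p : L)‖ := by exact_mod_cast hr
  rw [mem_UA] at hu
  have hxp : ((Additive.toMul u : Lˣ) : L) ^ p = 1 := by
    have := congrArg (fun v : Additive Lˣ => ((Additive.toMul v : Lˣ) : L)) hpu
    simpa using this
  have h2 := PowIndex.norm_pow_sub_one p (hu.2.trans_lt hr')
  rw [hxp, sub_self, norm_zero] at h2
  have hp0 : ‖(p : L)‖ ≠ 0 := (lt_of_le_of_lt r.2 hr').ne'
  have h3 : ‖((Additive.toMul u : Lˣ) : L) - 1‖ = 0 := (mul_eq_zero.1 h2.symm).resolve_left hp0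
  apply Additive.toMul.injective
  apply Units.ext
  rw [toMul_zero, Units.val_one]
  exact sub_eq_zero.1 (norm_eq_zero.1 h3)

/-- `g^ℤ U_s` has finite index. -/
lemma index_ne_zero (hL : IsLoc L) (g : Lˣ) (h1 : ‖(g : L)‖ < 1) (s : NNReal) (hs : 0 < s)
    (hs1 : s ≤ 1) : (Subgroup.zpowers g ⊔ UM hL.ultra s).index ≠ 0 := by
  have hult := hL.ultra
  obtain ⟨ϖ, hϖ0, hϖ1, hϖ⟩ := hL.unif
  have hρ0 : 0 < ‖ϖ‖ := norm_pos_iff.2 hϖ0
  obtain ⟨e, he⟩ := hϖ g g.ne_zero
  have he0 : 0 < e := by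
    by_contra hcon
    have : 1 ≤ ‖ϖ‖ ^ e := one_le_zpow_of_nonpos₀ hρ0 hϖ1.le (by omega)
    rw [← he] at this
    exact absurd h1 (not_lt.2 this)
  have hU1 : ∀ v : Lˣ, ‖(v : L)‖ = 1 → v ∈ UM hL.ultra 1 := by
    intro v hv
    refine ⟨hv, ?_⟩
    rw [sub_eq_add_neg, NNReal.coe_one]
    refine (IsUltrametricDist.norm_add_le_max _ (-1)).trans (max_le hv.le ?_)
    simp
  -- step 2
  have hidx1 : (Subgroup.zpowers g ⊔ UM hL.ultra 1).index ≠ 0 := by
    rw [← Subgroup.relIndex_top_right]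
    refine PowIndex.relIndex_ne_zero_of _ ⊤ (T := Fin e.toNat)
      (fun t => (Units.mk0 ϖ hϖ0) ^ (t : ℕ)) (fun _ => Subgroup.mem_top _) ?_
    intro x _
    obtain ⟨k, hk⟩ := hϖ x x.ne_zero
    have hlt : (k % e).toNat < e.toNat := by
      have := Int.emod_lt_of_pos k he0
      have := Int.emod_nonneg k he0.ne'
      omega
    refine ⟨⟨(k % e).toNat, hlt⟩, ?_⟩
    have e1 : ((k % e).toNat : ℤ) = k % e := Int.toNat_of_nonneg (Int.emod_nonneg k he0.ne')
    refine Subgroup.mem_sup.2 ⟨g ^ (k / e), Subgroup.zpow_mem_zpowers g _,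
      (g ^ (k / e))⁻¹ * (((Units.mk0 ϖ hϖ0) ^ (k % e).toNat)⁻¹ * x), hU1 _ ?_, by group⟩
    rw [Units.val_mul, Units.val_mul, norm_mul, norm_mul, hk, Units.val_inv_eq_inv_val,
      Units.val_inv_eq_inv_val, norm_inv, norm_inv, Units.val_zpow_eq_zpow_val, norm_zpow, he,
      Units.val_pow_eq_pow_val, norm_pow, Units.val_mk0, ← zpow_natCast, e1, ← zpow_mul,
      ← zpow_neg, ← zpow_neg, ← zpow_add₀ hρ0.ne', ← zpow_add₀ hρ0.ne']
    have e2 : -(e * (k / e)) + (-(k % e) + k) = 0 := by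
      have := Int.emod_add_mul_ediv k e
      omega
    rw [e2, zpow_zero]
  -- step 3
  have hss : UM hL.ultra s ≤ UM hL.ultra 1 := by
    rintro v ⟨hv, hv'⟩
    exact ⟨hv, hv'.trans (by exact_mod_cast hs1)⟩
  have hrel0 : (UM hL.ultra s).relIndex (UM hL.ultra 1) ≠ 0 := by
    refine proper_finite_units hL _ _ (fun u hu => hu.1) (min (s : ℝ) (1 / 2))
      (lt_min (by exact_mod_cast hs) (by norm_num)) ?_
    intro x hx
    refine ⟨PowIndex.norm_eq_one_of_sub (hx.trans_lt ?_), hx.trans (min_le_left _ _)⟩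
    exact (min_le_right _ _).trans_lt (by norm_num)
  have hrel : (Subgroup.zpowers g ⊔ UM hL.ultra s).relIndex
      (Subgroup.zpowers g ⊔ UM hL.ultra 1) ≠ 0 := by
    have e3 : Subgroup.zpowers g ⊔ UM hL.ultra 1
        = UM hL.ultra 1 ⊔ (Subgroup.zpowers g ⊔ UM hL.ultra s) := by
      apply le_antisymm
      · exact sup_le (le_trans le_sup_left le_sup_right) le_sup_left
      · exact sup_le le_sup_right (sup_le_sup_left hss _)
    rw [e3, Subgroup.relIndex_sup_right]
    exact ne_zero_of_dvd_ne_zero hrel0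
      (Subgroup.relIndex_dvd_of_le_left (UM hL.ultra 1) le_sup_right)
  rw [← Subgroup.relIndex_mul_index (sup_le_sup_left hss (Subgroup.zpowers g))]
  exact mul_ne_zero hrel hidx1

lemma toAdd_sup (h : IsUltrametricDist L) (g : Lˣ) (s : NNReal) :
    AddSubgroup.zmultiples (Additive.ofMul g) ⊔ UA h s
      = Subgroup.toAddSubgroup (Subgroup.zpowers g ⊔ UM h s) := by
  rw [OrderIso.map_sup]
  congr 1

end Conc

end EUnits

open EUnits EUnitsAdd in
/-- C3. -/
theorem stmt_eUnits (h0 : Stmt_opZ) (h1 : Stmt_eMul) (h2 : Stmt_eTransport) (h4 : Stmt_eIndex) :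
    Stmt_eUnits := by
  intro Γ L _ _ _ _ hL p _ a ha r hr0 hr
  have hp : p.Prime := Fact.out
  have hult := hL.loc.ultra
  obtain ⟨ϖ, hϖ0, hϖ1, hϖfix, -⟩ := fixedLoc_exists_unifFix hL ⊤
  have hp1 : ‖(p : L)‖ ≤ 1 := IsUltrametricDist.norm_natCast_le_one L p
  have hr' : (r : ℝ) < ‖(p : L)‖ := by exact_mod_cast hr
  have hr0' : (0 : ℝ) < r := by exact_mod_cast hr0
  refine abs h0 h1 h2 h4 a ha (Additive.ofMul (Units.mk0 ϖ hϖ0)) ?_ (UA hL.loc.ultra r)
    (UA hL.loc.ultra (‖(p : L)‖₊ * r)) (stab_UA hL _) (stab_UA hL _) (pS_UA hL.loc p r hr)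
    (ind hL.loc.ultra _ hϖ1 r) (tor hL.loc.ultra p r hr) ?_
  · intro γ
    apply Additive.toMul.injective
    apply Units.ext
    rw [val_toMul_smul]
    exact hϖfix γ (Subgroup.mem_top γ)
  · have e : p • Additive.ofMul (Units.mk0 ϖ hϖ0) = Additive.ofMul ((Units.mk0 ϖ hϖ0) ^ p) := rfl
    rw [e, toAdd_sup, Subgroup.index_toAddSubgroup]
    refine index_ne_zero hL.loc _ ?_ _ ?_ ?_
    · rw [Units.val_pow_eq_pow_val, norm_pow, Units.val_mk0]
      exact pow_lt_one₀ (norm_nonneg _) hϖ1 hp.ne_zero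
    · exact mul_pos (hr0.trans hr) hr0
    · rw [← NNReal.coe_le_coe, coe_mul_nnnorm, NNReal.coe_one]
      exact mul_le_one₀ hp1 hr0'.le (hr'.le.trans hp1)

end Fermat.Agent.TW56.Loc

end
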