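/-
TEAM TW56 -> S56, block LEC, package K4 : `# e H²(G, Map(Γ, μ_p)) ≤ # e 𝔽_p`.
-/
import Fermat.Agent.TW56.Loc.LecInterface
import Fermat.Agent.CFT.Pos.Fun
import Fermat.Agent.CFT.Pos.LDE

set_option autoImplicit false

noncomputable section

namespace Fermat.Agent.TW56.Loc

open Fermat.Agent.CFT Fermat.Agent.CFT.Top Fermat.Agent.CFT.Pos Fermat.Agent.CFT.Local Module
  CategoryTheory

namespace H2Tw

/-- endomorphisms of a one dimensional space are scalars. -/
lemma scalar {k V : Type} [Field k] [AddCommGroup V] [Module k V] (h : finrank k V = 1)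
    (φ : V →ₗ[k] V) : ∃ l : k, ∀ v, φ v = l • v := by
  obtain ⟨v, -, hspan⟩ := finrank_eq_one_iff'.1 h
  obtain ⟨l, hl⟩ := hspan (φ v)
  refine ⟨l, fun w => ?_⟩
  obtain ⟨c, rfl⟩ := hspan w
  rw [map_smul, ← hl, smul_comm]

variable {k : Type} [Field k] {G : Type} [Group G] (W : Subgroup G) [W.Normal] [W.FiniteIndex]
  (N : Rep.{0} k G)

omit [W.Normal] [W.FiniteIndex] in
/-- translates of the delta functions. -/
lemma single_eq [DecidableEq (G ⧸ W)] (g : G) (n : N) :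
    (Pi.single (g : G ⧸ W) n : G ⧸ W → N) =
      (mapRep (G ⧸ W) N).ρ g (Pi.single ((1 : G) : G ⧸ W) (N.ρ g⁻¹ n) : G ⧸ W → N) := by
  funext x
  rw [mapRep_ρ_apply]
  have hgg : N.ρ g (N.ρ g⁻¹ n) = n := by
    rw [← Module.End.mul_apply, ← map_mul, mul_inv_cancel, map_one, Module.End.one_apply]
  by_cases hx : x = (g : G ⧸ W)
  · subst hx
    have h1 : g⁻¹ • ((g : G) : G ⧸ W) = ((1 : G) : G ⧸ W) := by
      show (((g⁻¹ * g : G)) : G ⧸ W) = _
      rw [inv_mul_cancel]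
    rw [Pi.single_eq_same, h1, Pi.single_eq_same, hgg]
  · have h1 : g⁻¹ • x ≠ ((1 : G) : G ⧸ W) := by
      intro h
      apply hx
      have h2 : x = g • ((1 : G) : G ⧸ W) := by rw [← h, smul_inv_smul]
      rw [h2]
      show (((g * 1 : G)) : G ⧸ W) = _
      rw [mul_one]
    rw [Pi.single_eq_of_ne hx, Pi.single_eq_of_ne h1, map_zero]

/-- every equivariant map `Map(Γ, N) → N` is a multiple of the sum. -/
lemma eq_sum [Fintype (G ⧸ W)] (hN : finrank k N = 1) (ε : EqHom (mapRep (G ⧸ W) N) N) :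
    ∃ l : k, ∀ F : G ⧸ W → N, ε.1 F = l • ∑ c, F c := by
  classical
  obtain ⟨l, hl⟩ := scalar hN
    (ε.1 ∘ₗ (LinearMap.single k (fun _ : G ⧸ W => (N : Type)) ((1 : G) : G ⧸ W)))
  have hl' : ∀ n : N, ε.1 (Pi.single ((1 : G) : G ⧸ W) n : G ⧸ W → N) = l • n := hl
  have h1 : ∀ (c : G ⧸ W) (n : N), ε.1 (Pi.single c n : G ⧸ W → N) = l • n := by
    intro c n
    induction c using QuotientGroup.induction_on with
    | H g =>
      rw [single_eq W N g n, ε.2 g, hl', map_smul, ← Module.End.mul_apply, ← map_mul,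
        mul_inv_cancel, map_one, Module.End.one_apply]
  refine ⟨l, fun F => ?_⟩
  have h2 : F = ∑ c, (Pi.single c (F c) : G ⧸ W → N) := (Finset.univ_sum_single F).symm
  conv_lhs => rw [h2]
  rw [map_sum, Finset.smul_sum]
  exact Finset.sum_congr rfl fun c _ => h1 c (F c)

/-- the sum of a right translate. -/
lemma sum_rt [Fintype (G ⧸ W)] (a : G ⧸ W → k) (F : G ⧸ W → N) :
    ∑ c, (rtOp W N a).hom F c = (∑ γ, a γ) • ∑ c, F c := by
  have h1 : ∀ c, (rtOp W N a).hom F c = ∑ γ, a γ • F (c * γ) := fun c => by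
    rw [rtOp_apply, finsum_eq_sum_of_fintype]
  rw [Finset.sum_congr rfl fun c _ => h1 c, Finset.sum_comm, Finset.sum_smul]
  refine Finset.sum_congr rfl fun γ _ => ?_
  rw [← Finset.smul_sum]
  congr 1
  exact Equiv.sum_comp (Equiv.mulRight γ) F

end H2Tw

theorem stmt_h2Tw : Stmt_h2Tw := by
  intro p _ G _ 𝒰 χ N lam hN W _ _ hperf a
  cases nonempty_fintype (G ⧸ W)
  have haug : aug a = ∑ γ, a γ := finsum_eq_sum_of_fintype _
  -- the sum map
  have hex : ∃ ε₀ : EqHom (mapRep (G ⧸ W) N) N, ∀ F : G ⧸ W → N, ε₀.1 F = ∑ c, F c := by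
    refine ⟨⟨∑ c : G ⧸ W, LinearMap.proj c, fun g F => ?_⟩, fun F => ?_⟩
    · rw [LinearMap.sum_apply, LinearMap.sum_apply, map_sum]
      exact Equiv.sum_comp (MulAction.toPerm (g⁻¹ : G)) fun c => N.ρ g (F c)
    · rw [LinearMap.sum_apply]
      rfl
  obtain ⟨ε₀, hε₀⟩ := hex
  have hspan : ∀ ε : EqHom (mapRep (G ⧸ W) N) N, ∃ l : ZMod p, ε = l • ε₀ := by
    intro ε
    obtain ⟨l, hl⟩ := H2Tw.eq_sum W N hN.1 ε
    refine ⟨l, Subtype.ext (LinearMap.ext fun F => ?_)⟩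
    show ε.1 F = l • ε₀.1 F
    rw [hl, hε₀]
  -- `E` acts on `Hom_G(Y, N)` by `aug a`
  have hpre : ∀ ε : EqHom (mapRep (G ⧸ W) N) N, LDE_pre (rtOp W N a) N ε = aug a • ε := by
    intro ε
    obtain ⟨l, hl⟩ := H2Tw.eq_sum W N hN.1 ε
    refine Subtype.ext (LinearMap.ext fun F => ?_)
    show ε.1 ((rtOp W N a).hom F) = aug a • ε.1 F
    rw [hl, hl, H2Tw.sum_rt, haug, smul_comm]
  -- `E` acts on `H²` by `aug a`
  have hact : ∀ z, HM 𝒰 (rtOp W N a) 2 z = aug a • z := by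
    intro z
    apply hperf.1
    apply LinearMap.ext
    intro ε
    rw [LDE_alpha_nat 𝒰 stmt_HMfun, hpre, map_smul, map_smul, LinearMap.smul_apply]
  -- `# H² ≤ p`
  have hinj : Function.Injective
      (fun z : Hlc 𝒰 (mapRep (G ⧸ W) N) 2 => alphaE 𝒰 N lam (mapRep (G ⧸ W) N) z ε₀) := by
    intro z z' h
    apply hperf.1
    apply LinearMap.ext
    intro ε
    obtain ⟨l, rfl⟩ := hspan ε
    rw [map_smul, map_smul]
    exact congrArg (l • ·) h
  have hfin : Finite (Hlc 𝒰 (mapRep (G ⧸ W) N) 2) := Finite.of_injective _ hinj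
  have hcard : Nat.card (Hlc 𝒰 (mapRep (G ⧸ W) N) 2) ≤ p := by
    have := Nat.card_le_card_of_injective _ hinj
    rwa [Nat.card_zmod] at this
  by_cases h0 : aug a = 0
  · rw [if_pos h0]
    have hbot : LinearMap.range (HM 𝒰 (rtOp W N a) 2) = ⊥ := by
      rw [LinearMap.range_eq_bot]
      apply LinearMap.ext
      intro z
      rw [hact, h0, zero_smul]
      rfl
    rw [hbot]
    simp
  · rw [if_neg h0]
    exact (Nat.card_le_card_of_injective _ Subtype.val_injective).trans hcard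

end Fermat.Agent.TW56.Loc

end
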