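/-
TEAM TW56 -> S56, block LEC, package K12 (helper91): the local Euler characteristic in a context, and the
final statement `Stmt_LEC`.
-/
import Fermat.Agent.TW56.Loc.LecInterface

set_option autoImplicit false

noncomputable section

namespace Fermat.Agent.TW56.Loc

open Fermat.Agent.CFT Fermat.Agent.CFT.Top Fermat.Agent.CFT.Pos Fermat.Agent.CFT.Local Module
  CategoryTheory ExtCitation

attribute [local instance] Units.mulDistribMulActionRight
attribute [local instance] quotAct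
attribute [local instance] addAct

namespace LecAll

/-- `finrank` is additive on short exact sequences (rank-nullity). -/
lemma finrank_ses {k : Type} [Field k] {G : Type} [Group G] {X₁ X₂ X₃ : Rep.{0} k G}
    (i : X₁ ⟶ X₂) (q : X₂ ⟶ X₃) (h2 : Module.Finite k X₂) (h : IsSES i q) :
    finrank k X₂ = finrank k X₁ + finrank k X₃ := by
  have hrn := LinearMap.finrank_range_add_finrank_ker (q.hom.toLinearMap)
  have hr : LinearMap.range q.hom.toLinearMap = ⊤ := LinearMap.range_eq_top.2 h.surj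
  have hk : LinearMap.ker q.hom.toLinearMap = LinearMap.range i.hom.toLinearMap := by
    ext x
    rw [LinearMap.mem_ker, LinearMap.mem_range]
    exact h.exact x
  have hi : finrank k (LinearMap.range i.hom.toLinearMap) = finrank k X₁ :=
    LinearMap.finrank_range_of_inj h.inj
  rw [hr, hk, hi, finrank_top] at hrn
  omega

/-- `LecCtx` contains the numerical hypotheses `LocHyp`. -/
lemma locHyp {𝒢 Ω : Type} [Group 𝒢] [NormedField Ω] [MulSemiringAction 𝒢 Ω] {𝒰 : LevelSys 𝒢} {p : ℕ}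
    [Fact p.Prime] {N : Rep.{0} (ZMod p) 𝒢} {χ : 𝒢 →* (ZMod p)ˣ} {ε : ℕ}
    (h : LecCtx 𝒢 Ω 𝒰 p N χ ε) : LocHyp 𝒰 χ :=
  ⟨h.χtriv, ε, h.num⟩

/-- a module which is good for a level is good. -/
lemma good_of_goodW {k : Type} [Field k] {G : Type} [Group G] {𝒰 : LevelSys G} {W : Subgroup G}
    (hW : W ∈ 𝒰.S) {X : Rep.{0} k G} (h : GoodW W X) : Good 𝒰 X :=
  ⟨h.1, W, hW, h.2⟩

end LecAll

/-- K12. the local Euler characteristic in a context. -/
theorem stmt_lecAll (hI : Stmt_INDproj) (hK : Stmt_lecKey) (hA : Stmt_lecAdd) : Stmt_lecAll := by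
  intro 𝒢 Ω _ _ _ 𝒰 p _ N χ ε hctx Y hY
  obtain ⟨hfin, U, hU, hUY⟩ := hY
  obtain ⟨U', hU', hχ⟩ := hctx.χtriv
  obtain ⟨W, hW, hWU, hWU'⟩ := 𝒰.dir U hU U' hU'
  have := 𝒰.normal W hW
  have := 𝒰.fin W hW
  have key := hI p 𝒢 W (fun X => chi 𝒰 X + (ε : ℤ) * (finrank (ZMod p) X : ℤ))
    (fun X₁ X₂ X₃ i q h1 h2 h3 hs => by
      have e1 := hA p 𝒢 𝒰 χ (LecAll.locHyp hctx) X₁ X₂ X₃ i q (LecAll.good_of_goodW hW h1)
        (LecAll.good_of_goodW hW h2) (LecAll.good_of_goodW hW h3) hs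
      have e2 := LecAll.finrank_ses i q h2.1 hs
      show chi 𝒰 X₂ + (ε : ℤ) * (finrank (ZMod p) X₂ : ℤ) =
        (chi 𝒰 X₁ + (ε : ℤ) * (finrank (ZMod p) X₁ : ℤ)) +
          (chi 𝒰 X₃ + (ε : ℤ) * (finrank (ZMod p) X₃ : ℤ))
      rw [e1, e2]
      push_cast
      ring)
    (fun P i r hir => hK 𝒢 Ω 𝒰 p N χ ε hctx W hW (fun w hw => hχ w (hWU' hw)) P i r hir)
    Y ⟨hfin, fun w hw y => hUY w (hWU hw) y⟩
  have key' : chi 𝒰 Y + (ε : ℤ) * (finrank (ZMod p) Y : ℤ) = 0 := key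
  linarith

/-- **LEC : the local Euler characteristic formula.** -/
theorem stmt_LEC (h : Stmt_lecAll) (hc : Stmt_lecCtx) : Stmt_LEC := by
  intro q p _ _ Y hY
  have := h (Gq q) (PadicAlgCl q) (levq q) p _ _ _ (hc q p) Y hY
  rw [this]
  split_ifs <;> simp

end Fermat.Agent.TW56.Loc

end
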