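/-
TEAM TW56 -> S56, block LEC, K10 : the inequality `χ(P) + ε dim P ≤ 0`.
-/
import Fermat.Agent.TW56.Loc.LecInterface
import Fermat.Agent.CFT.Pos.Final
import Fermat.Agent.CFT.Local.Final

set_option autoImplicit false

noncomputable section

namespace Fermat.Agent.TW56.Loc

open Fermat.Agent.CFT Fermat.Agent.CFT.Top Fermat.Agent.CFT.Pos Fermat.Agent.CFT.Local Module
  CategoryTheory ExtCitation

attribute [local instance] Units.mulDistribMulActionRight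
attribute [local instance] quotAct
attribute [local instance] addAct

namespace LecLe

/-- the packages of the positivity route which are used here. -/
theorem fdAll : Stmt_fdAll :=
  stmt_fdAll stmt_sylow stmt_charTriv stmt_fdExt stmt_ses stmt_HMfun

theorem locRex : Stmt_locRex :=
  stmt_locRex stmt_sylow stmt_charTriv fdAll
    (stmt_rightExact stmt_euler stmt_ses stmt_HMfun (stmt_subAddChi stmt_euler stmt_ses stmt_HMfun))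
    stmt_h0perm

theorem LDEperm : Stmt_LDEperm := stmt_LDEperm stmt_eqHomPerm

theorem LDE : Stmt_LDE := stmt_LDE stmt_splitClosure (stmt_LDEsplit stmt_HMfun) stmt_HMfun

section

variable {𝒢 Ω : Type} [Group 𝒢] [NormedField Ω] [MulSemiringAction 𝒢 Ω] {𝒰 : LevelSys 𝒢} {p : ℕ}
  [Fact p.Prime] {N : Rep.{0} (ZMod p) 𝒢} {χ : 𝒢 →* (ZMod p)ˣ} {ε : ℕ}

theorem locHyp (ctx : LecCtx 𝒢 Ω 𝒰 p N χ ε) : LocHyp 𝒰 χ := ⟨ctx.χtriv, ⟨ε, ctx.num⟩⟩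

theorem fd (ctx : LecCtx 𝒢 Ω 𝒰 p N χ ε) (X : Rep.{0} (ZMod p) 𝒢) (hX : Good 𝒰 X) : FD 𝒰 X :=
  fdAll p 𝒢 𝒰 χ ctx.χtriv (fun H hH hχ => ⟨(ctx.num H hH hχ).1, (ctx.num H hH hχ).2.2.1⟩) X hX

theorem good_tw (ctx : LecCtx 𝒢 Ω 𝒰 p N χ ε) (W : Subgroup 𝒢) [W.Normal] [W.FiniteIndex]
    (hW : W ∈ 𝒰.S) (hχ : ∀ w ∈ W, χ w = 1) : Good 𝒰 (tw W N) := by
  have hfin : Module.Finite (ZMod p) N := Module.finite_of_finrank_eq_succ ctx.mu.1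
  have h : GoodW W (tw W N) := goodW_tw (le_refl W) ⟨hfin, fun w hw x => by
    rw [ctx.mu.2 w x, hχ w hw, Units.val_one, one_smul]⟩
  exact ⟨h.1, W, hW, h.2⟩

/-- local duality in a context. -/
theorem exists_perf (ctx : LecCtx 𝒢 Ω 𝒰 p N χ ε) :
    ∃ lam : Hlc 𝒰 N 2 →ₗ[ZMod p] ZMod p, ∀ Y : Rep.{0} (ZMod p) 𝒢, Good 𝒰 Y → PerfE 𝒰 N lam Y := by
  obtain ⟨e, he1, he2, he3⟩ := ctx.emb
  have hcard := (all_towerKummer2 𝒢 Ω 𝒰 ctx.tower p ctx.hp N e he1 he2 he3).2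
  have : Nontrivial (Hlc 𝒰 N 2) := by
    have h1 : 1 < Nat.card (Hlc 𝒰 N 2) := by
      rw [hcard]
      exact (Fact.out : p.Prime).one_lt
    have := Nat.finite_of_card_ne_zero (by omega : Nat.card (Hlc 𝒰 N 2) ≠ 0)
    exact Finite.one_lt_card_iff_nontrivial.1 h1
  obtain ⟨lam, hlam⟩ := exists_dual_ne_zero (k := ZMod p) (V := Hlc 𝒰 N 2)
  have hrex := locRex p 𝒢 𝒰 χ (locHyp ctx)
  refine ⟨lam, LDE p 𝒢 𝒰 N lam hrex fun U₀ hU₀ => ?_⟩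
  obtain ⟨U₁, hU₁, hχ₁⟩ := ctx.χtriv
  obtain ⟨U, hU, hUU₀, hUU₁⟩ := 𝒰.dir U₀ hU₀ U₁ hU₁
  have hχU : ∀ u ∈ U, χ u = 1 := fun u hu => hχ₁ u (hUU₁ hu)
  exact ⟨U, hU, hUU₀, LDEperm (ZMod p) 𝒢 𝒰 χ N lam ctx.mu hlam hrex U hU hχU
    (ctx.num U ⟨U, hU, le_rfl⟩ hχU).2.2.2⟩

/-- the uniformiser of the base, seen in a layer. -/
theorem unif_layer (W : Subgroup 𝒢) [W.Normal] {ϖ : Ω} (h : IsUnifFix (⊤ : Subgroup 𝒢) ϖ) :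
    ∃ ϖ' : FixedPoints.subfield W Ω, (ϖ' : Ω) = ϖ ∧ IsUnifFix (⊤ : Subgroup (𝒢 ⧸ W)) ϖ' := by
  obtain ⟨h0, h1, h2, h3⟩ := h
  refine ⟨⟨ϖ, fun w => h2 w.1 (Subgroup.mem_top _)⟩, rfl, ?_, h1, ?_, ?_⟩
  · intro e
    exact h0 (congrArg Subtype.val e)
  · intro γ _
    induction γ using QuotientGroup.induction_on with
    | H g => exact Subtype.ext (h2 g (Subgroup.mem_top _))
  · intro x hx hfix
    refine h3 x.1 (fun e => hx (Subtype.ext e)) fun g _ => ?_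
    exact congrArg Subtype.val (hfix (g : 𝒢 ⧸ W) (Subgroup.mem_top _))

end

/-- K10, with `mapRep (𝒢 ⧸ W) N` instead of `tw W N`. -/
theorem main (hM : Stmt_eMain) (h1 : Stmt_kumTw) (h0 : Stmt_h0Tw) (h2 : Stmt_h2Tw)
    (hE : Stmt_endTw) (hr : Stmt_rkTw) (hR : Stmt_retract)
    (𝒢 Ω : Type) [Group 𝒢] [NormedField Ω] [MulSemiringAction 𝒢 Ω] (𝒰 : LevelSys 𝒢) (p : ℕ)
    [Fact p.Prime] (N : Rep.{0} (ZMod p) 𝒢) (χ : 𝒢 →* (ZMod p)ˣ) (ε : ℕ)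
    (ctx : LecCtx 𝒢 Ω 𝒰 p N χ ε) (W : Subgroup 𝒢) [W.Normal] [W.FiniteIndex] (hW : W ∈ 𝒰.S)
    (hχW : ∀ w ∈ W, χ w = 1) (P : Rep.{0} (ZMod p) 𝒢) (i : P ⟶ mapRep (𝒢 ⧸ W) N)
    (r : mapRep (𝒢 ⧸ W) N ⟶ P) (hri : ∀ x, r.hom (i.hom x) = x) :
    chi 𝒰 P + ε * finrank (ZMod p) P ≤ 0 := by
  have hp : p.Prime := Fact.out
  -- the idempotent
  obtain ⟨a, ha, hidem⟩ := hE p 𝒢 χ N ctx.mu W (r ≫ i)
  have hcomp : ∀ F, (r ≫ i).hom F = i.hom (r.hom F) := fun F => rfl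
  have hIdem : IsIdem a := hidem fun F => by rw [hcomp, hcomp, hri]
  obtain ⟨⟨eP⟩, eH⟩ := hR (ZMod p) 𝒢 𝒰 P (mapRep (𝒢 ⧸ W) N) i r (rtOp W N a) hri
    (fun x => by rw [← ha, hcomp])
  have hdim : finrank (ZMod p) P = rk a := by
    rw [eP.finrank_eq]
    exact hr p 𝒢 χ N ctx.mu W a
  -- finiteness
  have hgood : Good 𝒰 (mapRep (𝒢 ⧸ W) N) := good_tw ctx W hW hχW
  have hfd := fd ctx (mapRep (𝒢 ⧸ W) N) hgood
  have card_range : ∀ n ≤ 2, Nat.card (LinearMap.range (HM 𝒰 (rtOp W N a) n)) =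
      p ^ finrank (ZMod p) (Hlc 𝒰 P n) := by
    intro n hn
    have : Module.Finite (ZMod p) (Hlc 𝒰 (mapRep (𝒢 ⧸ W) N) n) := hfd n hn
    obtain ⟨e⟩ := eH n
    rw [e.finrank_eq, Module.natCard_eq_pow_finrank (K := ZMod p), Nat.card_zmod]
  -- the three estimates
  obtain ⟨e, he⟩ := ctx.emb
  obtain ⟨lam, hlam⟩ := exists_perf ctx
  have k1 := h1 𝒢 Ω 𝒰 ctx.tower p ctx.hp N e he W hW a (hfd 1 (by norm_num))
  have k0 := h0 𝒢 Ω 𝒰 p N e he W a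
  have k2 := h2 p 𝒢 𝒰 χ N lam ctx.mu W (hlam _ hgood) a
  -- the equivariant index
  obtain ⟨ϖ, k, hϖ, hk, hres⟩ := ctx.res
  obtain ⟨ϖ', hϖ', hunif⟩ := unif_layer W hϖ
  have hnorm : ‖((p : ℕ) : FixedPoints.subfield W Ω)‖ = ‖ϖ'‖ ^ k := by
    have e1 : ‖((p : ℕ) : FixedPoints.subfield W Ω)‖ = ‖((p : ℕ) : Ω)‖ := rfl
    have e2 : ‖ϖ'‖ = ‖ϖ‖ := by rw [← hϖ']; rfl
    rw [e1, e2, hk]
  have km := hM (𝒢 ⧸ W) (FixedPoints.subfield W Ω) (ctx.tower.layer W hW) p a hIdem ϖ' k hunif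
    hnorm
  rw [(all_towerBase 𝒢 Ω 𝒰 ctx.tower).2.2 W hW, hres] at km
  rw [km, card_range 1 (by norm_num)] at k1
  rw [card_range 0 (by norm_num)] at k0
  rw [card_range 2 (by norm_num)] at k2
  have key : p ^ (finrank (ZMod p) (Hlc 𝒰 P 0) + finrank (ZMod p) (Hlc 𝒰 P 2) + ε * rk a) ≤
      p ^ finrank (ZMod p) (Hlc 𝒰 P 1) := by
    refine le_trans ?_ k1
    rw [pow_add, pow_add, pow_mul]
    exact Nat.mul_le_mul (Nat.mul_le_mul k0 k2) le_rfl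
  have key' := (Nat.pow_le_pow_iff_right hp.one_lt).1 key
  show ((finrank (ZMod p) (Hlc 𝒰 P 0) : ℤ) - finrank (ZMod p) (Hlc 𝒰 P 1)
    + finrank (ZMod p) (Hlc 𝒰 P 2)) + ε * finrank (ZMod p) P ≤ 0
  rw [hdim]
  have : ((finrank (ZMod p) (Hlc 𝒰 P 0) + finrank (ZMod p) (Hlc 𝒰 P 2) + ε * rk a : ℕ) : ℤ) ≤
      (finrank (ZMod p) (Hlc 𝒰 P 1) : ℤ) := by exact_mod_cast key'
  push_cast at this
  linarith

end LecLe

/-- **K10**. -/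
theorem stmt_lecLe (hM : Stmt_eMain) (h1 : Stmt_kumTw) (h0 : Stmt_h0Tw) (h2 : Stmt_h2Tw)
    (hE : Stmt_endTw) (hr : Stmt_rkTw) (hR : Stmt_retract) : Stmt_lecLe :=
  fun 𝒢 Ω _ _ _ 𝒰 p _ N χ ε ctx W _ _ hW hχW P i r hri =>
    LecLe.main hM h1 h0 h2 hE hr hR 𝒢 Ω 𝒰 p N χ ε ctx W hW hχW P i r hri

end Fermat.Agent.TW56.Loc

end
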