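/-
TEAM TW56 -> S56, block LEC (architect helper61): assembly.
`final_LEC : Stmt_INDproj → Stmt_LEC` : the local Euler characteristic formula for `Gal(ℚ̄_q/ℚ_q)`,
conditional only on the induction theorem `Stmt_INDproj` (block IND).
-/
import Fermat.Agent.TW56.Loc.EMul
import Fermat.Agent.TW56.Loc.ETransport
import Fermat.Agent.TW56.Loc.EFinite
import Fermat.Agent.TW56.Loc.EIndex
import Fermat.Agent.TW56.Loc.EReg
import Fermat.Agent.TW56.Loc.ENB
import Fermat.Agent.TW56.Loc.EBall
import Fermat.Agent.TW56.Loc.EUnitsAdd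
import Fermat.Agent.TW56.Loc.EUnits
import Fermat.Agent.TW56.Loc.EMain
import Fermat.Agent.TW56.Loc.KumNat
import Fermat.Agent.TW56.Loc.KumTw
import Fermat.Agent.TW56.Loc.H0Tw
import Fermat.Agent.TW56.Loc.H2Tw
import Fermat.Agent.TW56.Loc.EndTw
import Fermat.Agent.TW56.Loc.RkTw
import Fermat.Agent.TW56.Loc.LecAdd
import Fermat.Agent.TW56.Loc.LecLe
import Fermat.Agent.TW56.Loc.LecKey
import Fermat.Agent.TW56.Loc.LecAll
import Fermat.Agent.TW56.Loc.LecCtx

set_option autoImplicit false

namespace Fermat.Agent.TW56.Loc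

theorem final_eTransport : Stmt_eTransport := stmt_eTransport stmt_opZ

theorem final_eMul : Stmt_eMul := stmt_eMul stmt_opZ

theorem final_eFinite : Stmt_eFinite := stmt_eFinite stmt_opZ final_eMul final_eTransport

theorem final_eMain : Stmt_eMain :=
  stmt_eMain (stmt_eBall (stmt_eLattice final_eFinite) final_eTransport (stmt_eNB stmt_eReg))
    (stmt_eUnitsAdd final_eTransport)
    (stmt_eUnits stmt_opZ final_eMul final_eTransport
      (stmt_eIndex stmt_opZ final_eMul final_eTransport final_eFinite))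

theorem final_lecLe : Stmt_lecLe :=
  stmt_lecLe final_eMain (stmt_kumTw stmt_kumNat) stmt_h0Tw stmt_h2Tw stmt_endTw stmt_rkTw
    stmt_retract

theorem final_lecKey : Stmt_lecKey := stmt_lecKey final_lecLe stmt_lecAdd stmt_twMuPerm

theorem final_lecAll (hI : Stmt_INDproj) : Stmt_lecAll := stmt_lecAll hI final_lecKey stmt_lecAdd

/-- the local Euler characteristic formula, conditional on the induction theorem only. -/
theorem final_LEC (hI : Stmt_INDproj) : Stmt_LEC := stmt_LEC (final_lecAll hI) stmt_lecCtx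

end Fermat.Agent.TW56.Loc
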